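import Mathlib
import Fermat.Prelude.Def_FLTPrelim_Ramification

set_option autoImplicit false

namespace Fermat.Agent.S05.H64

open scoped Pointwise

variable {K L : Type*} [Field K] [Field L] [Algebra K L]

/-- An element of the inertia subgroup (as a subgroup of the full Galois group) lies in the
decomposition subgroup. -/
theorem mem_decomposition_of_mem_inertiaIn {A : ValuationSubring L} {σ : L ≃ₐ[K] L}
    (hσ : σ ∈ A.inertiaSubgroupIn K) : σ ∈ A.decompositionSubgroup K := by
  obtain ⟨τ, -, rfl⟩ := hσ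
  exact τ.2

/-- Elements of the decomposition group preserve membership in `A`. -/
theorem apply_mem_of_mem_decomposition {A : ValuationSubring L} {σ : L ≃ₐ[K] L}
    (hσ : σ ∈ A.decompositionSubgroup K) {x : L} (hx : x ∈ A) : σ x ∈ A := by
  have h : σ • A = A := hσ
  have h2 : σ • x ∈ σ • A := ValuationSubring.smul_mem_pointwise_smul σ x A hx
  rw [h] at h2
  exact h2

theorem apply_mem_iff_of_mem_decomposition {A : ValuationSubring L} {σ : L ≃ₐ[K] L}
    (hσ : σ ∈ A.decompositionSubgroup K) {x : L} : σ x ∈ A ↔ x ∈ A := by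
  refine ⟨fun h => ?_, apply_mem_of_mem_decomposition hσ⟩
  have hinv : σ⁻¹ ∈ A.decompositionSubgroup K := inv_mem hσ
  have := apply_mem_of_mem_decomposition hinv h
  simpa using this

theorem apply_mem_nonunits_iff_of_mem_decomposition {A : ValuationSubring L} {σ : L ≃ₐ[K] L}
    (hσ : σ ∈ A.decompositionSubgroup K) {x : L} : σ x ∈ A.nonunits ↔ x ∈ A.nonunits := by
  rw [ValuationSubring.mem_nonunits_iff_or, ValuationSubring.mem_nonunits_iff_or, ← map_inv₀,
    apply_mem_iff_of_mem_decomposition hσ]
  simp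

/-- An algebraic element has a finite orbit under any automorphism. -/
theorem exists_pow_apply_eq_self [Algebra.IsAlgebraic K L] (σ : L ≃ₐ[K] L) (x : L) :
    ∃ n : ℕ, 0 < n ∧ (σ ^ n) x = x := by
  have hx : IsAlgebraic K x := Algebra.IsAlgebraic.isAlgebraic x
  have hint : IsIntegral K x := hx.isIntegral
  have hfin : ((minpoly K x).rootSet L).Finite := Polynomial.rootSet_finite _ _
  have hmem : ∀ n : ℕ, (σ ^ n) x ∈ (minpoly K x).rootSet L := by
    intro n
    rw [Polynomial.mem_rootSet]
    refine ⟨minpoly.ne_zero hint, ?_⟩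
    have : Polynomial.aeval ((σ ^ n) x) (minpoly K x) = (σ ^ n) (Polynomial.aeval x (minpoly K x)) :=
      Polynomial.aeval_algHom_apply ((σ ^ n : L ≃ₐ[K] L) : L →ₐ[K] L) x (minpoly K x)
    rw [this, minpoly.aeval, map_zero]
  have hfin' : Finite ((minpoly K x).rootSet L) := hfin
  obtain ⟨m, n, hmn, h⟩ := Finite.exists_ne_map_eq_of_infinite
    (fun n : ℕ => (⟨(σ ^ n) x, hmem n⟩ : (minpoly K x).rootSet L))
  have h' : (σ ^ m) x = (σ ^ n) x := congrArg Subtype.val h
  rcases lt_or_gt_of_ne hmn with hlt | hlt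
  · refine ⟨n - m, Nat.sub_pos_of_lt hlt, ?_⟩
    have hn : n = m + (n - m) := by omega
    rw [hn, pow_add, AlgEquiv.mul_apply] at h'
    exact ((σ ^ m).injective h').symm
  · refine ⟨m - n, Nat.sub_pos_of_lt hlt, ?_⟩
    have hn : m = n + (m - n) := by omega
    rw [hn, pow_add, AlgEquiv.mul_apply] at h'
    exact (σ ^ n).injective h'

/-- Elements of the decomposition group preserve the valuation (algebraic extension). -/
theorem valuation_apply_of_mem_decomposition [Algebra.IsAlgebraic K L]
    {A : ValuationSubring L} {σ : L ≃ₐ[K] L}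
    (hσ : σ ∈ A.decompositionSubgroup K) (x : L) : A.valuation (σ x) = A.valuation x := by
  -- key: `σ y / y` is never a nonunit
  have key : ∀ (τ : L ≃ₐ[K] L), τ ∈ A.decompositionSubgroup K → ∀ y : L, y ≠ 0 →
      ¬ (τ y / y ∈ A.nonunits) := by
    intro τ hτ y hy hmem
    obtain ⟨n, hn, hfix⟩ := exists_pow_apply_eq_self τ y
    have hall : ∀ k : ℕ, 0 < k → (τ ^ k) y / y ∈ A.nonunits := by
      intro k hk
      induction k with
      | zero => exact absurd hk (lt_irrefl 0)
      | succ k ih =>
        rcases Nat.eq_zero_or_pos k with rfl | hkpos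
        · simpa using hmem
        · have h1 := ih hkpos
          have hτk : τ ^ k ∈ A.decompositionSubgroup K := pow_mem hτ k
          have h2 : (τ ^ k) (τ y / y) ∈ A.nonunits :=
            (apply_mem_nonunits_iff_of_mem_decomposition hτk).2 hmem
          have hky : (τ ^ k) y ≠ 0 := (map_ne_zero_iff _ (τ ^ k).injective).2 hy
          have heq : (τ ^ (k + 1)) y / y = (τ ^ k) (τ y / y) * ((τ ^ k) y / y) := by
            rw [map_div₀, pow_succ]
            change (τ ^ k) (τ y) / y = _
            field_simp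
          rw [heq]
          exact A.nonunits.mul_mem h2 h1
    have h1 := hall n hn
    rw [hfix, div_self hy] at h1
    rw [ValuationSubring.mem_nonunits_iff, map_one] at h1
    exact lt_irrefl _ h1
  by_cases hx : x = 0
  · simp [hx]
  have hσx : σ x ≠ 0 := by simpa using hx
  have h1 : ¬ (σ x / x ∈ A.nonunits) := key σ hσ x hx
  have h2 : ¬ (x / σ x ∈ A.nonunits) := by
    have := key σ⁻¹ (inv_mem hσ) (σ x) hσx
    simpa using this
  rw [ValuationSubring.mem_nonunits_iff, map_div₀, not_lt] at h1 h2
  have hvx : A.valuation x ≠ 0 := by simpa using hx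
  have hvσx : A.valuation (σ x) ≠ 0 := by simpa using hσx
  rw [one_le_div₀ (zero_lt_iff.2 hvx)] at h1
  rw [one_le_div₀ (zero_lt_iff.2 hvσx)] at h2
  exact le_antisymm h2 h1

/-- Elements of the inertia group act trivially modulo the maximal ideal. -/
theorem apply_sub_mem_nonunits_of_mem_inertiaIn {A : ValuationSubring L} {σ : L ≃ₐ[K] L}
    (hσ : σ ∈ A.inertiaSubgroupIn K) {x : L} (hx : x ∈ A) : σ x - x ∈ A.nonunits := by
  obtain ⟨τ, hτ, rfl⟩ := hσ
  have hker : MulSemiringAction.toRingAut (A.decompositionSubgroup K)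
      (IsLocalRing.ResidueField A) τ = 1 := hτ
  have h1 : τ • (IsLocalRing.residue A ⟨x, hx⟩) = IsLocalRing.residue A ⟨x, hx⟩ := by
    have := congrArg (fun f : RingAut (IsLocalRing.ResidueField A) =>
      f (IsLocalRing.residue A ⟨x, hx⟩)) hker
    simpa using this
  have h2 : IsLocalRing.residue A (τ • (⟨x, hx⟩ : A)) = IsLocalRing.residue A ⟨x, hx⟩ := by
    rw [← h1]
    rfl
  have h3 : τ • (⟨x, hx⟩ : A) - ⟨x, hx⟩ ∈ IsLocalRing.maximalIdeal A := by
    rw [← Ideal.Quotient.eq]
    exact h2
  rw [← ValuationSubring.coe_mem_nonunits_iff] at h3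
  exact h3

/-- If `u` is a unit of `A`, then an inertia element `σ` satisfies `σ u / u ≡ 1` modulo the
maximal ideal. -/
theorem apply_div_sub_one_mem_nonunits_of_unit {A : ValuationSubring L} {σ : L ≃ₐ[K] L}
    (hσ : σ ∈ A.inertiaSubgroupIn K) {u : L} (hu : u ∈ A) (hu' : u⁻¹ ∈ A) (hu0 : u ≠ 0) :
    σ u / u - 1 ∈ A.nonunits := by
  have h1 : σ u - u ∈ A.nonunits := apply_sub_mem_nonunits_of_mem_inertiaIn hσ hu
  have h2 : σ u / u - 1 = (σ u - u) * u⁻¹ := by field_simp
  rw [h2, ValuationSubring.mem_nonunits_iff, map_mul]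
  have h3 : A.valuation (σ u - u) < 1 := (ValuationSubring.mem_nonunits_iff A).1 h1
  have h4 : A.valuation u⁻¹ ≤ 1 := (A.valuation_le_one_iff _).2 hu'
  calc A.valuation (σ u - u) * A.valuation u⁻¹ ≤ A.valuation (σ u - u) * 1 := by gcongr
    _ < 1 := by rwa [mul_one]

/-- If `x = c * u` with `c` in the base field and `u` a unit of `A`, then an inertia element `σ`
satisfies `σ x / x ≡ 1` modulo the maximal ideal. -/
theorem apply_div_sub_one_mem_nonunits {A : ValuationSubring L} {σ : L ≃ₐ[K] L}
    (hσ : σ ∈ A.inertiaSubgroupIn K) (c : K) {u : L} (hu : u ∈ A) (hu' : u⁻¹ ∈ A)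
    (hu0 : u ≠ 0) (hc : c ≠ 0) :
    σ (algebraMap K L c * u) / (algebraMap K L c * u) - 1 ∈ A.nonunits := by
  have hc' : algebraMap K L c ≠ 0 := (map_ne_zero_iff _ (algebraMap K L).injective).2 hc
  have h : σ (algebraMap K L c * u) / (algebraMap K L c * u) = σ u / u := by
    rw [map_mul, AlgEquiv.commutes]
    field_simp
  rw [h]
  exact apply_div_sub_one_mem_nonunits_of_unit hσ hu hu' hu0



section LiesOver

variable {L : Type*} [Field L]

theorem intCast_mem_valuationSubring (A : ValuationSubring L) (n : ℤ) : (n : L) ∈ A :=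
  _root_.intCast_mem A n

theorem natCast_mem_valuationSubring (A : ValuationSubring L) (n : ℕ) : (n : L) ∈ A :=
  _root_.natCast_mem A n

theorem valuation_intCast_le_one (A : ValuationSubring L) (n : ℤ) : A.valuation (n : L) ≤ 1 :=
  (A.valuation_le_one_iff _).2 (intCast_mem_valuationSubring A n)

theorem valuation_natCast_lt_one {A : ValuationSubring L} {q : ℕ} (hA : A.LiesOverPrime q) :
    A.valuation (q : L) < 1 :=
  (ValuationSubring.mem_nonunits_iff A).1 hA

/-- An integer prime to `q` is a unit of any valuation subring lying over `q`. -/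
theorem valuation_intCast_eq_one {A : ValuationSubring L} {q : ℕ} (hA : A.LiesOverPrime q)
    (hq : q.Prime) {n : ℤ} (h : ¬ (q : ℤ) ∣ n) : A.valuation (n : L) = 1 := by
  have hcop : IsCoprime (q : ℤ) n :=
    (Int.isCoprime_iff_gcd_eq_one).2 ((Nat.Prime.coprime_iff_not_dvd hq).2 (by
      intro h'
      exact h (Int.natCast_dvd.2 h')))
  obtain ⟨a, b, hab⟩ := hcop
  have hab' : (a : L) * (q : L) + (b : L) * (n : L) = 1 := by exact_mod_cast congrArg (Int.cast : ℤ → L) hab
  have h1 : A.valuation ((a : L) * (q : L)) < 1 := by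
    rw [map_mul]
    calc A.valuation (a : L) * A.valuation (q : L) ≤ 1 * A.valuation (q : L) := by
          gcongr
          exact valuation_intCast_le_one A a
      _ < 1 := by rw [one_mul]; exact valuation_natCast_lt_one hA
  have h2 : A.valuation ((b : L) * (n : L)) = 1 := by
    have h3 : (b : L) * (n : L) = 1 - (a : L) * (q : L) := by rw [← hab']; ring
    rw [h3]
    have := Valuation.map_one_sub_of_lt (v := A.valuation) h1
    exact this
  rw [map_mul] at h2
  refine le_antisymm (valuation_intCast_le_one A n) ?_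
  calc (1 : A.ValueGroup) = A.valuation (b : L) * A.valuation (n : L) := h2.symm
    _ ≤ 1 * A.valuation (n : L) := by
        gcongr
        exact valuation_intCast_le_one A b
    _ = A.valuation (n : L) := one_mul _

/-- The valuation of a nonzero integer is the corresponding power of the valuation of `q`. -/
theorem valuation_intCast {A : ValuationSubring L} {q : ℕ} (hA : A.LiesOverPrime q)
    (hq : q.Prime) {n : ℤ} (hn : n ≠ 0) :
    A.valuation (n : L) = A.valuation (q : L) ^ padicValInt q n := by
  have : Fact q.Prime := ⟨hq⟩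
  obtain ⟨m, hm⟩ : (q : ℤ) ^ padicValInt q n ∣ n := padicValInt_dvd n
  have hm' : ¬ (q : ℤ) ∣ m := by
    intro hdvd
    obtain ⟨k, rfl⟩ := hdvd
    have hdiv : (q : ℤ) ^ (padicValInt q n + 1) ∣ n := ⟨k, hm.trans (by ring)⟩
    have := (padicValInt_dvd_iff (p := q) (padicValInt q n + 1) n).1 hdiv
    rcases this with h0 | hle
    · exact hn h0
    · omega
  have hcast : (n : L) = (q : L) ^ padicValInt q n * (m : L) := by
    have := congrArg (Int.cast : ℤ → L) hm
    push_cast at this
    exact this
  rw [hcast, map_mul, map_pow, valuation_intCast_eq_one hA hq hm', mul_one]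

end LiesOver

end Fermat.Agent.S05.H64
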