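import Mathlib

/-!
Rational-valued additive valuation attached to a valuation subring `A` of a field `K`
algebraic over the integers, with a rational prime `q` in the maximal ideal (owner: helper13).
-/

set_option autoImplicit false

namespace Fermat.Agent.S05.H13

open ValuationSubring

section General

variable {R : Type*} [CommRing R] {Γ₀ : Type*} [LinearOrderedCommGroupWithZero Γ₀]

theorem exists_ne_valuation_eq_of_sum_eq_zero (v : Valuation R Γ₀) {ι : Type*} [DecidableEq ι]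
    (s : Finset ι) (f : ι → R) (hs : s.Nonempty) (hf : ∀ i ∈ s, v (f i) ≠ 0)
    (hsum : ∑ i ∈ s, f i = 0) : ∃ i ∈ s, ∃ j ∈ s, i ≠ j ∧ v (f i) = v (f j) := by
  obtain ⟨j, hj, hmax⟩ := s.exists_max_image (fun i => v (f i)) hs
  by_contra hcon
  push Not at hcon
  have hlt : ∀ i ∈ s \ {j}, v (f i) < v (f j) := by
    intro i hi
    rw [Finset.mem_sdiff, Finset.mem_singleton] at hi
    exact lt_of_le_of_ne (hmax i hi.1) (hcon i hi.1 j hj hi.2)
  have := v.map_sum_eq_of_lt hj hlt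
  rw [hsum, map_zero] at this
  exact hf j hj this.symm

theorem pow_sub_eq_zpow_of_mul_eq {V π : Γ₀} (hV : V ≠ 0) (hπ : π ≠ 0) {i j a b : ℕ}
    (hij : i < j) (h : π ^ a * V ^ i = π ^ b * V ^ j) : V ^ (j - i) = π ^ ((a : ℤ) - b) := by
  have hj : V ^ j = V ^ i * V ^ (j - i) := by
    rw [← pow_add]; congr 1; omega
  rw [hj, ← mul_assoc, mul_comm (π ^ b) (V ^ i), mul_assoc, mul_comm (π ^ a) (V ^ i)] at h
  have h' := mul_left_cancel₀ (pow_ne_zero i hV) h
  rw [zpow_sub₀ hπ, zpow_natCast, zpow_natCast, h', mul_div_cancel_left₀ _ (pow_ne_zero b hπ)]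

end General

section Rat

variable {K : Type*} [Field K] (A : ValuationSubring K) {q : ℕ}

theorem valuation_q_lt_one (hA : (q : K) ∈ A.nonunits) : A.valuation (q : K) < 1 :=
  (ValuationSubring.mem_nonunits_iff A).mp hA

theorem valuation_intCast_le_one (n : ℤ) : A.valuation (n : K) ≤ 1 :=
  (A.valuation_le_one_iff _).mpr (intCast_mem A n)

variable [CharZero K]

theorem valuation_q_ne_zero (hq : q.Prime) : A.valuation (q : K) ≠ 0 := by
  rw [Ne, Valuation.zero_iff]
  exact_mod_cast hq.ne_zero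

theorem valuation_intCast_eq_one (hq : q.Prime) (hA : (q : K) ∈ A.nonunits) {n : ℤ}
    (hn : ¬ (q : ℤ) ∣ n) : A.valuation (n : K) = 1 := by
  refine le_antisymm (valuation_intCast_le_one A n) (not_lt.mp fun hlt => ?_)
  have hcop : IsCoprime (q : ℤ) n :=
    (Nat.prime_iff_prime_int.mp hq).irreducible.coprime_iff_not_dvd.mpr hn
  obtain ⟨a, b, hab⟩ := hcop
  have h1 : (a : K) * q + b * n = 1 := by exact_mod_cast congrArg (Int.cast : ℤ → K) hab
  have h2 : A.valuation ((a : K) * q + b * n) < 1 := by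
    apply Valuation.map_add_lt
    · rw [map_mul]
      exact lt_of_le_of_lt (mul_le_of_le_one_left' (valuation_intCast_le_one A a))
        (valuation_q_lt_one A hA)
    · rw [map_mul]
      exact lt_of_le_of_lt (mul_le_of_le_one_left' (valuation_intCast_le_one A b)) hlt
  rw [h1, map_one] at h2
  exact lt_irrefl _ h2

theorem exists_valuation_intCast_eq_pow (hq : q.Prime) (hA : (q : K) ∈ A.nonunits) {n : ℤ}
    (hn : n ≠ 0) : ∃ k : ℕ, A.valuation (n : K) = A.valuation (q : K) ^ k := by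
  have hfin : FiniteMultiplicity (q : ℤ) n := by
    rw [Int.finiteMultiplicity_iff]
    exact ⟨by simpa using hq.ne_one, hn⟩
  obtain ⟨c, hc, hdvd⟩ := hfin.exists_eq_pow_mul_and_not_dvd
  refine ⟨multiplicity (q : ℤ) n, ?_⟩
  have : (n : K) = (q : K) ^ multiplicity (q : ℤ) n * (c : K) := by
    exact_mod_cast congrArg (Int.cast : ℤ → K) hc
  rw [this, map_mul, map_pow, valuation_intCast_eq_one A hq hA hdvd, mul_one]

theorem exists_pow_eq_zpow [Algebra.IsAlgebraic ℤ K] (hq : q.Prime) (hA : (q : K) ∈ A.nonunits)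
    {x : K} (hx : x ≠ 0) :
    ∃ (n : ℕ) (m : ℤ), 0 < n ∧ A.valuation x ^ n = A.valuation (q : K) ^ m := by
  classical
  obtain ⟨p, hp0, hpx⟩ := Algebra.IsAlgebraic.isAlgebraic (R := ℤ) x
  rw [Polynomial.aeval_def, Polynomial.eval₂_eq_sum, Polynomial.sum_def] at hpx
  have hVx : A.valuation x ≠ 0 := by rwa [Ne, Valuation.zero_iff]
  have hπ := valuation_q_ne_zero A hq
  have hne : ∀ i ∈ p.support, A.valuation (algebraMap ℤ K (p.coeff i) * x ^ i) ≠ 0 := by
    intro i hi
    rw [Ne, Valuation.zero_iff, mul_eq_zero, not_or]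
    refine ⟨?_, pow_ne_zero i hx⟩
    rw [eq_intCast, Int.cast_eq_zero]
    exact Polynomial.mem_support_iff.mp hi
  obtain ⟨i, hi, j, hj, hij, hv⟩ := exists_ne_valuation_eq_of_sum_eq_zero A.valuation p.support
    (fun i => algebraMap ℤ K (p.coeff i) * x ^ i)
    (Polynomial.support_nonempty.mpr hp0) hne hpx
  obtain ⟨a, ha⟩ := exists_valuation_intCast_eq_pow A hq hA (Polynomial.mem_support_iff.mp hi)
  obtain ⟨b, hb⟩ := exists_valuation_intCast_eq_pow A hq hA (Polynomial.mem_support_iff.mp hj)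
  simp only [map_mul, map_pow, eq_intCast] at hv
  rw [ha, hb] at hv
  rcases lt_or_gt_of_ne hij with h | h
  · exact ⟨j - i, (a : ℤ) - b, by omega, pow_sub_eq_zpow_of_mul_eq hVx hπ h hv⟩
  · exact ⟨i - j, (b : ℤ) - a, by omega, pow_sub_eq_zpow_of_mul_eq hVx hπ h hv.symm⟩

end Rat

section WQ

variable {K : Type*} [Field K] (A : ValuationSubring K) (q : ℕ)

/-- auxiliary: exponent ratio `m / n` with `g ^ n = π ^ m`, junk value `0` if none. -/
noncomputable def wqAux {Γ₀ : Type*} [LinearOrderedCommGroupWithZero Γ₀] (π g : Γ₀) : ℚ :=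
  open Classical in
  if h : ∃ (n : ℕ) (m : ℤ), 0 < n ∧ g ^ n = π ^ m then
    (h.choose_spec.choose : ℚ) / (h.choose : ℚ) else 0

/-- `ℚ`-valued additive valuation attached to a valuation subring `A` with `q` a nonunit,
normalised by `wq q = 1`; junk value `0` at `0`. -/
noncomputable def wq (x : K) : ℚ :=
  wqAux (A.valuation (q : K)) (A.valuation x)

variable {A q}
variable [CharZero K]

theorem zpow_q_injective (hq : q.Prime) (hA : (q : K) ∈ A.nonunits) :
    Function.Injective fun m : ℤ => A.valuation (q : K) ^ m :=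
  (zpow_right_strictAnti₀ (zero_lt_iff.mpr (valuation_q_ne_zero A hq))
    (valuation_q_lt_one A hA)).injective

theorem zpow_q_le_iff (hq : q.Prime) (hA : (q : K) ∈ A.nonunits) {m m' : ℤ} :
    A.valuation (q : K) ^ m ≤ A.valuation (q : K) ^ m' ↔ m' ≤ m :=
  (zpow_right_strictAnti₀ (zero_lt_iff.mpr (valuation_q_ne_zero A hq))
    (valuation_q_lt_one A hA)).le_iff_ge

theorem wq_eq (hq : q.Prime) (hA : (q : K) ∈ A.nonunits) {x : K} {n : ℕ} {m : ℤ} (hn : 0 < n)
    (h : A.valuation x ^ n = A.valuation (q : K) ^ m) : wq A q x = (m : ℚ) / (n : ℚ) := by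
  have hex : ∃ (n : ℕ) (m : ℤ), 0 < n ∧ A.valuation x ^ n = A.valuation (q : K) ^ m :=
    ⟨n, m, hn, h⟩
  rw [wq, wqAux, dif_pos hex]
  obtain ⟨hn', h'⟩ := hex.choose_spec.choose_spec
  set n' := hex.choose
  set m' := hex.choose_spec.choose
  have key : m' * n = m * n' := by
    apply zpow_q_injective hq hA
    show A.valuation (q : K) ^ (m' * (n : ℤ)) = A.valuation (q : K) ^ (m * (n' : ℤ))
    rw [zpow_mul, zpow_mul, ← h', ← h, zpow_natCast, zpow_natCast, ← pow_mul, ← pow_mul, mul_comm]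
  have hn0 : (n : ℚ) ≠ 0 := by exact_mod_cast hn.ne'
  have hn'0 : (n' : ℚ) ≠ 0 := by exact_mod_cast hn'.ne'
  rw [div_eq_div_iff hn'0 hn0]
  exact_mod_cast key

end WQ

section WQ

variable {K : Type*} [Field K] {A : ValuationSubring K} {q : ℕ}

theorem wq_neg (x : K) : wq A q (-x) = wq A q x := by
  unfold wq
  rw [Valuation.map_neg]

variable [CharZero K]

theorem wq_one (hq : q.Prime) (hA : (q : K) ∈ A.nonunits) : wq A q (1 : K) = 0 := by
  have := wq_eq hq hA (x := (1 : K)) (n := 1) (m := 0) one_pos (by simp)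
  simpa using this

theorem wq_q (hq : q.Prime) (hA : (q : K) ∈ A.nonunits) : wq A q (q : K) = 1 := by
  have := wq_eq hq hA (x := (q : K)) (n := 1) (m := 1) one_pos (by simp)
  simpa using this

variable [Algebra.IsAlgebraic ℤ K]

theorem wq_le_iff (hq : q.Prime) (hA : (q : K) ∈ A.nonunits) {x y : K} (hx : x ≠ 0) (hy : y ≠ 0) :
    wq A q x ≤ wq A q y ↔ A.valuation y ≤ A.valuation x := by
  obtain ⟨n, m, hn, h⟩ := exists_pow_eq_zpow A hq hA hx
  obtain ⟨n', m', hn', h'⟩ := exists_pow_eq_zpow A hq hA hy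
  rw [wq_eq hq hA hn h, wq_eq hq hA hn' h']
  have hn0 : (0 : ℚ) < n := by exact_mod_cast hn
  have hn'0 : (0 : ℚ) < n' := by exact_mod_cast hn'
  rw [div_le_div_iff₀ hn0 hn'0]
  have h1 : A.valuation y ≤ A.valuation x ↔ A.valuation y ^ (n' * n) ≤ A.valuation x ^ (n * n') := by
    rw [mul_comm n' n]
    exact (pow_le_pow_iff_left₀ zero_le zero_le (Nat.mul_pos hn hn').ne').symm
  rw [h1, pow_mul, pow_mul, h, h', ← zpow_natCast, ← zpow_natCast, ← zpow_mul, ← zpow_mul,
    zpow_q_le_iff hq hA]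
  exact_mod_cast Iff.rfl

theorem wq_lt_iff (hq : q.Prime) (hA : (q : K) ∈ A.nonunits) {x y : K} (hx : x ≠ 0) (hy : y ≠ 0) :
    wq A q x < wq A q y ↔ A.valuation y < A.valuation x := by
  rw [← not_le, ← not_le, wq_le_iff hq hA hy hx]

theorem wq_mul (hq : q.Prime) (hA : (q : K) ∈ A.nonunits) {x y : K} (hx : x ≠ 0) (hy : y ≠ 0) :
    wq A q (x * y) = wq A q x + wq A q y := by
  obtain ⟨n, m, hn, h⟩ := exists_pow_eq_zpow A hq hA hx
  obtain ⟨n', m', hn', h'⟩ := exists_pow_eq_zpow A hq hA hy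
  have hπ := valuation_q_ne_zero A hq
  have hxy : A.valuation (x * y) ^ (n * n') = A.valuation (q : K) ^ (m * n' + m' * n) := by
    rw [map_mul, mul_pow, pow_mul, h, mul_comm n n', pow_mul, h', zpow_add₀ hπ, zpow_mul, zpow_mul,
      zpow_natCast, zpow_natCast]
  rw [wq_eq hq hA hn h, wq_eq hq hA hn' h', wq_eq hq hA (Nat.mul_pos hn hn') hxy]
  have hn0 : (n : ℚ) ≠ 0 := by exact_mod_cast hn.ne'
  have hn'0 : (n' : ℚ) ≠ 0 := by exact_mod_cast hn'.ne'
  push_cast
  field_simp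

theorem wq_inv (hq : q.Prime) (hA : (q : K) ∈ A.nonunits) {x : K} (hx : x ≠ 0) :
    wq A q x⁻¹ = - wq A q x := by
  have h := wq_mul hq hA hx (inv_ne_zero hx)
  rw [mul_inv_cancel₀ hx, wq_one hq hA] at h
  linarith

theorem wq_div (hq : q.Prime) (hA : (q : K) ∈ A.nonunits) {x y : K} (hx : x ≠ 0) (hy : y ≠ 0) :
    wq A q (x / y) = wq A q x - wq A q y := by
  rw [div_eq_mul_inv, wq_mul hq hA hx (inv_ne_zero hy), wq_inv hq hA hy]; ring

theorem wq_pow (hq : q.Prime) (hA : (q : K) ∈ A.nonunits) {x : K} (hx : x ≠ 0) (k : ℕ) :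
    wq A q (x ^ k) = k * wq A q x := by
  induction k with
  | zero => simp [wq_one hq hA]
  | succ k ih => rw [pow_succ, wq_mul hq hA (pow_ne_zero k hx) hx, ih]; push_cast; ring

theorem wq_nonneg_iff (hq : q.Prime) (hA : (q : K) ∈ A.nonunits) {x : K} (hx : x ≠ 0) :
    0 ≤ wq A q x ↔ x ∈ A := by
  rw [← wq_one hq hA, wq_le_iff hq hA one_ne_zero hx, map_one, A.valuation_le_one_iff]

theorem wq_pos_iff (hq : q.Prime) (hA : (q : K) ∈ A.nonunits) {x : K} (hx : x ≠ 0) :
    0 < wq A q x ↔ x ∈ A.nonunits := by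
  rw [← wq_one hq hA, wq_lt_iff hq hA one_ne_zero hx, map_one, ValuationSubring.mem_nonunits_iff]

theorem wq_neg_iff (hq : q.Prime) (hA : (q : K) ∈ A.nonunits) {x : K} (hx : x ≠ 0) :
    wq A q x < 0 ↔ x ∉ A := by
  rw [← not_le, wq_nonneg_iff hq hA hx]

theorem wq_add_ge (hq : q.Prime) (hA : (q : K) ∈ A.nonunits) {x y : K} (hx : x ≠ 0) (hy : y ≠ 0)
    (hxy : x + y ≠ 0) : min (wq A q x) (wq A q y) ≤ wq A q (x + y) := by
  rcases le_max_iff.mp (A.valuation.map_add x y) with h | h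
  · exact le_trans (min_le_left _ _) ((wq_le_iff hq hA hx hxy).mpr h)
  · exact le_trans (min_le_right _ _) ((wq_le_iff hq hA hy hxy).mpr h)

theorem wq_add_eq_of_lt (hq : q.Prime) (hA : (q : K) ∈ A.nonunits) {x y : K} (hx : x ≠ 0)
    (hy : y ≠ 0) (h : wq A q x < wq A q y) : x + y ≠ 0 ∧ wq A q (x + y) = wq A q x := by
  have hv : A.valuation y < A.valuation x := (wq_lt_iff hq hA hx hy).mp h
  have hv' : A.valuation (x + y) = A.valuation x := A.valuation.map_add_eq_of_lt_left hv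
  have hne : x + y ≠ 0 := by
    intro h0
    rw [h0, map_zero] at hv'
    exact hx ((Valuation.zero_iff _).mp hv'.symm)
  refine ⟨hne, le_antisymm ?_ ?_⟩
  · exact (wq_le_iff hq hA hne hx).mpr hv'.symm.le
  · exact (wq_le_iff hq hA hx hne).mpr hv'.le

end WQ

end Fermat.Agent.S05.H13
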