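import Fermat.Agent.S05.Defs
import Fermat.Agent.S05.WQ_helper13
import Fermat.Agent.S05.Inertia_helper64
import Fermat.Prelude.Def_FLTPrelim_Ramification

/-! S05-A3 (owner: helper13): the `ℚ`-valued valuation attached to a valuation subring of an
algebraic extension of `ℚ` lying over a prime `q`, with the inertia facts. -/

set_option autoImplicit false

namespace Fermat.Agent.S05.H13

open ValuationSubring

section

variable {K : Type*} [Field K] [CharZero K] [Algebra.IsAlgebraic ℤ K]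

/-- the `QVal` attached to `A` and `q`. -/
noncomputable def qval (A : ValuationSubring K) {q : ℕ} (hq : q.Prime)
    (hA : (q : K) ∈ A.nonunits) : QVal K where
  w := wq A q
  map_one := wq_one hq hA
  map_mul _ _ hx hy := wq_mul hq hA hx hy
  map_add _ _ hx hy hxy := wq_add_ge hq hA hx hy hxy

theorem qval_w (A : ValuationSubring K) {q : ℕ} (hq : q.Prime) (hA : (q : K) ∈ A.nonunits)
    (x : K) : (qval A hq hA).w x = wq A q x := rfl

theorem qval_intCast (A : ValuationSubring K) {q : ℕ} (hq : q.Prime)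
    (hA : (q : K) ∈ A.nonunits) {k : ℤ} (hk : k ≠ 0) :
    (qval A hq hA).w (k : K) = padicValInt q k := by
  rw [qval_w]
  have h := H64.valuation_intCast (A := A) (q := q) hA hq hk
  have h' : A.valuation (k : K) ^ 1 = A.valuation (q : K) ^ ((padicValInt q k : ℕ) : ℤ) := by
    rw [pow_one, zpow_natCast, h]
  have := wq_eq hq hA one_pos h'
  simpa using this

theorem qval_ge_zero_iff (A : ValuationSubring K) {q : ℕ} (hq : q.Prime)
    (hA : (q : K) ∈ A.nonunits) {x : K} : (qval A hq hA).Ge x 0 ↔ x ∈ A := by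
  by_cases hx : x = 0
  · subst hx; exact ⟨fun _ => A.zero_mem, fun _ => Or.inl rfl⟩
  · rw [QVal.ge_iff hx, qval_w, wq_nonneg_iff hq hA hx]

theorem qval_gt_zero_iff (A : ValuationSubring K) {q : ℕ} (hq : q.Prime)
    (hA : (q : K) ∈ A.nonunits) {x : K} : (qval A hq hA).Gt x 0 ↔ x ∈ A.nonunits := by
  by_cases hx : x = 0
  · subst hx; exact ⟨fun _ => A.nonunits.zero_mem, fun _ => Or.inl rfl⟩
  · rw [QVal.gt_iff hx, qval_w, wq_pos_iff hq hA hx]

theorem qval_eq_of_valuation_eq (A : ValuationSubring K) {q : ℕ} (hq : q.Prime)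
    (hA : (q : K) ∈ A.nonunits) {x y : K} (h : A.valuation x = A.valuation y) :
    (qval A hq hA).w x = (qval A hq hA).w y := by
  rw [qval_w, qval_w, wq, wq, h]

end

/-- general form of S05-A3, for any field `K` algebraic over `ℚ`. -/
theorem exists_qval_general {K : Type*} [Field K] [Algebra ℚ K] [Algebra.IsAlgebraic ℚ K]
    (A : ValuationSubring K) (q : ℕ) (hq : q.Prime) (hA : A.LiesOverPrime q) :
    ∃ v : QVal K,
      (∀ k : ℤ, k ≠ 0 → v.w (k : K) = padicValInt q k) ∧
      (∀ x : K, v.Ge x 0 ↔ x ∈ A) ∧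
      (∀ x : K, v.Gt x 0 ↔ x ∈ A.nonunits) ∧
      (∀ x y : K, A.valuation x = A.valuation y → v.w x = v.w y) ∧
      (∀ σ ∈ A.inertiaSubgroupIn ℚ, ∀ x : K, v.w (σ x) = v.w x) ∧
      (∀ σ ∈ A.inertiaSubgroupIn ℚ, ∀ x : K, v.Ge x 0 → v.Gt (σ x - x) 0) := by
  have : CharZero K := algebraRat.charZero K
  have : Algebra.IsAlgebraic ℤ K :=
    (IsFractionRing.comap_isAlgebraic_iff (A := ℤ) (K := ℚ) (C := K)).mpr inferInstance
  have hA' : (q : K) ∈ A.nonunits := hA
  refine ⟨qval A hq hA', fun k hk => qval_intCast A hq hA' hk,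
    fun x => qval_ge_zero_iff A hq hA', fun x => qval_gt_zero_iff A hq hA',
    fun x y h => qval_eq_of_valuation_eq A hq hA' h, ?_, ?_⟩
  · intro σ hσ x
    exact qval_eq_of_valuation_eq A hq hA'
      (H64.valuation_apply_of_mem_decomposition (H64.mem_decomposition_of_mem_inertiaIn hσ) x)
  · intro σ hσ x hx
    rw [qval_gt_zero_iff]
    exact H64.apply_sub_mem_nonunits_of_mem_inertiaIn hσ ((qval_ge_zero_iff A hq hA').mp hx)

/-- `ℚ̄` is algebraic over `ℚ` for any `ℚ`-algebra structure on it. -/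
theorem isAlgebraic_rat_algebraicClosure (i : Algebra ℚ (AlgebraicClosure ℚ)) :
    @Algebra.IsAlgebraic ℚ (AlgebraicClosure ℚ) _ _ i := by
  have e : i = AlgebraicClosure.instAlgebra ℚ := Subsingleton.elim _ _
  rw [e]
  exact AlgebraicClosure.isAlgebraic ℚ

end Fermat.Agent.S05.H13

namespace Fermat.Agent.S05

/-- A3: the valuation attached to a valuation subring of `ℚ̄` over `q`, with inertia facts -/
theorem exists_qval (A : ValuationSubring (AlgebraicClosure ℚ)) (q : ℕ) (hq : q.Prime)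
    (hA : A.LiesOverPrime q) :
    ∃ v : QVal (AlgebraicClosure ℚ),
      (∀ k : ℤ, k ≠ 0 → v.w (k : AlgebraicClosure ℚ) = padicValInt q k) ∧
      (∀ σ ∈ A.inertiaSubgroupIn ℚ, ∀ x : AlgebraicClosure ℚ, v.w (σ x) = v.w x) ∧
      (∀ σ ∈ A.inertiaSubgroupIn ℚ, ∀ x : AlgebraicClosure ℚ, v.Ge x 0 → v.Gt (σ x - x) 0) := by
  have : Algebra.IsAlgebraic ℚ (AlgebraicClosure ℚ) := H13.isAlgebraic_rat_algebraicClosure _
  obtain ⟨v, h1, -, -, -, h2, h3⟩ := H13.exists_qval_general A q hq hA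
  exact ⟨v, h1, h2, h3⟩

end Fermat.Agent.S05
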