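import Fermat.Agent.S05.Defs

set_option autoImplicit false

namespace Fermat.Agent.S05

open WeierstrassCurve WeierstrassCurve.Affine Polynomial

variable {K : Type*} [Field K]

namespace helper64

/-- Vieta relations for the line through two points (general Weierstrass curve). -/
theorem vieta [DecidableEq K] {W : WeierstrassCurve K}
    {x₁ y₁ x₂ y₂ : K} (h₁ : W.toAffine.Equation x₁ y₁) (h₂ : W.toAffine.Equation x₂ y₂)
    (hxy : ¬(x₁ = x₂ ∧ y₁ = W.toAffine.negY x₂ y₂)) :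
    let L := W.toAffine.slope x₁ x₂ y₁ y₂
    let x₃ := W.toAffine.addX x₁ x₂ L
    x₁ + x₂ + x₃ = L ^ 2 + W.a₁ * L - W.a₂ ∧
    x₁ * x₂ + x₁ * x₃ + x₂ * x₃ =
      2 * x₁ * L ^ 2 + (W.a₁ * x₁ - 2 * y₁ - W.a₃) * L + (-W.a₁ * y₁ + W.a₄) ∧
    x₁ * x₂ * x₃ = x₁ ^ 2 * L ^ 2 - (2 * x₁ * y₁ + W.a₃ * x₁) * L + (y₁ ^ 2 + W.a₃ * y₁ - W.a₆) := by
  intro L x₃
  have key := addPolynomial_slope h₁ h₂ hxy
  rw [addPolynomial_eq, neg_inj, Cubic.prod_X_sub_C_eq, Cubic.toPoly_injective] at key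
  have hb := congrArg Cubic.b key
  have hc := congrArg Cubic.c key
  have hd := congrArg Cubic.d key
  simp only at hb hc hd
  refine ⟨?_, ?_, ?_⟩
  · simp only [x₃, L, addX]; ring
  · linear_combination -hc
  · linear_combination hd

end helper64

/-- A1: collinearity API -/
theorem exists_triple [DecidableEq K] {W : WeierstrassCurve K}
    (h₁ : W.a₁ = 0) (h₃ : W.a₃ = 0) (h₆ : W.a₆ = 0)
    {x₁ y₁ x₂ y₂ x₃ y₃ : K} (hP₁ : W.toAffine.Nonsingular x₁ y₁)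
    (hP₂ : W.toAffine.Nonsingular x₂ y₂) (hP₃ : W.toAffine.Nonsingular x₃ y₃)
    (h : Point.some x₁ y₁ hP₁ + Point.some x₂ y₂ hP₂ + Point.some x₃ y₃ hP₃ = 0) :
    ∃ T : Triple W.a₂ W.a₄, T.x₁ = x₁ ∧ T.y₁ = y₁ ∧ T.x₂ = x₂ ∧ T.y₂ = y₂ ∧
      T.x₃ = x₃ ∧ T.y₃ = y₃ := by
  have hxy : ¬(x₁ = x₂ ∧ y₁ = W.toAffine.negY x₂ y₂) := by
    rintro ⟨hx, hy⟩
    rw [Point.add_of_Y_eq hx hy, zero_add] at h
    exact Point.some_ne_zero hP₃ h
  set L := W.toAffine.slope x₁ x₂ y₁ y₂ with hL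
  have hsum : Point.some x₁ y₁ hP₁ + Point.some x₂ y₂ hP₂ = -Point.some x₃ y₃ hP₃ :=
    eq_neg_of_add_eq_zero_left h
  rw [Point.add_some hxy, Point.neg_some] at hsum
  have hx₃ : W.toAffine.addX x₁ x₂ L = x₃ := by
    have := hsum
    simp only [Point.some.injEq] at this
    exact this.1
  have hy₃ : W.toAffine.addY x₁ x₂ y₁ L = W.toAffine.negY x₃ y₃ := by
    have := hsum
    simp only [Point.some.injEq] at this
    exact this.2
  have hy₃' : y₃ = L * (x₃ - x₁) + y₁ := by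
    simp only [addY, negY, negAddY, h₁, h₃] at hy₃
    rw [hx₃] at hy₃
    linear_combination hy₃
  obtain ⟨v1, v2, v3⟩ := helper64.vieta hP₁.1 hP₂.1 hxy
  simp only [h₁, h₃, h₆] at v1 v2 v3
  rw [← hL, hx₃] at v1 v2 v3
  have hline₂ : y₂ = L * x₂ + (y₁ - L * x₁) := by
    by_cases hx : x₁ = x₂
    · have hy : y₁ ≠ W.toAffine.negY x₂ y₂ := fun hy => hxy ⟨hx, hy⟩
      have := Y_eq_of_Y_ne hP₁.1 hP₂.1 hx hy
      rw [← this, hx]; ring
    · have hLs : L = (y₁ - y₂) / (x₁ - x₂) := by rw [hL, slope_of_X_ne hx]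
      have hne : x₁ - x₂ ≠ 0 := sub_ne_zero.2 hx
      rw [hLs]
      field_simp
      ring
  refine ⟨⟨x₁, x₂, x₃, y₁, y₂, y₃, L, y₁ - L * x₁, by ring, hline₂, ?_, ?_, ?_, ?_⟩,
    rfl, rfl, rfl, rfl, rfl, rfl⟩
  · rw [hy₃']; ring
  · linear_combination v1
  · linear_combination v2
  · linear_combination v3

end Fermat.Agent.S05
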