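import Fermat.Agent.S05.Defs

namespace Fermat.Agent.S05

variable {K : Type*} [Field K]

variable {v : QVal K} {a b s : K}

namespace helper7

/-- once the slope has negative valuation, the third point lies in the kernel of reduction -/
lemma x3_of_slope (hI : Integral v a b) (T : Triple a b) (hx₁ : v.Ge T.x₁ 0)
    (hx₂ : v.Ge T.x₂ 0) (hl : T.l ≠ 0) (hl' : v.w T.l < 0) :
    T.x₃ ≠ 0 ∧ v.w T.x₃ < 0 := by
  have hx3 : T.x₃ = T.l ^ 2 + (-a - T.x₁ - T.x₂) := by linear_combination T.e₁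
  have h1 : v.IsVal (T.l ^ 2) (2 * v.w T.l) := by
    have := (QVal.isVal_self (v := v) hl).pow 2
    simpa using this
  have h2 : v.Gt (-a - T.x₁ - T.x₂) (2 * v.w T.l) := by
    have h0 : v.Ge (-a - T.x₁ - T.x₂) 0 := (hI.a_int.neg.sub hx₁).sub hx₂
    exact h0.gt_of_lt (by linarith)
  have h3 := h1.add_gt h2
  rw [← hx3] at h3
  exact ⟨h3.1, by rw [h3.2]; linarith⟩

/-- if `l * t` has valuation `0` and `t` is small, then `l` has negative valuation -/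
lemma slope_neg {l t : K} (h : v.IsVal (l * t) 0) (ht : v.Gt t 0) : l ≠ 0 ∧ v.w l < 0 := by
  have hl : l ≠ 0 := fun h0 => h.1 (by simp [h0])
  have ht0 : t ≠ 0 := fun h0 => h.1 (by simp [h0])
  have h1 := h.2
  rw [v.map_mul l t hl ht0] at h1
  have h2 := ht.lt_w ht0
  exact ⟨hl, by linarith⟩

end helper7

open helper7 in
/-- T8 -/
theorem Triple.slope_blowup (hI : Integral v a b) (T : Triple a b)
    (hx₁ : v.Ge T.x₁ 0) (hx₂ : v.Ge T.x₂ 0) (hy₁ : v.Ge T.y₁ 0)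
    (hδ : v.Gt (T.x₁ - T.x₂) 0) (hη : v.Gt (T.y₁ + T.y₂) 0)
    (hne : ¬ (T.x₁ = T.x₂ ∧ T.y₁ + T.y₂ = 0))
    (hns : v.IsVal T.y₁ 0 ∨ v.IsVal (3 * T.x₁ ^ 2 + 2 * a * T.x₁ + b) 0) :
    T.x₃ ≠ 0 ∧ v.w T.x₃ < 0 := by
  suffices h : T.l ≠ 0 ∧ v.w T.l < 0 from x3_of_slope hI T hx₁ hx₂ h.1 h.2
  have hdiff : T.y₁ - T.y₂ = T.l * (T.x₁ - T.x₂) := by
    rw [T.line₁, T.line₂]; ring
  rcases hns with hy | hN
  · -- `y₁` is a unit
    have h2y : v.IsVal (2 * T.y₁) 0 := by simpa using hI.two.mul hy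
    have h1 : v.IsVal (T.y₁ - T.y₂) 0 := by
      have : T.y₁ - T.y₂ = 2 * T.y₁ - (T.y₁ + T.y₂) := by ring
      rw [this]; exact h2y.sub_gt hη
    rw [hdiff] at h1
    exact slope_neg h1 hδ
  · by_cases hx : T.x₁ = T.x₂
    · -- tangent case
      have hyy : T.y₁ = T.y₂ := by rw [T.line₁, T.line₂, hx]
      have hy12 : T.y₁ + T.y₂ ≠ 0 := fun h0 => hne ⟨hx, h0⟩
      have h2y : v.Gt (2 * T.y₁) 0 := by
        have : 2 * T.y₁ = T.y₁ + T.y₂ := by rw [← hyy]; ring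
        rw [this]; exact hη
      have hid : 3 * T.x₁ ^ 2 + 2 * a * T.x₁ + b = T.l * (2 * T.y₁) := by
        have e1 := T.e₁
        have e2 := T.e₂
        rw [← hx] at e1 e2
        rw [T.line₁]
        linear_combination (2 * T.x₁) * e1 - e2
      rw [hid] at hN
      exact slope_neg hN h2y
    · -- secant case
      have hx' : T.x₁ - T.x₂ ≠ 0 := sub_ne_zero.mpr hx
      have hM : T.l * (T.y₁ + T.y₂) =
          T.x₁ ^ 2 + T.x₁ * T.x₂ + T.x₂ ^ 2 + a * (T.x₁ + T.x₂) + b := by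
        have h1 : (T.x₁ - T.x₂) * (T.l * (T.y₁ + T.y₂)) =
            (T.x₁ - T.x₂) * (T.x₁ ^ 2 + T.x₁ * T.x₂ + T.x₂ ^ 2 + a * (T.x₁ + T.x₂) + b) := by
          have e1 := T.eq₁
          have e2 := T.eq₂
          linear_combination (-(T.y₁ + T.y₂)) * hdiff + e1 - e2
        exact mul_left_cancel₀ hx' h1
      have hMval : v.IsVal
          (T.x₁ ^ 2 + T.x₁ * T.x₂ + T.x₂ ^ 2 + a * (T.x₁ + T.x₂) + b) 0 := by
        have hsplit : T.x₁ ^ 2 + T.x₁ * T.x₂ + T.x₂ ^ 2 + a * (T.x₁ + T.x₂) + b =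
            (3 * T.x₁ ^ 2 + 2 * a * T.x₁ + b) +
              (-(T.x₁ - T.x₂)) * (T.x₂ + 2 * T.x₁ + a) := by ring
        rw [hsplit]
        refine hN.add_gt ?_
        have h2x : v.Ge (2 * T.x₁) 0 := by simpa using hI.two.ge.mul hx₁
        have hge : v.Ge (T.x₂ + 2 * T.x₁ + a) 0 := (hx₂.add h2x).add hI.a_int
        simpa using hδ.neg.mul_ge hge
      rw [← hM] at hMval
      exact slope_neg hMval hη

end Fermat.Agent.S05
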