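import Fermat.Agent.S05.Basic
import Fermat.Agent.S05.T8_helper7
import Fermat.Agent.S05.A1_helper64

/-!
S05 task E1 (owner: helper16): two integral points with the same nonsingular reduction differ
by a point of the kernel of reduction.  Point-level wrapper of `Triple.slope_blowup` (T8) via
the collinearity API `exists_triple` (A1), applied to the triple `(P₁, -P₂, -(P₁ - P₂))`.
-/

namespace Fermat.Agent.S05

open WeierstrassCurve WeierstrassCurve.Affine

variable {K : Type*} [Field K] [DecidableEq K] {v : QVal K} {W : WeierstrassCurve K}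

/-- E1: two integral points with the same nonsingular reduction differ by a point of the
kernel of reduction -/
theorem sub_mem_kernel_of_close (hW : LegCurve W) (hI : Integral v W.a₂ W.a₄)
    {x₁ y₁ x₂ y₂ : K} (h₁ : W.toAffine.Nonsingular x₁ y₁) (h₂ : W.toAffine.Nonsingular x₂ y₂)
    (hx₁ : v.Ge x₁ 0) (hy₁ : v.Ge y₁ 0) (hx : v.Gt (x₁ - x₂) 0) (hy : v.Gt (y₁ - y₂) 0)
    (hns : v.IsVal y₁ 0 ∨ v.IsVal (3 * x₁ ^ 2 + 2 * W.a₂ * x₁ + W.a₄) 0) :
    Point.some x₁ y₁ h₁ - Point.some x₂ y₂ h₂ = 0 ∨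
      ∃ x y h, Point.some x₁ y₁ h₁ - Point.some x₂ y₂ h₂ = Point.some x y h ∧
        x ≠ 0 ∧ v.w x < 0 := by
  rcases hR : Point.some x₁ y₁ h₁ - Point.some x₂ y₂ h₂ with _ | ⟨x, y, h⟩
  · exact Or.inl rfl
  · refine Or.inr ⟨x, y, h, rfl, ?_⟩
    have hsum : Point.some x₁ y₁ h₁ + Point.some x₂ (-y₂) (hW.nonsingular_neg' h₂) +
        Point.some x (-y) (hW.nonsingular_neg' h) = 0 := by
      rw [← hW.neg_some h₂, ← hW.neg_some h, ← hR]; abel
    obtain ⟨T, hT₁, hT₁', hT₂, hT₂', hT₃, -⟩ :=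
      exists_triple hW.a₁ hW.a₃ hW.a₆ _ _ _ hsum
    have hx₂ : v.Ge x₂ 0 := by
      have : x₂ = x₁ - (x₁ - x₂) := by ring
      rw [this]; exact hx₁.sub hx.ge
    have hne : ¬ (T.x₁ = T.x₂ ∧ T.y₁ + T.y₂ = 0) := by
      rw [hT₁, hT₁', hT₂, hT₂']
      rintro ⟨hxx, hyy⟩
      have hyy' : y₁ = y₂ := by linear_combination hyy
      have h0 : Point.some x₁ y₁ h₁ - Point.some x₂ y₂ h₂ = 0 := by
        rw [sub_eq_zero]; exact some_congr hxx hyy'
      rw [hR] at h0
      exact Point.some_ne_zero h h0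
    have key := T.slope_blowup hI (by rw [hT₁]; exact hx₁) (by rw [hT₂]; exact hx₂)
      (by rw [hT₁']; exact hy₁) (by rw [hT₁, hT₂]; exact hx)
      (by rw [hT₁', hT₂', ← sub_eq_add_neg]; exact hy) hne
      (by rw [hT₁, hT₁']; exact hns)
    rw [hT₃] at key
    exact key

end Fermat.Agent.S05
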