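import Fermat.Agent.S05.Defs
import Fermat.Agent.S05.A1_helper64

set_option autoImplicit false

namespace Fermat.Agent.S05

open WeierstrassCurve WeierstrassCurve.Affine

variable {K : Type*} [Field K]

namespace helper4

/-- the statement of task T1, as a hypothesis -/
def T1Stmt (v : QVal K) (a b : K) : Prop :=
  ∀ T : Triple a b, T.x₁ ≠ 0 → v.w T.x₁ < 0 → T.x₂ ≠ 0 → v.w T.x₂ < 0 →
    T.x₃ ≠ 0 ∧ v.w T.x₃ ≤ max (v.w T.x₁) (v.w T.x₂)

/-- the statement of task T2, as a hypothesis -/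
def T2Stmt (v : QVal K) (a b : K) : Prop :=
  ∀ (T : Triple a b) (τ : ℚ), 0 < τ → T.x₁ ≠ 0 → v.w T.x₁ ≤ -2 * τ → T.x₂ ≠ 0 →
    v.w T.x₂ ≤ -2 * τ → T.x₃ ≠ 0 → v.w T.x₃ ≤ -2 * τ →
    T.y₁ ≠ 0 ∧ T.y₂ ≠ 0 ∧ T.y₃ ≠ 0 ∧
      v.Ge (T.x₁ / T.y₁ + T.x₂ / T.y₂ + T.x₃ / T.y₃) (3 * τ)

/-- the local parameter `x / y` (and `0` at the origin) -/
noncomputable def zc {W : WeierstrassCurve K} : W.toAffine.Point → K
  | .zero => 0
  | .some x y _ => x / y

@[simp] lemma zc_zero {W : WeierstrassCurve K} : zc (0 : W.toAffine.Point) = 0 := rfl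

@[simp] lemma zc_some {W : WeierstrassCurve K} {x y : K} (h : W.toAffine.Nonsingular x y) :
    zc (Point.some x y h) = x / y := rfl

/-- the invariant: the point is `0` or deep enough in the kernel of reduction -/
def InK (v : QVal K) (τ : ℚ) {W : WeierstrassCurve K} (Q : W.toAffine.Point) : Prop :=
  Q = 0 ∨ ∃ (x y : K) (h : W.toAffine.Nonsingular x y), Q = Point.some x y h ∧ x ≠ 0 ∧
    v.w x ≤ -2 * τ

variable {v : QVal K}

theorem kernel_induction [DecidableEq K] {W : WeierstrassCurve K}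
    (h₁ : W.a₁ = 0) (h₃ : W.a₃ = 0) (h₆ : W.a₆ = 0)
    (hT1 : T1Stmt v W.a₂ W.a₄) (hT2 : T2Stmt v W.a₂ W.a₄)
    {x y : K} (hP : W.toAffine.Nonsingular x y) (hx : x ≠ 0) {τ : ℚ} (hτ : 0 < τ)
    (hxw : v.w x = -2 * τ) (k : ℕ) :
    InK v τ (k • Point.some x y hP) ∧
      v.Ge (zc (k • Point.some x y hP) - (k : K) * (x / y)) (3 * τ) := by
  induction k with
  | zero =>
    refine ⟨Or.inl (zero_nsmul _), ?_⟩
    rw [zero_nsmul]
    exact Or.inl (by simp)
  | succ k ih =>
    obtain ⟨ihK, ihz⟩ := ih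
    rw [succ_nsmul]
    rcases ihK with hQ | ⟨xk, yk, hk, hQ, hxk0, hxkw⟩
    · rw [hQ, zero_add]
      refine ⟨Or.inr ⟨x, y, hP, rfl, hx, hxw.le⟩, ?_⟩
      rw [hQ] at ihz
      have e : zc (Point.some x y hP) - ((k + 1 : ℕ) : K) * (x / y) =
          zc (0 : W.toAffine.Point) - (k : K) * (x / y) := by
        simp only [zc_some, zc_zero]; push_cast; ring
      rw [e]; exact ihz
    · rw [hQ] at ihz ⊢
      by_cases hneg : xk = x ∧ yk = W.toAffine.negY x y
      · rw [Point.add_of_Y_eq hneg.1 hneg.2]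
        refine ⟨Or.inl rfl, ?_⟩
        have hyk : yk = -y := by
          rw [hneg.2]; simp [negY, h₁, h₃]
        have e : zc (0 : W.toAffine.Point) - ((k + 1 : ℕ) : K) * (x / y) =
            zc (Point.some xk yk hk) - (k : K) * (x / y) := by
          simp only [zc_some, zc_zero]; rw [hneg.1, hyk, div_neg]; push_cast; ring
        rw [e]; exact ihz
      · rw [Point.add_some hneg]
        set x' := W.toAffine.addX xk x (W.toAffine.slope xk x yk y) with hx'
        set y' := W.toAffine.addY xk x yk (W.toAffine.slope xk x yk y) with hy'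
        have hns : W.toAffine.Nonsingular x' y' := nonsingular_add hk hP hneg
        have hns' : W.toAffine.Nonsingular x' (W.toAffine.negY x' y') :=
          (nonsingular_neg _ _).mpr hns
        have hsum : Point.some xk yk hk + Point.some x y hP +
            Point.some x' (W.toAffine.negY x' y') hns' = 0 := by
          rw [Point.add_some hneg, ← Point.neg_some hns, add_neg_cancel]
        obtain ⟨T, t1, t1', t2, t2', t3, t3'⟩ := exists_triple h₁ h₃ h₆ hk hP hns' hsum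
        have hxk_neg : v.w T.x₁ < 0 := by rw [t1]; linarith
        have hx_neg : v.w T.x₂ < 0 := by rw [t2]; linarith
        obtain ⟨hx3, hx3w⟩ := hT1 T (t1 ▸ hxk0) hxk_neg (t2 ▸ hx) hx_neg
        have hx3w' : v.w T.x₃ ≤ -2 * τ := by
          refine hx3w.trans (max_le ?_ ?_)
          · rw [t1]; exact hxkw
          · rw [t2]; exact hxw.le
        obtain ⟨-, -, -, hz⟩ := hT2 T τ hτ (t1 ▸ hxk0) (by rw [t1]; exact hxkw) (t2 ▸ hx)
          (by rw [t2]; exact hxw.le) hx3 hx3w'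
        rw [t1, t1', t2, t2', t3, t3'] at hz
        rw [t3] at hx3 hx3w'
        refine ⟨Or.inr ⟨x', y', hns, rfl, hx3, hx3w'⟩, ?_⟩
        have hny : W.toAffine.negY x' y' = -y' := by simp [negY, h₁, h₃]
        rw [hny, div_neg] at hz
        have e : zc (Point.some x' y' hns) - ((k + 1 : ℕ) : K) * (x / y) =
            (zc (Point.some xk yk hk) - (k : K) * (x / y)) - (xk / yk + x / y + -(x' / y')) := by
          simp only [zc_some]; push_cast; ring
        rw [e]; exact ihz.sub hz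

/-- ED, with T1 and T2 as hypotheses: the kernel of reduction has no torsion of order prime to
the residue characteristic. -/
theorem kernel_nsmul_ne_zero_aux [DecidableEq K] {W : WeierstrassCurve K}
    (h₁ : W.a₁ = 0) (h₃ : W.a₃ = 0) (h₆ : W.a₆ = 0) (hI : Integral v W.a₂ W.a₄)
    (hT1 : T1Stmt v W.a₂ W.a₄) (hT2 : T2Stmt v W.a₂ W.a₄)
    {x y : K} (hP : W.toAffine.Nonsingular x y) (hx : x ≠ 0) (hxw : v.w x < 0)
    (k : ℕ) (hk : v.IsVal (k : K) 0) : k • Point.some x y hP ≠ 0 := by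
  set τ : ℚ := -(v.w x) / 2 with hτdef
  have hτ : 0 < τ := by rw [hτdef]; linarith
  have hxw' : v.w x = -2 * τ := by rw [hτdef]; ring
  have hxv : v.IsVal x (-2 * τ) := ⟨hx, hxw'⟩
  have heq : y ^ 2 = x ^ 3 + W.a₂ * x ^ 2 + W.a₄ * x := by
    have := (W.toAffine.equation_iff x y).mp hP.1
    simp only [h₁, h₃, h₆] at this
    linear_combination this
  have hx3 : v.IsVal (x ^ 3) (-6 * τ) := (hxv.pow 3).congr (by push_cast; ring)
  have h2 : v.Gt (W.a₂ * x ^ 2) (-6 * τ) :=
    (hI.a_int.mul (hxv.pow 2).ge).gt_of_lt (by push_cast; linarith)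
  have h4 : v.Gt (W.a₄ * x) (-6 * τ) := (hI.b_int.mul hxv.ge).gt_of_lt (by linarith)
  have hy2 : v.IsVal (y ^ 2) (-6 * τ) := by
    rw [heq]; exact (hx3.add_gt h2).add_gt h4
  have hy : v.IsVal y (-3 * τ) := hy2.of_sq.congr (by ring)
  have hz : v.IsVal (x / y) τ := (hxv.div hy).congr (by ring)
  have hkz : v.IsVal ((k : K) * (x / y)) τ := (hk.mul hz).congr (by ring)
  obtain ⟨-, hind⟩ := kernel_induction h₁ h₃ h₆ hT1 hT2 hP hx hτ hxw' k
  have hgt : v.Gt (zc (k • Point.some x y hP) - (k : K) * (x / y)) τ :=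
    hind.gt_of_lt (by linarith)
  have hzk : v.IsVal (zc (k • Point.some x y hP)) τ := by
    have := hkz.add_gt hgt
    rwa [add_sub_cancel] at this
  intro h0
  rw [h0] at hzk
  exact hzk.1 rfl

end helper4

end Fermat.Agent.S05
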