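import Fermat.Agent.S05.Defs

/-! S05 task T2 (owner: helper73): `Triple.kernel_z_sum`. -/

namespace Fermat.Agent.S05

namespace helper73

variable {K : Type*} [Field K] {v : QVal K} {a b : K}

/-- `y₁ y₂ y₃ = n (n² - a l n + b l²)` -/
lemma prod_y (T : Triple a b) :
    T.y₁ * T.y₂ * T.y₃ = T.n * (T.n ^ 2 - a * T.l * T.n + b * T.l ^ 2) := by
  rw [T.line₁, T.line₂, T.line₃]
  linear_combination (T.l ^ 3) * T.e₃ + (T.l ^ 2 * T.n) * T.e₂ + (T.l * T.n ^ 2) * T.e₁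

/-- `x₁ y₂ y₃ + x₂ y₁ y₃ + x₃ y₁ y₂ = n (2 b l - a n)` -/
lemma num_y (T : Triple a b) :
    T.x₁ * T.y₂ * T.y₃ + T.x₂ * T.y₁ * T.y₃ + T.x₃ * T.y₁ * T.y₂ =
      T.n * (2 * b * T.l - a * T.n) := by
  rw [T.line₁, T.line₂, T.line₃]
  linear_combination (3 * T.l ^ 2) * T.e₃ + (2 * T.l * T.n) * T.e₂ + (T.n ^ 2) * T.e₁

/-- a point with `w x < 0` on an integral curve has `y ≠ 0` -/
lemma y_ne_zero (hI : Integral v a b) {x y : K} (hx : x ≠ 0) (hx' : v.w x < 0)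
    (h : y ^ 2 = x ^ 3 + a * x ^ 2 + b * x) : y ≠ 0 := by
  have hxv : v.IsVal x (v.w x) := QVal.isVal_self hx
  have h3 : v.IsVal (x ^ 3) (3 * v.w x) := by
    have := hxv.pow 3
    simpa using this
  have h2 : v.Gt (a * x ^ 2) (3 * v.w x) := by
    have h2' : v.Ge (a * x ^ 2) (0 + (2 : ℕ) * v.w x) := hI.a_int.mul (hxv.pow 2).ge
    refine h2'.gt_of_lt ?_
    push_cast
    linarith
  have h1 : v.Gt (b * x) (3 * v.w x) := by
    have h1' : v.Ge (b * x) (0 + v.w x) := hI.b_int.mul hxv.ge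
    refine h1'.gt_of_lt ?_
    linarith
  have hy2 : v.IsVal (y ^ 2) (3 * v.w x) := by
    rw [h]
    exact (h3.add_gt h2).add_gt h1
  intro hy
  exact hy2.1 (by simp [hy])

end helper73

open helper73 in
/-- T2 -/
theorem Triple.kernel_z_sum {K : Type*} [Field K] {v : QVal K} {a b : K}
    (hI : Integral v a b) (T : Triple a b) (τ : ℚ) (hτ : 0 < τ)
    (h₁ : T.x₁ ≠ 0) (h₁' : v.w T.x₁ ≤ -2 * τ) (h₂ : T.x₂ ≠ 0) (h₂' : v.w T.x₂ ≤ -2 * τ)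
    (h₃ : T.x₃ ≠ 0) (h₃' : v.w T.x₃ ≤ -2 * τ) :
    T.y₁ ≠ 0 ∧ T.y₂ ≠ 0 ∧ T.y₃ ≠ 0 ∧
      v.Ge (T.x₁ / T.y₁ + T.x₂ / T.y₂ + T.x₃ / T.y₃) (3 * τ) := by
  have hy₁ : T.y₁ ≠ 0 := y_ne_zero hI h₁ (by linarith) T.eq₁
  have hy₂ : T.y₂ ≠ 0 := y_ne_zero hI h₂ (by linarith) T.eq₂
  have hy₃ : T.y₃ ≠ 0 := y_ne_zero hI h₃ (by linarith) T.eq₃
  refine ⟨hy₁, hy₂, hy₃, ?_⟩
  set S : ℚ := v.w T.x₁ + v.w T.x₂ + v.w T.x₃ with hS
  have hS1 : S < v.w T.x₁ := by rw [hS]; linarith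
  have hS2 : S < v.w T.x₂ := by rw [hS]; linarith
  have hS3 : S < v.w T.x₃ := by rw [hS]; linarith
  have hS0 : S < 0 := by linarith
  have hx₁ : v.IsVal T.x₁ (v.w T.x₁) := QVal.isVal_self h₁
  have hx₂ : v.IsVal T.x₂ (v.w T.x₂) := QVal.isVal_self h₂
  have hx₃ : v.IsVal T.x₃ (v.w T.x₃) := QVal.isVal_self h₃
  -- n
  have hn2 : v.IsVal (T.n ^ 2) S := by
    rw [← T.e₃]
    exact (hx₁.mul hx₂).mul hx₃
  have hn : v.IsVal T.n (S / 2) := hn2.of_sq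
  have hn0 : T.n ≠ 0 := hn.1
  -- l
  have hl2 : v.Gt (T.l ^ 2) S := by
    have : T.l ^ 2 = T.x₁ + T.x₂ + T.x₃ + a := by rw [T.e₁]; ring
    rw [this]
    exact (((hx₁.gt_of_lt hS1).add (hx₂.gt_of_lt hS2)).add (hx₃.gt_of_lt hS3)).add
      (hI.a_int.gt_of_lt hS0)
  have hl : v.Gt T.l (S / 2) := hl2.of_sq
  -- denominator
  have haln : v.Gt (a * T.l * T.n) S := by
    have h := (hI.a_int.mul_gt hl).mul_ge hn.ge
    exact h.mono (by linarith)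
  have hbl2 : v.Gt (b * T.l ^ 2) S := by
    have h := hI.b_int.mul_gt hl2
    exact h.mono (by linarith)
  have hD : v.IsVal (T.n ^ 2 - a * T.l * T.n + b * T.l ^ 2) S :=
    (hn2.sub_gt haln).add_gt hbl2
  have hD0 : T.n ^ 2 - a * T.l * T.n + b * T.l ^ 2 ≠ 0 := hD.1
  -- numerator
  have hNum : v.Ge (2 * b * T.l - a * T.n) (S / 2) := by
    have h1 : v.Ge (2 * b * T.l) (S / 2) := by
      have h := ((hI.two.ge.mul hI.b_int).mul hl.ge)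
      exact h.mono (by linarith)
    have h2 : v.Ge (a * T.n) (S / 2) := by
      have h := hI.a_int.mul hn.ge
      exact h.mono (by linarith)
    exact h1.sub h2
  -- the identity
  have key : T.x₁ / T.y₁ + T.x₂ / T.y₂ + T.x₃ / T.y₃ =
      (2 * b * T.l - a * T.n) / (T.n ^ 2 - a * T.l * T.n + b * T.l ^ 2) := by
    rw [div_add_div _ _ hy₁ hy₂, div_add_div _ _ (mul_ne_zero hy₁ hy₂) hy₃,
      div_eq_div_iff (mul_ne_zero (mul_ne_zero hy₁ hy₂) hy₃) hD0]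
    have hP := num_y T
    have hQ := prod_y T
    linear_combination (T.n ^ 2 - a * T.l * T.n + b * T.l ^ 2) * hP
      - (2 * b * T.l - a * T.n) * hQ
  rw [key]
  by_cases hN0 : 2 * b * T.l - a * T.n = 0
  · rw [hN0, zero_div]
    exact QVal.ge_zero'
  · refine Or.inr ?_
    rw [QVal.w_div hN0 hD0, hD.2]
    have := hNum.le_w hN0
    have hS6 : S ≤ -6 * τ := by rw [hS]; linarith
    linarith

end Fermat.Agent.S05
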