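import Fermat.Agent.S05.Good_helper17
import Fermat.Agent.S05.Close_helper16
import Fermat.Agent.S05.Kernel_helper4
import Fermat.Agent.S05.T1_helper47
import Fermat.Agent.S05.T2_helper73

/-!
S05 task EFG (owner: helper17), final form: the good reduction case, with the exact name and
statement of the interface stub.  Wires `helper17.inertia_fixes_torsion_good_aux` to
ED (`helper4.kernel_nsmul_ne_zero_aux` + T1 of helper47 + T2 of helper73) and
E1 (`sub_mem_kernel_of_close` of helper16).  Also provides ED itself in its interface form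
(`helper17.kernel_no_torsion'`), for whoever needs it before helper4's wrapper is in.
-/

namespace Fermat.Agent.S05

open WeierstrassCurve WeierstrassCurve.Affine

variable {K : Type*} [Field K] [DecidableEq K] {v : QVal K} {W : WeierstrassCurve K}

namespace helper17

/-- ED in interface form (primed name: the unprimed one belongs to helper4's file). -/
theorem kernel_no_torsion' (hW : LegCurve W) (hI : Integral v W.a₂ W.a₄) {x y : K}
    (h : W.toAffine.Nonsingular x y) (hx : x ≠ 0) (hxw : v.w x < 0) (k : ℕ)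
    (hk : v.IsVal (k : K) 0) : k • Point.some x y h ≠ 0 :=
  helper4.kernel_nsmul_ne_zero_aux hW.a₁ hW.a₃ hW.a₆ hI
    (fun T h1 h1' h2 h2' => Triple.kernel_closed hI T h1 h1' h2 h2')
    (fun T τ hτ h1 h1' h2 h2' h3 h3' => Triple.kernel_z_sum hI T τ hτ h1 h1' h2 h2' h3 h3')
    h hx hxw k hk

end helper17

/-- EFG: good reduction case -/
theorem inertia_fixes_torsion_good (hW : LegCurve W) (hI : Integral v W.a₂ W.a₄)
    (hb : v.IsVal W.a₄ 0) (hd : v.IsVal (W.a₂ ^ 2 - 4 * W.a₄) 0)
    (σ : K →+* K) (hσa : σ W.a₂ = W.a₂) (hσb : σ W.a₄ = W.a₄)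
    (hσw : ∀ x, v.w (σ x) = v.w x) (hσ : ∀ x, v.Ge x 0 → v.Gt (σ x - x) 0)
    (Φ : W.toAffine.Point →+ W.toAffine.Point)
    (hΦ : ∀ (x y : K) (h : W.toAffine.Nonsingular x y),
      ∃ h' : W.toAffine.Nonsingular (σ x) (σ y), Φ (Point.some x y h) = Point.some (σ x) (σ y) h')
    (p : ℕ) (hp : v.IsVal (p : K) 0) (P : W.toAffine.Point) (hP : p • P = 0) : Φ P = P :=
  helper17.inertia_fixes_torsion_good_aux hW hI
    (fun h hx hxw k hk => helper17.kernel_no_torsion' hW hI h hx hxw k hk)
    (fun h₁ h₂ hx₁ hy₁ hx hy hns => sub_mem_kernel_of_close hW hI h₁ h₂ hx₁ hy₁ hx hy hns)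
    hb hd σ hσ Φ hΦ p hp P hP

end Fermat.Agent.S05
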