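import Fermat.Agent.S05.Basic
import Fermat.Agent.S05.T1_helper47
import Fermat.Agent.S05.T2_helper73
import Fermat.Agent.S05.Kernel_helper4

/-!
S05 task ED (helper4): the kernel of reduction has no torsion prime to the residue
characteristic.  Wrapper with the exact statement of `Spec2.lean`, obtained from
`helper4.kernel_nsmul_ne_zero_aux` (in `Kernel_helper4.lean`) with T1 (helper47) and T2
(helper73) plugged in.
-/

set_option autoImplicit false

namespace Fermat.Agent.S05

open WeierstrassCurve WeierstrassCurve.Affine

variable {K : Type*} [Field K] [DecidableEq K] {v : QVal K} {W : WeierstrassCurve K}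

/-- ED: the kernel of reduction has no torsion prime to the residue characteristic -/
theorem kernel_no_torsion (hW : LegCurve W) (hI : Integral v W.a₂ W.a₄) {x y : K}
    (h : W.toAffine.Nonsingular x y) (hx : x ≠ 0) (hxw : v.w x < 0) (k : ℕ)
    (hk : v.IsVal (k : K) 0) : k • Point.some x y h ≠ 0 :=
  helper4.kernel_nsmul_ne_zero_aux hW.a₁ hW.a₃ hW.a₆ hI
    (fun T a b c d => Triple.kernel_closed hI T a b c d)
    (fun T τ hτ a b c d e f => Triple.kernel_z_sum hI T τ hτ a b c d e f)
    h hx hxw k hk

end Fermat.Agent.S05
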