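import Fermat.Agent.S05.Defs

/-!
S05-T7 (helper15): `Triple.key`.

If `P₁` lies on a branch at the node (`0 < w x₁ < w b`) and `P₂` has unit abscissa, then the third
collinear point `P₃` has `w x₃ = w x₁` and `x₃ / x₁ - 1` is a unit.  The file is self-contained
(the needed special case of T4 is proved inline).
-/

namespace Fermat.Agent.S05

variable {K : Type*} [Field K] {v : QVal K} {a b s : K}

namespace helper15

/-- `x₃ ≠ 0` -/
lemma key_x3_ne (T : Triple a b) {m₁ : ℚ} (hx₁ : v.IsVal T.x₁ m₁) (hlt : m₁ < v.w b)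
    (hx₂ : v.IsVal T.x₂ 0) : T.x₃ ≠ 0 := by
  intro h3
  have hn : T.n = 0 := by
    have h := T.e₃
    rw [h3, mul_zero] at h
    exact (pow_eq_zero_iff two_ne_zero).mp h.symm
  have he := T.e₂
  rw [h3, hn] at he
  have hb' : T.x₁ * T.x₂ = b := by linear_combination he
  have h12 := hx₁.mul hx₂
  rw [hb'] at h12
  have := h12.2
  linarith

/-- `0 < w x₃` -/
lemma key_x3_pos (hN : Nodal v a b s) (T : Triple a b) {m₁ m₃ : ℚ} (hx₁ : v.IsVal T.x₁ m₁)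
    (hpos : 0 < m₁) (hx₂ : v.IsVal T.x₂ 0) (hx₃ : v.IsVal T.x₃ m₃) : 0 < m₃ := by
  by_contra hle
  rw [not_lt] at hle
  have hbgt : v.Gt b 0 := Or.inr hN.b_pos
  rcases hle.lt_or_eq with hlt | heq
  · -- `m₃ < 0`
    have hl2 : v.IsVal (T.l ^ 2) m₃ := by
      have h : T.l ^ 2 = T.x₃ + (a + T.x₁ + T.x₂) := by linear_combination -T.e₁
      rw [h]
      refine hx₃.add_gt (((hN.a_unit.gt_of_lt hlt).add (hx₁.gt_of_lt (by linarith))).add
        (hx₂.gt_of_lt hlt))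
    have hl : v.IsVal T.l (m₃ / 2) := hl2.of_sq
    have hlhs : v.IsVal (T.x₁ * T.x₂ + T.x₁ * T.x₃ + T.x₂ * T.x₃) m₃ := by
      have h : T.x₁ * T.x₂ + T.x₁ * T.x₃ + T.x₂ * T.x₃
          = T.x₂ * T.x₃ + (T.x₁ * T.x₂ + T.x₁ * T.x₃) := by ring
      rw [h]
      refine ((hx₂.mul hx₃).congr (by ring)).add_gt
        (((hx₁.mul hx₂).gt_of_lt (by linarith)).add ((hx₁.mul hx₃).gt_of_lt (by linarith)))
    rw [T.e₂] at hlhs
    have h2ln : v.IsVal (2 * T.l * T.n) m₃ := by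
      have h : 2 * T.l * T.n = b - (b - 2 * T.l * T.n) := by ring
      rw [h]
      exact QVal.IsVal.gt_sub (hbgt.mono hlt.le) hlhs
    have hn0 : T.n ≠ 0 := fun h0 => h2ln.1 (by simp [h0])
    have hn : v.IsVal T.n (v.w T.n) := QVal.isVal_self hn0
    have e1 := ((hN.two.mul hl).mul hn).unique h2ln
    have e2 := (hn.pow 2).unique (T.e₃ ▸ (hx₁.mul hx₂).mul hx₃)
    push_cast at e2
    linarith
  · -- `m₃ = 0`
    subst heq
    have hn2 : v.IsVal (T.n ^ 2) m₁ := by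
      rw [← T.e₃]; exact ((hx₁.mul hx₂).mul hx₃).congr (by ring)
    have hn : v.Gt T.n 0 := hn2.of_sq.gt_of_lt (by linarith)
    have hl : v.Ge T.l 0 := by
      have h : T.l ^ 2 = a + T.x₁ + T.x₂ + T.x₃ := by linear_combination -T.e₁
      have h' : v.Ge (T.l ^ 2) 0 := by
        rw [h]
        exact ((hN.a_unit.ge.add (hx₁.ge_of_le hpos.le)).add hx₂.ge).add hx₃.ge
      simpa using h'.of_sq
    have hrhs : v.Gt (b - 2 * T.l * T.n) 0 := by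
      refine hbgt.sub ?_
      have := (hN.two.ge.mul hl).mul_gt hn
      simpa using this
    have hlhs : v.IsVal (T.x₁ * T.x₂ + T.x₁ * T.x₃ + T.x₂ * T.x₃) 0 := by
      have h : T.x₁ * T.x₂ + T.x₁ * T.x₃ + T.x₂ * T.x₃
          = T.x₂ * T.x₃ + (T.x₁ * T.x₂ + T.x₁ * T.x₃) := by ring
      rw [h]
      refine ((hx₂.mul hx₃).congr (by ring)).add_gt
        (((hx₁.mul hx₂).gt_of_lt (by linarith)).add ((hx₁.mul hx₃).gt_of_lt (by linarith)))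
    rw [T.e₂] at hlhs
    exact hlhs.not_gt hrhs

/-- `w x₃ = w x₁` -/
lemma key_x3_eq (hN : Nodal v a b s) (T : Triple a b) {m₁ m₃ : ℚ} (hx₁ : v.IsVal T.x₁ m₁)
    (hpos : 0 < m₁) (hlt : m₁ < v.w b) (hx₂ : v.IsVal T.x₂ 0) (hx₃ : v.IsVal T.x₃ m₃)
    (hpos₃ : 0 < m₃) : m₃ = m₁ := by
  have hl : v.Ge T.l 0 := by
    have h : T.l ^ 2 = a + T.x₁ + T.x₂ + T.x₃ := by linear_combination -T.e₁
    have h' : v.Ge (T.l ^ 2) 0 := by
      rw [h]
      exact ((hN.a_unit.ge.add (hx₁.ge_of_le hpos.le)).add hx₂.ge).add (hx₃.ge_of_le hpos₃.le)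
    simpa using h'.of_sq
  have hn : v.IsVal T.n ((m₁ + m₃) / 2) := by
    have hn2 : v.IsVal (T.n ^ 2) (m₁ + m₃) := by
      rw [← T.e₃]; exact ((hx₁.mul hx₂).mul hx₃).congr (by ring)
    exact hn2.of_sq
  have h2l : v.Ge (2 * T.l) 0 := by simpa using hN.two.ge.mul hl
  have hb : v.IsVal b (v.w b) := hN.b_isVal
  by_contra hne
  rcases lt_or_gt_of_ne hne with h31 | h13
  · -- `m₃ < m₁`
    have hlhs : v.IsVal (T.x₁ * T.x₂ + T.x₁ * T.x₃ + T.x₂ * T.x₃) m₃ := by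
      have h : T.x₁ * T.x₂ + T.x₁ * T.x₃ + T.x₂ * T.x₃
          = T.x₂ * T.x₃ + (T.x₁ * T.x₂ + T.x₁ * T.x₃) := by ring
      rw [h]
      refine ((hx₂.mul hx₃).congr (by ring)).add_gt
        (((hx₁.mul hx₂).gt_of_lt (by linarith)).add ((hx₁.mul hx₃).gt_of_lt (by linarith)))
    rw [T.e₂] at hlhs
    have hrhs : v.Gt (b - 2 * T.l * T.n) m₃ := by
      refine (hb.gt_of_lt (by linarith)).sub ?_
      have := h2l.mul_gt (hn.gt_of_lt (d := m₃) (by linarith))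
      simpa using this
    exact hlhs.not_gt hrhs
  · -- `m₁ < m₃`
    have hlhs : v.IsVal (T.x₁ * T.x₂ + T.x₁ * T.x₃ + T.x₂ * T.x₃) m₁ := by
      have h : T.x₁ * T.x₂ + T.x₁ * T.x₃ + T.x₂ * T.x₃
          = T.x₁ * T.x₂ + (T.x₁ * T.x₃ + T.x₂ * T.x₃) := by ring
      rw [h]
      refine ((hx₁.mul hx₂).congr (by ring)).add_gt
        (((hx₁.mul hx₃).gt_of_lt (by linarith)).add ((hx₂.mul hx₃).gt_of_lt (by linarith)))
    rw [T.e₂] at hlhs
    have hrhs : v.Gt (b - 2 * T.l * T.n) m₁ := by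
      refine (hb.gt_of_lt hlt).sub ?_
      have := h2l.mul_gt (hn.gt_of_lt (d := m₁) (by linarith))
      simpa using this
    exact hlhs.not_gt hrhs

/-- the unit statement, once `w x₃ = w x₁` is known -/
lemma key_unit (hN : Nodal v a b s) (T : Triple a b) {m₁ : ℚ} (hx₁ : v.IsVal T.x₁ m₁)
    (hpos : 0 < m₁) (hlt : m₁ < v.w b) (hx₂ : v.IsVal T.x₂ 0) (hx₃ : v.IsVal T.x₃ m₁) :
    v.IsVal (T.x₃ / T.x₁ - 1) 0 := by
  have h1 := hx₁.1
  have h2 := hx₂.1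
  have h3 := hx₃.1
  have hb : v.IsVal b (v.w b) := hN.b_isVal
  have hn : v.IsVal T.n m₁ := by
    have hn2 : v.IsVal (T.n ^ 2) (m₁ + m₁) := by
      rw [← T.e₃]; exact ((hx₁.mul hx₂).mul hx₃).congr (by ring)
    exact hn2.of_sq.congr (by ring)
  have hn0 := hn.1
  -- the sum of the two slopes is small
  have hsum : v.Gt (T.y₁ / T.x₁ + T.y₃ / T.x₃) 0 := by
    have h : T.y₁ / T.x₁ + T.y₃ / T.x₃ = (b - T.x₁ * T.x₃) * T.n⁻¹ := by
      rw [div_add_div _ _ h1 h3, ← div_eq_mul_inv, div_eq_div_iff (mul_ne_zero h1 h3) hn0,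
        T.line₁, T.line₃]
      linear_combination (T.x₁ * T.x₃) * T.e₂ - (T.x₁ + T.x₃) * T.e₃
    rw [h]
    have hnum : v.Gt (b - T.x₁ * T.x₃) m₁ :=
      (hb.gt_of_lt hlt).sub ((hx₁.mul hx₃).gt_of_lt (by linarith))
    have := hnum.mul_ge hn.inv.ge
    simpa using this
  -- the first slope is a unit
  have hs1 : v.IsVal (T.y₁ / T.x₁) 0 := by
    have h : (T.y₁ / T.x₁) ^ 2 = a + (T.x₁ + b / T.x₁) := by
      rw [div_pow, T.eq₁]
      field_simp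
      ring
    have h' : v.IsVal ((T.y₁ / T.x₁) ^ 2) 0 := by
      rw [h]
      exact hN.a_unit.add_gt ((hx₁.gt_of_lt hpos).add ((hb.div hx₁).gt_of_lt (by linarith)))
    simpa using h'.of_sq
  have hdiff : v.IsVal (T.y₁ / T.x₁ - T.y₃ / T.x₃) 0 := by
    have h : T.y₁ / T.x₁ - T.y₃ / T.x₃ = 2 * (T.y₁ / T.x₁) - (T.y₁ / T.x₁ + T.y₃ / T.x₃) := by
      ring
    rw [h]
    exact ((hN.two.mul hs1).congr (by ring)).sub_gt hsum
  have hfin : T.x₃ / T.x₁ - 1 = (T.y₁ / T.x₁ - T.y₃ / T.x₃) / (T.n / T.x₃) := by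
    rw [T.line₁, T.line₃]
    field_simp
    ring
  rw [hfin]
  exact (hdiff.div (hn.div hx₃)).congr (by ring)

end helper15

/-- T7 -/
theorem Triple.key (hN : Nodal v a b s) (T : Triple a b)
    (h₁ : T.x₁ ≠ 0) (h₁pos : 0 < v.w T.x₁) (h₁lt : v.w T.x₁ < v.w b)
    (h₂ : v.IsVal T.x₂ 0) :
    T.x₃ ≠ 0 ∧ v.w T.x₃ = v.w T.x₁ ∧ v.IsVal (T.x₃ / T.x₁ - 1) 0 := by
  have hx₁ : v.IsVal T.x₁ (v.w T.x₁) := QVal.isVal_self h₁
  have h₃ : T.x₃ ≠ 0 := helper15.key_x3_ne T hx₁ h₁lt h₂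
  have hx₃ : v.IsVal T.x₃ (v.w T.x₃) := QVal.isVal_self h₃
  have hpos₃ := helper15.key_x3_pos hN T hx₁ h₁pos h₂ hx₃
  have heq := helper15.key_x3_eq hN T hx₁ h₁pos h₁lt h₂ hx₃ hpos₃
  exact ⟨h₃, heq, helper15.key_unit hN T hx₁ h₁pos h₁lt h₂ (heq ▸ hx₃)⟩

end Fermat.Agent.S05
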