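import Fermat.Agent.S05.Cls_helper64
import Fermat.Agent.S05.ED_helper4
import Fermat.Agent.S05.Close_helper16
import Fermat.Agent.S05.T7_helper15

/-!
S05 task EFM (helper15): inertia fixes the `p`-torsion in the multiplicative reduction case
(on the model `Y² = X³ + a X² + b X` with node at the origin).

Uses EC `cls_add` (helper64), ED `kernel_no_torsion` (helper4), E1 `sub_mem_kernel_of_close`
(helper16), A1 `exists_triple` (helper64) and T7 `Triple.key` (helper15).
-/

set_option autoImplicit false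
set_option linter.unusedSectionVars false

namespace Fermat.Agent.S05

open WeierstrassCurve WeierstrassCurve.Affine

namespace helper15

section Quot

lemma qmk_eq_zero {n m : ℚ} (h : (m : ℚ ⧸ AddSubgroup.zmultiples (2 * n)) = 0) :
    ∃ j : ℤ, m = j * (2 * n) := by
  rw [QuotientAddGroup.eq_zero_iff, AddSubgroup.mem_zmultiples_iff] at h
  obtain ⟨j, hj⟩ := h
  exact ⟨j, by rw [← hj]; simp⟩

lemma nsmul_qmk_eq_zero {n m : ℚ} {p : ℕ}
    (h : p • (m : ℚ ⧸ AddSubgroup.zmultiples (2 * n)) = 0) : ∃ j : ℤ, p * m = j * (2 * n) := by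
  have h' : ((p • m : ℚ) : ℚ ⧸ AddSubgroup.zmultiples (2 * n)) = 0 := h
  obtain ⟨j, hj⟩ := qmk_eq_zero h'
  exact ⟨j, by rw [← hj]; simp⟩

/-- the class of the middle component is not killed by an odd number -/
lemma odd_nsmul_qmk_self {n : ℚ} (hn : 0 < n) {p : ℕ} (hp : Odd p)
    (h : p • (n : ℚ ⧸ AddSubgroup.zmultiples (2 * n)) = 0) : False := by
  obtain ⟨j, hj⟩ := nsmul_qmk_eq_zero h
  have h1 : (p : ℚ) = 2 * j := by
    have h2 : (p : ℚ) * n = (2 * j) * n := by linarith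
    exact mul_right_cancel₀ hn.ne' h2
  have h2 : (p : ℤ) = 2 * j := by exact_mod_cast h1
  obtain ⟨m, hm⟩ := hp
  omega

/-- a rational in the open interval `(0, n)` is not a multiple of `2n` -/
lemma not_mult_of_lt {n m : ℚ} (h0 : 0 < m) (hlt : m < n) (j : ℤ) (hj : m = j * (2 * n)) :
    False := by
  have hn : 0 < n := h0.trans hlt
  have hjpos : (0 : ℚ) < j := by
    by_contra hc
    rw [not_lt] at hc
    nlinarith
  have hj1 : (1 : ℚ) ≤ j := by exact_mod_cast (by exact_mod_cast hjpos : (0 : ℤ) < j)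
  nlinarith

end Quot

variable {K : Type*} [Field K] {v : QVal K} {a b s : K}

/-- a point whose class vanishes lies in `E₀` -/
lemma clsXY_eq_zero [DecidableEq K] (hN : Nodal v a b s) {x y : K} (h : clsXY v b s x y = 0) :
    x ≠ 0 ∧ v.w x ≤ 0 := by
  have hn := hN.b_pos
  have hmid : ((v.w b : ℚ) : ℚ ⧸ AddSubgroup.zmultiples (2 * v.w b)) ≠ 0 := by
    intro h0
    obtain ⟨j, hj⟩ := qmk_eq_zero h0
    have h1 : (1 : ℚ) = 2 * j := by
      have h2 : (1 : ℚ) * v.w b = (2 * j) * v.w b := by linarith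
      exact mul_right_cancel₀ hn.ne' h2
    have h2 : (1 : ℤ) = 2 * j := by exact_mod_cast h1
    omega
  by_cases hx : x = 0
  · subst hx
    rw [helper64.clsXY_zero] at h
    exact absurd h hmid
  refine ⟨hx, ?_⟩
  by_contra hpos
  rw [not_le] at hpos
  rcases le_or_gt (v.w b) (v.w x) with hM | hlt
  · rw [helper64.clsXY_M _ hn hx hM] at h
    exact hmid h
  · by_cases hbr : v.Gt (y / x - s) 0
    · rw [helper64.clsXY_Bpos hx hpos hlt hbr] at h
      obtain ⟨j, hj⟩ := qmk_eq_zero h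
      exact not_mult_of_lt hpos hlt j hj
    · rw [helper64.clsXY_Bneg hx hpos hlt hbr] at h
      obtain ⟨j, hj⟩ := qmk_eq_zero h
      exact not_mult_of_lt hpos hlt (-j) (by push_cast; linarith)

section Sigma

variable {σ : K →+* K}

lemma gt_sigma_iff (hσw : ∀ x, v.w (σ x) = v.w x) (z : K) (c : ℚ) :
    v.Gt (σ z) c ↔ v.Gt z c := by
  unfold QVal.Gt
  rw [map_eq_zero, hσw]

/-- `σ` fixes the square root `s` of `a` -/
lemma sigma_s (hN : Nodal v a b s) (hσa : σ a = a)
    (hσ : ∀ x, v.Ge x 0 → v.Gt (σ x - x) 0) : σ s = s := by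
  have hsq : (σ s) ^ 2 = s ^ 2 := by rw [← map_pow, hN.s_sq, hσa]
  have hprod : (σ s - s) * (σ s + s) = 0 := by linear_combination hsq
  rcases mul_eq_zero.mp hprod with h | h
  · exact sub_eq_zero.mp h
  · exfalso
    have h1 : σ s - s = -(2 * s) := by linear_combination h
    have h2 : v.IsVal (σ s - s) 0 := by
      rw [h1]; simpa using (hN.two.mul hN.s_unit).neg
    exact h2.not_gt (hσ s hN.s_unit.ge)

/-- the class is invariant under `σ` -/
lemma clsXY_sigma [DecidableEq K] (hσs : σ s = s) (hσw : ∀ x, v.w (σ x) = v.w x) (x y : K) :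
    clsXY v b s (σ x) (σ y) = clsXY v b s x y := by
  have hbr : v.Gt (σ y / σ x - s) 0 ↔ v.Gt (y / x - s) 0 := by
    rw [← gt_sigma_iff hσw (y / x - s) 0, map_sub, map_div₀, hσs]
  unfold clsXY
  simp only [map_eq_zero, hσw]
  classical
  exact if_congr Iff.rfl rfl (if_congr Iff.rfl rfl (if_congr Iff.rfl rfl (if_congr hbr rfl rfl)))

/-- if `w x` is a natural number then `σ x / x ≡ 1` -/
lemma sigma_div_sub_one (hσ : ∀ x, v.Ge x 0 → v.Gt (σ x - x) 0) {π : K} (hπ : v.IsVal π 1)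
    (hσπ : σ π = π) {x : K} (hx : x ≠ 0) (N : ℕ) (hN : v.w x = N) :
    v.Gt (σ x / x - 1) 0 := by
  have hπ0 : π ^ N ≠ 0 := pow_ne_zero N hπ.1
  have hu : v.IsVal (x / π ^ N) 0 :=
    ((QVal.isVal_self hx).div (hπ.pow N)).congr (by rw [hN]; ring)
  have hxu : x = x / π ^ N * π ^ N := (div_mul_cancel₀ x hπ0).symm
  have hσx : σ x = σ (x / π ^ N) * π ^ N := by
    conv_lhs => rw [hxu]
    rw [map_mul, map_pow, hσπ]
  have hu0 := hu.1
  have hfin : σ x / x - 1 = (σ (x / π ^ N) - x / π ^ N) * (x / π ^ N)⁻¹ := by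
    rw [hσx]
    conv_lhs => rw [hxu]
    field_simp
  rw [hfin]
  have := (hσ _ hu.ge).mul_ge hu.inv.ge
  simpa using this

end Sigma

/-- the component class as a group homomorphism -/
noncomputable def clsHom [DecidableEq K] {W : WeierstrassCurve K} (hW : LegCurve W)
    (hN : Nodal v W.a₂ W.a₄ s) :
    W.toAffine.Point →+ ℚ ⧸ AddSubgroup.zmultiples (2 * v.w W.a₄) where
  toFun := cls v W s
  map_zero' := rfl
  map_add' := cls_add hW hN

lemma clsHom_apply [DecidableEq K] {W : WeierstrassCurve K} (hW : LegCurve W)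
    (hN : Nodal v W.a₂ W.a₄ s) (P : W.toAffine.Point) : clsHom hW hN P = cls v W s P := rfl

/-- a point with unit abscissa on the nodal model has nonsingular reduction -/
lemma nonsing_of_unit (hN : Nodal v a b s) {x y : K}
    (hxy : y ^ 2 = x ^ 3 + a * x ^ 2 + b * x) (hx : v.IsVal x 0) :
    v.Ge y 0 ∧ (v.IsVal y 0 ∨ v.IsVal (3 * x ^ 2 + 2 * a * x + b) 0) := by
  have hI := hN.integral
  have hbgt : v.Gt b 0 := Or.inr hN.b_pos
  have hy2 : v.Ge (y ^ 2) 0 := by
    rw [hxy]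
    have h3 : v.Ge (x ^ 3) 0 := by simpa using hx.ge.pow 3
    have h2 : v.Ge (a * x ^ 2) 0 := by simpa using hI.a_int.mul (hx.ge.pow 2)
    have h1 : v.Ge (b * x) 0 := by simpa using hI.b_int.mul hx.ge
    exact (h3.add h2).add h1
  have hy : v.Ge y 0 := by simpa using hy2.of_sq
  refine ⟨hy, ?_⟩
  rcases QVal.gt_or_isVal_le (v := v) y 0 with hgt | ⟨hy0, hle⟩
  · right
    -- `x² + a x + b = y² / x` is small
    have hq : v.Gt (x ^ 2 + a * x + b) 0 := by
      have h : x ^ 2 + a * x + b = y * y * x⁻¹ := by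
        have hx0 := hx.1
        field_simp
        linear_combination -hxy
      rw [h]
      have := (hgt.mul_ge hy).mul_ge hx.inv.ge
      simpa using this
    have h : 3 * x ^ 2 + 2 * a * x + b = (x ^ 2 - b) + 2 * (x ^ 2 + a * x + b) := by ring
    rw [h]
    have hx2 : v.IsVal (x ^ 2) 0 := by simpa using hx.pow 2
    refine (hx2.sub_gt hbgt).add_gt ?_
    simpa using hN.two.ge.mul_gt hq
  · left
    exact ⟨hy0, le_antisymm hle (hy.le_w hy0)⟩

end helper15

section Main

variable {K : Type*} [Field K] [DecidableEq K] {v : QVal K} {W : WeierstrassCurve K} {s : K}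

open helper15 in
/-- EFM: multiplicative reduction case -/
theorem inertia_fixes_torsion_mult (hW : LegCurve W) (hN : Nodal v W.a₂ W.a₄ s)
    (hd : v.IsVal (W.a₂ ^ 2 - 4 * W.a₄) 0)
    (σ : K →+* K) (hσa : σ W.a₂ = W.a₂) (hσb : σ W.a₄ = W.a₄)
    (hσw : ∀ x, v.w (σ x) = v.w x) (hσ : ∀ x, v.Ge x 0 → v.Gt (σ x - x) 0)
    (Φ : W.toAffine.Point →+ W.toAffine.Point)
    (hΦ : ∀ (x y : K) (h : W.toAffine.Nonsingular x y),
      ∃ h' : W.toAffine.Nonsingular (σ x) (σ y), Φ (Point.some x y h) = Point.some (σ x) (σ y) h')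
    (π : K) (hπ : v.IsVal π 1) (hσπ : σ π = π)
    (p : ℕ) (hp : v.IsVal (p : K) 0) (hpodd : Odd p) (k : ℕ) (hk : v.w W.a₄ = p * k)
    (P : W.toAffine.Point) (hP : p • P = 0) : Φ P = P := by
  have _ := hd
  have _ := hσb
  have hI := hN.integral
  have hnpos := hN.b_pos
  -- `P - Φ P` is `p`-torsion
  have hD : p • (P - Φ P) = 0 := by rw [smul_sub, ← map_nsmul, hP, map_zero, sub_zero]
  -- no `p`-torsion in the kernel of reduction
  have hker : ∀ (Q : W.toAffine.Point), p • Q = 0 → ∀ x y h, Q = Point.some x y h → x ≠ 0 →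
      ¬ v.w x < 0 := by
    intro Q hQ x y h hQe hx hlt
    rw [hQe] at hQ
    exact kernel_no_torsion hW hI h hx hlt p hp hQ
  suffices hsuff : P - Φ P = 0 from (sub_eq_zero.mp hsuff).symm
  rcases P with _ | ⟨x, y, h⟩
  · change (0 : W.toAffine.Point) - Φ 0 = 0
    rw [map_zero, sub_zero]
  obtain ⟨h', hΦP⟩ := hΦ x y h
  rw [hΦP] at hD ⊢
  have heqn := hW.eqn h
  -- the class of `P` is `p`-torsion
  have hcls : p • clsXY v W.a₄ s x y = 0 := by
    have h1 := congrArg (clsHom hW hN) hP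
    rw [map_nsmul, map_zero] at h1
    exact h1
  by_cases hx0 : x = 0
  · -- `x = 0` : middle component
    exfalso
    subst hx0
    rw [helper64.clsXY_zero] at hcls
    exact odd_nsmul_qmk_self hnpos hpodd hcls
  rcases lt_trichotomy (v.w x) 0 with hneg | hzero | hpos
  · -- kernel of reduction
    exact absurd hneg (hker _ hP x y h rfl hx0)
  · -- unit abscissa: nonsingular reduction
    have hxv : v.IsVal x 0 := ⟨hx0, hzero⟩
    obtain ⟨hyge, hns⟩ := nonsing_of_unit hN heqn hxv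
    have hx' : v.Gt (x - σ x) 0 := by
      have := (hσ x hxv.ge).neg
      rwa [neg_sub] at this
    have hy' : v.Gt (y - σ y) 0 := by
      have := (hσ y hyge).neg
      rwa [neg_sub] at this
    rcases sub_mem_kernel_of_close hW hI h h' hxv.ge hyge hx' hy' hns with h0 |
      ⟨x', y', h'', he, hx'0, hlt⟩
    · exact h0
    · exact absurd hlt (hker _ hD x' y' h'' he hx'0)
  rcases le_or_gt (v.w W.a₄) (v.w x) with hM | hlt
  · -- middle component
    exfalso
    rw [helper64.clsXY_M _ hnpos hx0 hM] at hcls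
    exact odd_nsmul_qmk_self hnpos hpodd hcls
  -- branch point: `0 < w x < w b`
  obtain ⟨m, hm, hclsP⟩ : ∃ m : ℚ, (m = v.w x ∨ m = -v.w x) ∧
      clsXY v W.a₄ s x y = helper64.qmk (v.w W.a₄) m := by
    by_cases hbr : v.Gt (y / x - s) 0
    · exact ⟨_, Or.inl rfl, helper64.clsXY_Bpos hx0 hpos hlt hbr⟩
    · exact ⟨_, Or.inr rfl, helper64.clsXY_Bneg hx0 hpos hlt hbr⟩
  rw [hclsP] at hcls
  obtain ⟨j, hj⟩ := nsmul_qmk_eq_zero hcls
  have hp0 : (p : ℚ) ≠ 0 := Nat.cast_ne_zero.mpr hpodd.pos.ne'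
  have hm2 : m = ((2 * j * k : ℤ) : ℚ) := by
    have h1 : (p : ℚ) * m = p * ((2 * j * k : ℤ) : ℚ) := by
      rw [hj, hk]; push_cast; ring
    exact mul_left_cancel₀ hp0 h1
  obtain ⟨N, hNx⟩ : ∃ N : ℕ, v.w x = N := by
    refine ⟨(2 * j * k).natAbs, ?_⟩
    rw [Nat.cast_natAbs, Int.cast_abs, ← hm2]
    rcases hm with rfl | rfl
    · rw [abs_of_pos hpos]
    · rw [abs_neg, abs_of_pos hpos]
  have hgt := sigma_div_sub_one hσ hπ hσπ hx0 N hNx
  -- the class of `P - Φ P` vanishes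
  have hσs := sigma_s hN hσa hσ
  have hclsD : cls v W s (Point.some x y h - Point.some (σ x) (σ y) h') = 0 := by
    have h1 := map_sub (clsHom hW hN) (Point.some x y h) (Point.some (σ x) (σ y) h')
    rw [clsHom_apply, clsHom_apply, clsHom_apply] at h1
    rw [h1, helper64.cls_some, helper64.cls_some, clsXY_sigma hσs hσw, sub_self]
  rcases hDe : Point.some x y h - Point.some (σ x) (σ y) h' with _ | ⟨x', y', h''⟩
  · rfl
  · exfalso
    rw [hDe, helper64.cls_some] at hclsD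
    obtain ⟨hx', hwx'⟩ := clsXY_eq_zero hN hclsD
    have hx'0 : v.IsVal x' 0 :=
      ⟨hx', le_antisymm hwx' (not_lt.mp (hker _ hD x' y' h'' hDe hx'))⟩
    -- the collinear triple `P + (-D) + (-Φ P) = 0`
    have hsum : Point.some x y h + Point.some x' (-y') (hW.nonsingular_neg' h'') +
        Point.some (σ x) (-(σ y)) (hW.nonsingular_neg' h') = 0 := by
      rw [← hW.neg_some h'', ← hW.neg_some h', ← hDe]; abel
    obtain ⟨T, hT₁, -, hT₂, -, hT₃, -⟩ := exists_triple hW.a₁ hW.a₃ hW.a₆ _ _ _ hsum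
    have hkey := Triple.key hN T (by rw [hT₁]; exact hx0) (by rw [hT₁]; exact hpos)
      (by rw [hT₁]; exact hlt) (by rw [hT₂]; exact hx'0)
    rw [hT₃, hT₁] at hkey
    exact hkey.2.2.not_gt hgt

end Main

end Fermat.Agent.S05
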