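import Mathlib
import Fermat.Prelude.Def_FLTPrelim_FreyPackage

/-!
S05 task FR (helper98): integer arithmetic of the Frey package at a prime `q`.
-/

set_option autoImplicit false

namespace Fermat.Agent.S05.H98

lemma not_dvd_of_gcd_eq_one {x y : ℤ} {q : ℕ} (hq : q.Prime) (h : gcd x y = 1)
    (hx : (q : ℤ) ∣ x) : ¬ (q : ℤ) ∣ y := by
  intro hy
  have h1 : (q : ℤ) ∣ gcd x y := dvd_gcd hx hy
  rw [h] at h1
  have h2 : (q : ℤ) ≤ 1 := Int.le_of_dvd one_pos h1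
  have h3 := hq.two_le
  omega

lemma prime_int {q : ℕ} (hq : q.Prime) : Prime (q : ℤ) := Nat.prime_iff_prime_int.mp hq

lemma not_dvd_pow {x : ℤ} {q : ℕ} (hq : q.Prime) (n : ℕ) (hx : ¬ (q : ℤ) ∣ x) :
    ¬ (q : ℤ) ∣ x ^ n := fun h => hx ((prime_int hq).dvd_of_dvd_pow h)

lemma padicValInt_pow' {q : ℕ} (hq : q.Prime) (x : ℤ) (n : ℕ) (hx : x ≠ 0) :
    padicValInt q (x ^ n) = n * padicValInt q x := by
  have : Fact q.Prime := ⟨hq⟩
  induction n with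
  | zero => simp
  | succ n ih =>
    rw [pow_succ, padicValInt.mul (pow_ne_zero n hx) hx, ih]
    ring

lemma padicValInt_neg' (q : ℕ) (x : ℤ) : padicValInt q (-x) = padicValInt q x := by
  simp [padicValInt]

theorem frey_model (P : FreyPackage) {q : ℕ} (hq : q.Prime) (hq2 : q ≠ 2) (hqp : q ≠ P.p) :
    ∃ r a' b' : ℤ,
      (a' : ℚ) = 4 * P.freyCurve.a₂ + 1 - 3 * r ∧
      (b' : ℚ) = 3 * (r : ℚ) ^ 2 - 2 * r * (4 * P.freyCurve.a₂ + 1) + 16 * P.freyCurve.a₄ ∧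
      (r : ℚ) ^ 3 - (4 * P.freyCurve.a₂ + 1) * (r : ℚ) ^ 2 + 16 * P.freyCurve.a₄ * r = 0 ∧
      ¬ (q : ℤ) ∣ (a' ^ 2 - 4 * b') ∧ b' ≠ 0 ∧
      (¬ (q : ℤ) ∣ b' ∨
        (¬ (q : ℤ) ∣ a' ∧ (q : ℤ) ∣ b' ∧ ∃ k : ℕ, padicValInt q b' = P.p * k)) := by
  have : Fact q.Prime := ⟨hq⟩
  have hqi : Prime (q : ℤ) := prime_int hq
  have hFLT := P.hFLT
  have hA0 : P.a ^ P.p ≠ 0 := pow_ne_zero _ P.ha0
  have hB0 : P.b ^ P.p ≠ 0 := pow_ne_zero _ P.hb0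
  have hC0 : P.c ^ P.p ≠ 0 := pow_ne_zero _ P.hc0
  have hFLTq : ((P.a : ℚ)) ^ P.p + (P.b : ℚ) ^ P.p = (P.c : ℚ) ^ P.p := by
    exact_mod_cast hFLT
  have ha2 : 4 * P.freyCurve.a₂ + 1 = (P.b : ℚ) ^ P.p - (P.a : ℚ) ^ P.p := by
    simp only [FreyPackage.freyCurve]
    ring
  have ha4 : 16 * P.freyCurve.a₄ = -((P.a : ℚ) ^ P.p) * (P.b : ℚ) ^ P.p := by
    simp only [FreyPackage.freyCurve]
    ring
  by_cases hqc : (q : ℤ) ∣ P.c
  · -- q ∣ c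
    have hqa : ¬ (q : ℤ) ∣ P.a := fun h => not_dvd_of_gcd_eq_one hq P.hgcdac h hqc
    have hqb : ¬ (q : ℤ) ∣ P.b := fun h => not_dvd_of_gcd_eq_one hq P.hgcdbc h hqc
    have hqC : (q : ℤ) ∣ P.c ^ P.p := dvd_pow hqc P.hp0
    refine ⟨-(P.a ^ P.p), P.a ^ P.p + P.c ^ P.p, P.a ^ P.p * P.c ^ P.p, ?_, ?_, ?_, ?_, ?_, ?_⟩
    · rw [ha2]; push_cast; linear_combination -hFLTq
    · rw [ha2, ha4]; push_cast; linear_combination (-((P.a : ℚ) ^ P.p)) * hFLTq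
    · rw [ha2, ha4]; push_cast; ring
    · have : (P.a ^ P.p + P.c ^ P.p) ^ 2 - 4 * (P.a ^ P.p * P.c ^ P.p) = (P.b ^ P.p) ^ 2 := by
        linear_combination (-(P.c ^ P.p) + P.a ^ P.p - P.b ^ P.p) * hFLT
      rw [this]
      exact not_dvd_pow hq 2 (not_dvd_pow hq _ hqb)
    · exact mul_ne_zero hA0 hC0
    · right
      refine ⟨?_, Dvd.dvd.mul_left hqC _, padicValInt q P.c, ?_⟩
      · intro h
        have : (q : ℤ) ∣ P.a ^ P.p := (dvd_add_left hqC).mp h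
        exact not_dvd_pow hq _ hqa this
      · rw [padicValInt.mul hA0 hC0, padicValInt_pow' hq _ _ P.ha0, padicValInt_pow' hq _ _ P.hc0,
          padicValInt.eq_zero_of_not_dvd hqa]
        ring
  · -- q ∤ c
    refine ⟨0, P.b ^ P.p - P.a ^ P.p, -(P.a ^ P.p * P.b ^ P.p), ?_, ?_, ?_, ?_, ?_, ?_⟩
    · rw [ha2]; push_cast; ring
    · rw [ha4]; push_cast; ring
    · push_cast; ring
    · have : (P.b ^ P.p - P.a ^ P.p) ^ 2 - 4 * (-(P.a ^ P.p * P.b ^ P.p)) = (P.c ^ P.p) ^ 2 := by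
        linear_combination (P.a ^ P.p + P.b ^ P.p + P.c ^ P.p) * hFLT
      rw [this]
      exact not_dvd_pow hq 2 (not_dvd_pow hq _ hqc)
    · exact neg_ne_zero.mpr (mul_ne_zero hA0 hB0)
    · by_cases hqab : (q : ℤ) ∣ -(P.a ^ P.p * P.b ^ P.p)
      · right
        refine ⟨?_, hqab, padicValInt q P.a + padicValInt q P.b, ?_⟩
        · rw [dvd_neg] at hqab
          intro h
          rcases hqi.dvd_or_dvd hqab with hA | hB
          · have hB : (q : ℤ) ∣ P.b ^ P.p := (dvd_sub_left hA).mp h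
            exact not_dvd_of_gcd_eq_one hq P.hgcdab (hqi.dvd_of_dvd_pow hA)
              (hqi.dvd_of_dvd_pow hB)
          · have hA : (q : ℤ) ∣ P.a ^ P.p := (dvd_sub_right hB).mp h
            exact not_dvd_of_gcd_eq_one hq P.hgcdab (hqi.dvd_of_dvd_pow hA)
              (hqi.dvd_of_dvd_pow hB)
        · rw [padicValInt_neg', padicValInt.mul hA0 hB0, padicValInt_pow' hq _ _ P.ha0,
            padicValInt_pow' hq _ _ P.hb0]
          ring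
      · left; exact hqab

end Fermat.Agent.S05.H98
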