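import Mathlib

/-!
S05-A2 (owner: helper52): transfer between the `a₁ = 1` model `y² + xy = x³ + a₂x² + a₄x`
and a model `Y² = X³ + A₂X² + A₄X` through `(x, y) ↦ (4x + r, 8y + 4x)`.
-/

namespace Fermat.Agent.S05.H52

open WeierstrassCurve WeierstrassCurve.Affine

variable {K : Type*} [Field K]

/-- The hypotheses relating the two models. -/
structure TransferHyp (W₁ W₂ : WeierstrassCurve K) (r : K) : Prop where
  h2 : (2 : K) ≠ 0
  h₁ : W₁.a₁ = 1
  h₃ : W₁.a₃ = 0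
  h₆ : W₁.a₆ = 0
  g₁ : W₂.a₁ = 0
  g₃ : W₂.a₃ = 0
  g₆ : W₂.a₆ = 0
  hc₂ : W₂.a₂ = 4 * W₁.a₂ + 1 - 3 * r
  hc₄ : W₂.a₄ = 3 * r ^ 2 - 2 * r * (4 * W₁.a₂ + 1) + 16 * W₁.a₄
  hc₆ : r ^ 3 - (4 * W₁.a₂ + 1) * r ^ 2 + 16 * W₁.a₄ * r = 0

namespace TransferHyp

variable {W₁ W₂ : WeierstrassCurve K} {r : K} (H : TransferHyp W₁ W₂ r)

include H

lemma four_ne : (4 : K) ≠ 0 := by
  have h : (4 : K) = 2 * 2 := by norm_num
  rw [h]; exact mul_ne_zero H.h2 H.h2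

lemma eight_ne : (8 : K) ≠ 0 := by
  have h : (8 : K) = 2 * 2 * 2 := by norm_num
  rw [h]; exact mul_ne_zero (mul_ne_zero H.h2 H.h2) H.h2

lemma sixteen_ne : (16 : K) ≠ 0 := by
  have h : (16 : K) = 2 * 2 * 2 * 2 := by norm_num
  rw [h]; exact mul_ne_zero (mul_ne_zero (mul_ne_zero H.h2 H.h2) H.h2) H.h2

lemma equation {x y : K} (h : W₁.toAffine.Equation x y) :
    W₂.toAffine.Equation (4 * x + r) (8 * y + 4 * x) := by
  rw [equation_iff] at h ⊢
  rw [H.h₁, H.h₃, H.h₆] at h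
  rw [H.g₁, H.g₃, H.g₆, H.hc₂, H.hc₄]
  linear_combination 64 * h - H.hc₆

lemma nonsingular {x y : K} (h : W₁.toAffine.Nonsingular x y) :
    W₂.toAffine.Nonsingular (4 * x + r) (8 * y + 4 * x) := by
  rw [nonsingular_iff'] at h ⊢
  refine ⟨H.equation h.1, ?_⟩
  have h' := h.2
  rw [H.h₁, H.h₃] at h'
  rw [H.g₁, H.g₃, H.hc₂, H.hc₄]
  by_cases hy : 2 * y + x = 0
  · left
    have hx : 1 * y - (3 * x ^ 2 + 2 * W₁.a₂ * x + W₁.a₄) ≠ 0 := by
      rcases h' with h' | h'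
      · exact h'
      · exact absurd (by linear_combination hy) h'
    intro hcontra
    apply hx
    apply mul_left_cancel₀ H.sixteen_ne
    linear_combination hcontra + 8 * hy
  · right
    intro hcontra
    apply hy
    apply mul_left_cancel₀ H.eight_ne
    linear_combination hcontra

lemma negY_eq (x y : K) :
    W₂.toAffine.negY (4 * x + r) (8 * y + 4 * x) = 8 * W₁.toAffine.negY x y + 4 * x := by
  simp only [negY, H.h₁, H.h₃, H.g₁, H.g₃]
  ring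

lemma addX_eq (x₁ x₂ ℓ : K) :
    W₂.toAffine.addX (4 * x₁ + r) (4 * x₂ + r) (2 * ℓ + 1) =
      4 * W₁.toAffine.addX x₁ x₂ ℓ + r := by
  simp only [addX, H.h₁, H.g₁, H.hc₂]
  ring

lemma addY_eq (x₁ x₂ y₁ ℓ : K) :
    W₂.toAffine.addY (4 * x₁ + r) (4 * x₂ + r) (8 * y₁ + 4 * x₁) (2 * ℓ + 1) =
      8 * W₁.toAffine.addY x₁ x₂ y₁ ℓ + 4 * W₁.toAffine.addX x₁ x₂ ℓ := by
  simp only [addY, negAddY, negY, addX, H.h₁, H.h₃, H.g₁, H.g₃, H.hc₂]
  ring

variable [DecidableEq K]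

lemma slope_eq {x₁ x₂ y₁ y₂ : K} (h₁ : W₁.toAffine.Equation x₁ y₁)
    (h₂ : W₁.toAffine.Equation x₂ y₂)
    (hxy : ¬(x₁ = x₂ ∧ y₁ = W₁.toAffine.negY x₂ y₂)) :
    W₂.toAffine.slope (4 * x₁ + r) (4 * x₂ + r) (8 * y₁ + 4 * x₁) (8 * y₂ + 4 * x₂) =
      2 * W₁.toAffine.slope x₁ x₂ y₁ y₂ + 1 := by
  by_cases hx : x₁ = x₂
  · have hy : y₁ ≠ W₁.toAffine.negY x₂ y₂ := fun hy => hxy ⟨hx, hy⟩
    have hyy : y₁ = y₂ := Y_eq_of_Y_ne h₁ h₂ hx hy
    subst hx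
    subst hyy
    have hy' : 8 * y₁ + 4 * x₁ ≠ W₂.toAffine.negY (4 * x₁ + r) (8 * y₁ + 4 * x₁) := by
      rw [H.negY_eq]
      intro hc
      apply hy
      have h8 := H.eight_ne
      apply mul_left_cancel₀ h8
      linear_combination hc
    rw [slope_of_Y_ne rfl hy, slope_of_Y_ne rfl hy']
    have hd1 : y₁ - W₁.toAffine.negY x₁ y₁ ≠ 0 := sub_ne_zero.mpr hy
    have hd2 : 8 * y₁ + 4 * x₁ - W₂.toAffine.negY (4 * x₁ + r) (8 * y₁ + 4 * x₁) ≠ 0 :=
      sub_ne_zero.mpr hy'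
    rw [div_eq_iff hd2]
    have key : 2 * ((3 * x₁ ^ 2 + 2 * W₁.a₂ * x₁ + W₁.a₄ - W₁.a₁ * y₁) /
        (y₁ - W₁.toAffine.negY x₁ y₁)) * (y₁ - W₁.toAffine.negY x₁ y₁) =
        2 * (3 * x₁ ^ 2 + 2 * W₁.a₂ * x₁ + W₁.a₄ - W₁.a₁ * y₁) := by
      field_simp
    rw [H.negY_eq] at hd2 ⊢
    simp only [negY, H.h₁, H.h₃] at key ⊢
    rw [H.g₁, H.hc₂, H.hc₄]
    linear_combination (-8 : K) * key
  · have hx' : 4 * x₁ + r ≠ 4 * x₂ + r := by
      intro hc
      apply hx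
      apply mul_left_cancel₀ H.four_ne
      linear_combination hc
    rw [slope_of_X_ne hx, slope_of_X_ne hx']
    have hd1 : x₁ - x₂ ≠ 0 := sub_ne_zero.mpr hx
    have hd2 : 4 * x₁ + r - (4 * x₂ + r) ≠ 0 := sub_ne_zero.mpr hx'
    have h4 := H.four_ne
    field_simp
    ring

end TransferHyp

lemma some_congr {W : WeierstrassCurve K} {x x' y y' : K} (hx : x = x') (hy : y = y')
    (h : W.toAffine.Nonsingular x y) (h' : W.toAffine.Nonsingular x' y') :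
    (Point.some x y h : W.toAffine.Point) = Point.some x' y' h' := by
  subst hx; subst hy; rfl

/-- The transfer map on points. -/
noncomputable def transferFun {W₁ W₂ : WeierstrassCurve K} {r : K} (H : TransferHyp W₁ W₂ r) :
    W₁.toAffine.Point → W₂.toAffine.Point
  | .zero => .zero
  | .some x y h => .some (4 * x + r) (8 * y + 4 * x) (H.nonsingular h)

lemma transferFun_zero {W₁ W₂ : WeierstrassCurve K} {r : K} (H : TransferHyp W₁ W₂ r) :
    transferFun H 0 = 0 := rfl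

lemma transferFun_some {W₁ W₂ : WeierstrassCurve K} {r : K} (H : TransferHyp W₁ W₂ r)
    {x y : K} (h : W₁.toAffine.Nonsingular x y) :
    transferFun H (Point.some x y h) = Point.some (4 * x + r) (8 * y + 4 * x) (H.nonsingular h) :=
  rfl

lemma transferFun_add [DecidableEq K] {W₁ W₂ : WeierstrassCurve K} {r : K}
    (H : TransferHyp W₁ W₂ r)
    (P Q : W₁.toAffine.Point) :
    transferFun H (P + Q) = transferFun H P + transferFun H Q := by
  rcases P with _ | ⟨x₁, y₁, h₁⟩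
  · show transferFun H (0 + Q) = 0 + transferFun H Q
    rw [zero_add, zero_add]
  rcases Q with _ | ⟨x₂, y₂, h₂⟩
  · show transferFun H (Point.some x₁ y₁ h₁ + 0) = transferFun H (Point.some x₁ y₁ h₁) + 0
    rw [add_zero, add_zero]
  by_cases hxy : x₁ = x₂ ∧ y₁ = W₁.toAffine.negY x₂ y₂
  · rw [Point.add_of_Y_eq hxy.1 hxy.2, transferFun_zero, transferFun_some, transferFun_some,
      Point.add_of_Y_eq (by rw [hxy.1]) (by rw [H.negY_eq, hxy.2, hxy.1])]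
  · have hxy' : ¬(4 * x₁ + r = 4 * x₂ + r ∧
        8 * y₁ + 4 * x₁ = W₂.toAffine.negY (4 * x₂ + r) (8 * y₂ + 4 * x₂)) := by
      rintro ⟨hx, hy⟩
      have hx' : x₁ = x₂ := by
        apply mul_left_cancel₀ H.four_ne
        linear_combination hx
      refine hxy ⟨hx', ?_⟩
      rw [H.negY_eq] at hy
      apply mul_left_cancel₀ H.eight_ne
      rw [hx'] at hy
      linear_combination hy
    rw [Point.add_some hxy, transferFun_some, transferFun_some, transferFun_some,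
      Point.add_some hxy']
    apply some_congr
    · rw [H.slope_eq h₁.1 h₂.1 hxy, H.addX_eq]
    · rw [H.slope_eq h₁.1 h₂.1 hxy, H.addY_eq]

lemma transferFun_injective {W₁ W₂ : WeierstrassCurve K} {r : K} (H : TransferHyp W₁ W₂ r) :
    Function.Injective (transferFun H) := by
  rintro (_ | ⟨x₁, y₁, h₁⟩) (_ | ⟨x₂, y₂, h₂⟩) h
  · rfl
  · exact absurd h (by simp [transferFun])
  · exact absurd h (by simp [transferFun])
  · simp only [transferFun, Point.some.injEq] at h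
    obtain ⟨hx, hy⟩ := h
    have hx' : x₁ = x₂ := by
      apply mul_left_cancel₀ H.four_ne
      linear_combination hx
    have hy' : y₁ = y₂ := by
      apply mul_left_cancel₀ H.eight_ne
      rw [hx'] at hy
      linear_combination hy
    subst hx'; subst hy'; rfl

/-- **S05-A2**: transfer between the `a₁ = 1` model and the 2-torsion-at-origin model. -/
theorem exists_transfer [DecidableEq K] (h2 : (2 : K) ≠ 0) (W₁ W₂ : WeierstrassCurve K) (r : K)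
    (h₁ : W₁.a₁ = 1) (h₃ : W₁.a₃ = 0) (h₆ : W₁.a₆ = 0)
    (g₁ : W₂.a₁ = 0) (g₃ : W₂.a₃ = 0) (g₆ : W₂.a₆ = 0)
    (hc₂ : W₂.a₂ = 4 * W₁.a₂ + 1 - 3 * r)
    (hc₄ : W₂.a₄ = 3 * r ^ 2 - 2 * r * (4 * W₁.a₂ + 1) + 16 * W₁.a₄)
    (hc₆ : r ^ 3 - (4 * W₁.a₂ + 1) * r ^ 2 + 16 * W₁.a₄ * r = 0) :
    ∃ φ : W₁.toAffine.Point →+ W₂.toAffine.Point, Function.Injective φ ∧
      ∀ (x y : K) (h : W₁.toAffine.Nonsingular x y),
        ∃ h' : W₂.toAffine.Nonsingular (4 * x + r) (8 * y + 4 * x),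
          φ (Point.some x y h) = Point.some (4 * x + r) (8 * y + 4 * x) h' := by
  have H : TransferHyp W₁ W₂ r := ⟨h2, h₁, h₃, h₆, g₁, g₃, g₆, hc₂, hc₄, hc₆⟩
  refine ⟨⟨⟨transferFun H, transferFun_zero H⟩, transferFun_add H⟩, transferFun_injective H,
    fun x y h => ⟨H.nonsingular h, rfl⟩⟩

end Fermat.Agent.S05.H52
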