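import Fermat.Agent.S05.Basic
import Fermat.Prelude.Def_FLTPrelim_FreyPackage
import Fermat.Prelude.Def_FLTPrelim_GaloisRep
import Fermat.Prelude.Def_FLTPrelim_Ramification

/-!
S05 final wiring (helper15).

`wiring_of` proves `P.GaloisRepUnramifiedAt q` from the five interface statements
A2 `exists_transfer`, A3 `exists_qval`, FR `frey_model`, EFG `inertia_fixes_torsion_good`,
EFM `inertia_fixes_torsion_mult` (exactly as stated in `Spec.lean` / `Spec2.lean`, specialised to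
`K = AlgebraicClosure ℚ`), taken here as explicit hypotheses `StmtA2 … StmtEFM`.

Final use (in `Fermat/Agent/S05.lean`, after importing the finished files):
`wiring_of (fun h2 W₁ W₂ r => exists_transfer h2 W₁ W₂ r) exists_qval frey_model
   inertia_fixes_torsion_good inertia_fixes_torsion_mult P hq hq2 hqp`
-/

set_option autoImplicit false

namespace Fermat.Agent.S05

open WeierstrassCurve WeierstrassCurve.Affine

namespace helper15

local notation "Qb" => AlgebraicClosure ℚ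

/-- statement of A2 `exists_transfer` at `K = ℚ̄` -/
abbrev StmtA2 : Prop :=
  ∀ (_ : (2 : Qb) ≠ 0) (W₁ W₂ : WeierstrassCurve Qb) (r : Qb)
    (_ : W₁.a₁ = 1) (_ : W₁.a₃ = 0) (_ : W₁.a₆ = 0)
    (_ : W₂.a₁ = 0) (_ : W₂.a₃ = 0) (_ : W₂.a₆ = 0)
    (_ : W₂.a₂ = 4 * W₁.a₂ + 1 - 3 * r)
    (_ : W₂.a₄ = 3 * r ^ 2 - 2 * r * (4 * W₁.a₂ + 1) + 16 * W₁.a₄)
    (_ : r ^ 3 - (4 * W₁.a₂ + 1) * r ^ 2 + 16 * W₁.a₄ * r = 0),
    ∃ φ : W₁.toAffine.Point →+ W₂.toAffine.Point, Function.Injective φ ∧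
      ∀ (x y : Qb) (h : W₁.toAffine.Nonsingular x y),
        ∃ h' : W₂.toAffine.Nonsingular (4 * x + r) (8 * y + 4 * x),
          φ (Point.some x y h) = Point.some (4 * x + r) (8 * y + 4 * x) h'

/-- statement of A3 `exists_qval` -/
abbrev StmtA3 : Prop :=
  ∀ (A : ValuationSubring Qb) (q : ℕ) (_ : q.Prime) (_ : A.LiesOverPrime q),
    ∃ v : QVal Qb,
      (∀ k : ℤ, k ≠ 0 → v.w (k : Qb) = padicValInt q k) ∧
      (∀ σ ∈ A.inertiaSubgroupIn ℚ, ∀ x : Qb, v.w (σ x) = v.w x) ∧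
      (∀ σ ∈ A.inertiaSubgroupIn ℚ, ∀ x : Qb, v.Ge x 0 → v.Gt (σ x - x) 0)

/-- statement of FR `frey_model` -/
abbrev StmtFR : Prop :=
  ∀ (P : FreyPackage) {q : ℕ} (_ : q.Prime) (_ : q ≠ 2) (_ : q ≠ P.p),
    ∃ r a' b' : ℤ,
      (a' : ℚ) = 4 * P.freyCurve.a₂ + 1 - 3 * r ∧
      (b' : ℚ) = 3 * (r : ℚ) ^ 2 - 2 * r * (4 * P.freyCurve.a₂ + 1) + 16 * P.freyCurve.a₄ ∧
      (r : ℚ) ^ 3 - (4 * P.freyCurve.a₂ + 1) * (r : ℚ) ^ 2 + 16 * P.freyCurve.a₄ * r = 0 ∧
      ¬ (q : ℤ) ∣ (a' ^ 2 - 4 * b') ∧ b' ≠ 0 ∧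
      (¬ (q : ℤ) ∣ b' ∨
        (¬ (q : ℤ) ∣ a' ∧ (q : ℤ) ∣ b' ∧ ∃ k : ℕ, padicValInt q b' = P.p * k))

/-- statement of EFG `inertia_fixes_torsion_good` at `K = ℚ̄` -/
abbrev StmtEFG : Prop :=
  ∀ {v : QVal Qb} {W : WeierstrassCurve Qb} (_ : LegCurve W) (_ : Integral v W.a₂ W.a₄)
    (_ : v.IsVal W.a₄ 0) (_ : v.IsVal (W.a₂ ^ 2 - 4 * W.a₄) 0)
    (σ : Qb →+* Qb) (_ : σ W.a₂ = W.a₂) (_ : σ W.a₄ = W.a₄)
    (_ : ∀ x, v.w (σ x) = v.w x) (_ : ∀ x, v.Ge x 0 → v.Gt (σ x - x) 0)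
    (Φ : W.toAffine.Point →+ W.toAffine.Point)
    (_ : ∀ (x y : Qb) (h : W.toAffine.Nonsingular x y),
      ∃ h' : W.toAffine.Nonsingular (σ x) (σ y), Φ (Point.some x y h) = Point.some (σ x) (σ y) h')
    (p : ℕ) (_ : v.IsVal (p : Qb) 0) (P : W.toAffine.Point) (_ : p • P = 0), Φ P = P

/-- statement of EFM `inertia_fixes_torsion_mult` at `K = ℚ̄` -/
abbrev StmtEFM : Prop :=
  ∀ {v : QVal Qb} {W : WeierstrassCurve Qb} {s : Qb} (_ : LegCurve W)
    (_ : Nodal v W.a₂ W.a₄ s) (_ : v.IsVal (W.a₂ ^ 2 - 4 * W.a₄) 0)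
    (σ : Qb →+* Qb) (_ : σ W.a₂ = W.a₂) (_ : σ W.a₄ = W.a₄)
    (_ : ∀ x, v.w (σ x) = v.w x) (_ : ∀ x, v.Ge x 0 → v.Gt (σ x - x) 0)
    (Φ : W.toAffine.Point →+ W.toAffine.Point)
    (_ : ∀ (x y : Qb) (h : W.toAffine.Nonsingular x y),
      ∃ h' : W.toAffine.Nonsingular (σ x) (σ y), Φ (Point.some x y h) = Point.some (σ x) (σ y) h')
    (π : Qb) (_ : v.IsVal π 1) (_ : σ π = π)
    (p : ℕ) (_ : v.IsVal (p : Qb) 0) (_ : Odd p) (k : ℕ) (_ : v.w W.a₄ = p * k)
    (P : W.toAffine.Point) (_ : p • P = 0), Φ P = P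

/-- valuation of an integer cast -/
lemma isVal_intCast {v : QVal Qb} {q : ℕ}
    (hv : ∀ k : ℤ, k ≠ 0 → v.w (k : Qb) = padicValInt q k) {k : ℤ} (hk : k ≠ 0) :
    v.IsVal (k : Qb) (padicValInt q k) :=
  ⟨by exact_mod_cast hk, hv k hk⟩

lemma isVal_intCast_of_not_dvd {v : QVal Qb} {q : ℕ}
    (hv : ∀ k : ℤ, k ≠ 0 → v.w (k : Qb) = padicValInt q k) {k : ℤ} (hk : ¬ (q : ℤ) ∣ k) :
    v.IsVal (k : Qb) 0 := by
  have hk0 : k ≠ 0 := fun h => hk (h ▸ dvd_zero _)
  have h := isVal_intCast hv hk0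
  rw [padicValInt.eq_zero_of_not_dvd hk] at h
  simpa using h

/-- the model `Y² = X³ + a' X² + b' X` over `ℚ` -/
def legQ (a' b' : ℤ) : WeierstrassCurve ℚ := ⟨0, a', 0, b', 0⟩

lemma legQ_legCurve (a' b' : ℤ) : LegCurve ((legQ a' b').baseChange Qb) :=
  ⟨by simp [legQ, WeierstrassCurve.baseChange], by simp [legQ, WeierstrassCurve.baseChange],
    by simp [legQ, WeierstrassCurve.baseChange]⟩

lemma legQ_a₂ (a' b' : ℤ) : ((legQ a' b').baseChange Qb).a₂ = (a' : Qb) := by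
  simp [legQ, WeierstrassCurve.baseChange]

lemma legQ_a₄ (a' b' : ℤ) : ((legQ a' b').baseChange Qb).a₄ = (b' : Qb) := by
  simp [legQ, WeierstrassCurve.baseChange]

/-- commutation of the transfer with the Galois action -/
lemma transfer_comm {W₁' W₂' : WeierstrassCurve ℚ} (σ : Qb ≃ₐ[ℚ] Qb) (r : ℚ)
    (φ : (W₁'⁄Qb).Point →+ (W₂'⁄Qb).Point)
    (hφ : ∀ (x y : Qb) (h : (W₁'⁄Qb).Nonsingular x y),
        ∃ h' : (W₂'⁄Qb).Nonsingular (4 * x + algebraMap ℚ Qb r) (8 * y + 4 * x),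
          φ (Point.some x y h) = Point.some (4 * x + algebraMap ℚ Qb r) (8 * y + 4 * x) h')
    (Q : (W₁'⁄Qb).Point) :
    φ (Point.map σ.toAlgHom Q) = Point.map σ.toAlgHom (φ Q) := by
  rcases Q with _ | ⟨x, y, h⟩
  · change φ (Point.map σ.toAlgHom 0) = Point.map σ.toAlgHom (φ 0)
    simp
  · obtain ⟨h', e'⟩ := hφ x y h
    rw [e', Point.map_some, Point.map_some]
    obtain ⟨h'', e''⟩ := hφ _ _
      ((WeierstrassCurve.Affine.baseChange_nonsingular W₁' σ.toAlgHom.injective ..).mpr h)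
    rw [e'']
    have h4 : σ (4 : Qb) = 4 := map_ofNat σ 4
    have h8 : σ (8 : Qb) = 8 := map_ofNat σ 8
    apply some_congr <;> simp [h4, h8]

/-- **Final wiring**: the five interface statements imply that the mod `p` representation of the
Frey curve is unramified at every odd prime `q ≠ p`. -/
theorem wiring_of (exists_transfer : StmtA2) (exists_qval : StmtA3) (frey_model : StmtFR)
    (inertia_fixes_torsion_good : StmtEFG) (inertia_fixes_torsion_mult : StmtEFM)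
    (P : FreyPackage) {q : ℕ} (hq : q.Prime) (hq2 : q ≠ 2) (hqp : q ≠ P.p) :
    P.GaloisRepUnramifiedAt q := by
  intro A hA σ hσ x
  obtain ⟨v, hvint, hvσw, hvσ⟩ := exists_qval A q hq hA
  obtain ⟨r, a', b', ha', hb', hr, hdisc, hb0, hcases⟩ := frey_model P hq hq2 hqp
  have h2K : (2 : AlgebraicClosure ℚ) ≠ 0 := two_ne_zero
  -- the transfer to the model `Y² = X³ + a' X² + b' X`
  obtain ⟨φ, hφinj, hφ⟩ := exists_transfer h2K (P.freyCurve.baseChange (AlgebraicClosure ℚ))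
    ((legQ a' b').baseChange (AlgebraicClosure ℚ)) (algebraMap ℚ (AlgebraicClosure ℚ) (r : ℚ))
    (by simp [FreyPackage.freyCurve, WeierstrassCurve.baseChange])
    (by simp [FreyPackage.freyCurve, WeierstrassCurve.baseChange])
    (by simp [FreyPackage.freyCurve, WeierstrassCurve.baseChange])
    (legQ_legCurve a' b').a₁ (legQ_legCurve a' b').a₃ (legQ_legCurve a' b').a₆
    (by
      have h := congrArg (algebraMap ℚ (AlgebraicClosure ℚ)) ha'
      simpa [legQ, WeierstrassCurve.baseChange] using h)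
    (by
      have h := congrArg (algebraMap ℚ (AlgebraicClosure ℚ)) hb'
      simpa [legQ, WeierstrassCurve.baseChange] using h)
    (by
      have h := congrArg (algebraMap ℚ (AlgebraicClosure ℚ)) hr
      simpa [legQ, WeierstrassCurve.baseChange] using h)
  -- reduce to the new model
  have hx := x.2
  rw [Submodule.mem_torsionBy_iff] at hx
  apply Subtype.ext
  change Point.map σ.toAlgHom x.1 = x.1
  apply hφinj
  refine (transfer_comm σ r φ hφ x.1).trans ?_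
  have hP : P.p • φ x.1 = 0 := by
    have h1 : (P.p : ℤ) • x.1 = P.p • x.1 := natCast_zsmul x.1 P.p
    have h2 : P.p • x.1 = 0 := h1.symm.trans hx
    exact (map_nsmul φ P.p x.1).symm.trans ((congrArg φ h2).trans (map_zero φ))
  -- common data
  have hW := legQ_legCurve a' b'
  have h2 : v.IsVal (2 : AlgebraicClosure ℚ) 0 := by
    have h : ¬ (q : ℤ) ∣ (2 : ℤ) := by
      intro hd
      have h1 : q ∣ 2 := by exact_mod_cast hd
      exact hq2 ((Nat.prime_dvd_prime_iff_eq hq Nat.prime_two).mp h1)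
    simpa using isVal_intCast_of_not_dvd hvint h
  have hp : v.IsVal ((P.p : ℕ) : AlgebraicClosure ℚ) 0 := by
    have h : ¬ (q : ℤ) ∣ (P.p : ℤ) := by
      intro hd
      have h1 : q ∣ P.p := by exact_mod_cast hd
      exact hqp ((Nat.prime_dvd_prime_iff_eq hq P.pp).mp h1)
    simpa using isVal_intCast_of_not_dvd hvint h
  have hd : v.IsVal (((legQ a' b').baseChange (AlgebraicClosure ℚ)).a₂ ^ 2
      - 4 * ((legQ a' b').baseChange (AlgebraicClosure ℚ)).a₄) 0 := by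
    rw [legQ_a₂, legQ_a₄]
    simpa using isVal_intCast_of_not_dvd hvint hdisc
  have hσa : (σ : AlgebraicClosure ℚ →+* AlgebraicClosure ℚ)
      ((legQ a' b').baseChange (AlgebraicClosure ℚ)).a₂
      = ((legQ a' b').baseChange (AlgebraicClosure ℚ)).a₂ := by
    rw [legQ_a₂]; simp
  have hσb : (σ : AlgebraicClosure ℚ →+* AlgebraicClosure ℚ)
      ((legQ a' b').baseChange (AlgebraicClosure ℚ)).a₄
      = ((legQ a' b').baseChange (AlgebraicClosure ℚ)).a₄ := by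
    rw [legQ_a₄]; simp
  have hΦ : ∀ (x y : AlgebraicClosure ℚ)
      (h : ((legQ a' b').baseChange (AlgebraicClosure ℚ)).toAffine.Nonsingular x y),
      ∃ h' : ((legQ a' b').baseChange (AlgebraicClosure ℚ)).toAffine.Nonsingular
        ((σ : AlgebraicClosure ℚ →+* AlgebraicClosure ℚ) x)
        ((σ : AlgebraicClosure ℚ →+* AlgebraicClosure ℚ) y),
        Point.map (W' := legQ a' b') σ.toAlgHom (Point.some x y h) = Point.some _ _ h' :=
    fun x y h => ⟨_, rfl⟩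
  rcases hcases with hgood | ⟨hna, hdb, k, hk⟩
  · -- good reduction
    refine inertia_fixes_torsion_good (v := v) hW ⟨h2, ?_, ?_⟩ ?_ hd
      (σ : AlgebraicClosure ℚ →+* AlgebraicClosure ℚ) hσa hσb (fun x => hvσw σ hσ x)
      (fun x hx => hvσ σ hσ x hx) (Point.map (W' := legQ a' b') σ.toAlgHom) hΦ P.p hp _ hP
    · rw [legQ_a₂]; exact QVal.ge_intCast a'
    · rw [legQ_a₄]; exact QVal.ge_intCast b'
    · rw [legQ_a₄]; exact isVal_intCast_of_not_dvd hvint hgood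
  · -- multiplicative reduction
    obtain ⟨s, hs⟩ := IsAlgClosed.exists_pow_nat_eq (a' : AlgebraicClosure ℚ) (n := 2) two_pos
    have hb'val : v.w ((b' : ℤ) : AlgebraicClosure ℚ) = padicValInt q b' := hvint b' hb0
    have hpos : 0 < padicValInt q b' := by
      have := Fact.mk hq
      have := (padicValInt_dvd_iff (p := q) 1 b').mp (by simpa using hdb)
      rcases this with h | h
      · exact absurd h hb0
      · omega
    have hN : Nodal v ((legQ a' b').baseChange (AlgebraicClosure ℚ)).a₂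
        ((legQ a' b').baseChange (AlgebraicClosure ℚ)).a₄ s := by
      refine ⟨h2, ?_, ?_, ?_, ?_⟩
      · rw [legQ_a₂]; exact isVal_intCast_of_not_dvd hvint hna
      · rw [legQ_a₄]; exact_mod_cast hb0
      · rw [legQ_a₄, hb'val]; exact_mod_cast hpos
      · rw [legQ_a₂]; exact hs
    have hπ : v.IsVal ((q : ℕ) : AlgebraicClosure ℚ) 1 := by
      have h := isVal_intCast hvint (q := q) (k := (q : ℤ)) (by exact_mod_cast hq.ne_zero)
      have := Fact.mk hq
      have h1 : padicValInt q (q : ℤ) = 1 := by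
        rw [padicValInt.of_nat]; exact padicValNat_self
      rw [h1] at h
      simpa using h
    refine inertia_fixes_torsion_mult (v := v) (s := s) hW hN hd
      (σ : AlgebraicClosure ℚ →+* AlgebraicClosure ℚ) hσa hσb (fun x => hvσw σ hσ x)
      (fun x hx => hvσ σ hσ x hx) (Point.map (W' := legQ a' b') σ.toAlgHom) hΦ
      ((q : ℕ) : AlgebraicClosure ℚ) hπ (by simp) P.p hp P.hp_odd k ?_ _ hP
    rw [legQ_a₄, hb'val, hk]; push_cast; ring

end helper15

end Fermat.Agent.S05
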