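import Fermat.Agent.S05.Defs

/-!
S05 (owner: helper3): point-level basics for curves `Y^2 = X^3 + a₂ X^2 + a₄ X`
and the definition of the component class `cls`.
-/

set_option linter.unusedSectionVars false

namespace Fermat.Agent.S05

open WeierstrassCurve WeierstrassCurve.Affine

variable {K : Type*} [Field K] [DecidableEq K]

/-- curves of the form `Y^2 = X^3 + a₂ X^2 + a₄ X` -/
structure LegCurve (W : WeierstrassCurve K) : Prop where
  a₁ : W.a₁ = 0
  a₃ : W.a₃ = 0
  a₆ : W.a₆ = 0

variable {W : WeierstrassCurve K}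

lemma some_congr {x y x' y' : K} {h : W.toAffine.Nonsingular x y}
    {h' : W.toAffine.Nonsingular x' y'} (hx : x = x') (hy : y = y') :
    Point.some x y h = Point.some x' y' h' := by
  subst hx; subst hy; rfl

namespace LegCurve

variable (hW : LegCurve W)
include hW

lemma eqn {x y : K} (h : W.toAffine.Nonsingular x y) :
    y ^ 2 = x ^ 3 + W.a₂ * x ^ 2 + W.a₄ * x := by
  have := (equation_iff _ _).mp h.1
  rw [hW.a₁, hW.a₃, hW.a₆] at this
  linear_combination this

lemma negY_eq (x y : K) : W.toAffine.negY x y = -y := by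
  simp [negY, hW.a₁, hW.a₃]

lemma nonsingular_neg' {x y : K} (h : W.toAffine.Nonsingular x y) :
    W.toAffine.Nonsingular x (-y) := by
  have := (nonsingular_neg x y).mpr h
  rwa [hW.negY_eq] at this

lemma neg_some {x y : K} (h : W.toAffine.Nonsingular x y) :
    -(Point.some x y h) = Point.some x (-y) (hW.nonsingular_neg' h) := by
  rw [Point.neg_some]
  exact some_congr rfl (hW.negY_eq x y)

/-- the origin `(0,0)` is a (nonsingular) point as soon as `a₄ ≠ 0` -/
lemma nonsingular_origin (hb : W.a₄ ≠ 0) : W.toAffine.Nonsingular 0 0 := by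
  rw [nonsingular_iff, equation_iff]
  refine ⟨by simp [hW.a₆], Or.inl ?_⟩
  simpa [hW.a₁] using hb.symm

end LegCurve

/-- The component class of a point with coordinates `(x, y)` on `Y^2 = X^3 + a X^2 + b X`
(nodal situation, `s^2 = a`): an element of `ℚ / 2 w(b) ℤ`.
* `x = 0` or `w b ≤ w x` : the class of `w b` (middle component);
* `w x ≤ 0` : `0`;
* `0 < w x < w b` : `w x` on the branch `y/x ≡ s`, and `- w x` on the other branch. -/
noncomputable def clsXY (v : QVal K) (b s x y : K) : ℚ ⧸ AddSubgroup.zmultiples (2 * v.w b) :=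
  open Classical in
  if x = 0 then ((v.w b : ℚ) : ℚ ⧸ AddSubgroup.zmultiples (2 * v.w b))
  else if v.w x ≤ 0 then 0
  else if v.w b ≤ v.w x then ((v.w b : ℚ) : ℚ ⧸ AddSubgroup.zmultiples (2 * v.w b))
  else if v.Gt (y / x - s) 0 then ((v.w x : ℚ) : ℚ ⧸ AddSubgroup.zmultiples (2 * v.w b))
  else ((-(v.w x) : ℚ) : ℚ ⧸ AddSubgroup.zmultiples (2 * v.w b))

/-- The component class of a point. -/
noncomputable def cls (v : QVal K) (W : WeierstrassCurve K) (s : K) :
    W.toAffine.Point → ℚ ⧸ AddSubgroup.zmultiples (2 * v.w W.a₄)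
  | .zero => 0
  | .some x y _ => clsXY v W.a₄ s x y

end Fermat.Agent.S05
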