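import Fermat.Agent.S05.Defs

namespace Fermat.Agent.S05

variable {K : Type*} [Field K]

variable {v : QVal K} {a b s : K}

/-- T3 -/
theorem Triple.e0_closed (hN : Nodal v a b s) (T : Triple a b)
    (h₁ : T.x₁ ≠ 0) (h₁' : v.w T.x₁ ≤ 0) (h₂ : T.x₂ ≠ 0) (h₂' : v.w T.x₂ ≤ 0) :
    T.x₃ ≠ 0 ∧ v.w T.x₃ ≤ 0 := by
  have hbpos := hN.b_pos
  have hx3 : T.x₃ ≠ 0 := by
    intro h0
    have hn : T.n = 0 := by
      have h := T.e₃
      rw [h0, mul_zero] at h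
      exact (pow_eq_zero_iff two_ne_zero).mp h.symm
    have hb : T.x₁ * T.x₂ = b := by
      have h := T.e₂
      rw [h0, hn] at h
      linear_combination h
    have h := v.map_mul _ _ h₁ h₂
    rw [hb] at h
    linarith
  refine ⟨hx3, ?_⟩
  by_contra hpos
  rw [not_le] at hpos
  have X1 : v.IsVal T.x₁ (v.w T.x₁) := ⟨h₁, rfl⟩
  have X2 : v.IsVal T.x₂ (v.w T.x₂) := ⟨h₂, rfl⟩
  have X3 : v.IsVal T.x₃ (v.w T.x₃) := ⟨hx3, rfl⟩
  -- valuation of `n`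
  have hn2 : v.IsVal (T.n ^ 2) (v.w T.x₁ + v.w T.x₂ + v.w T.x₃) := by
    rw [← T.e₃]; exact (X1.mul X2).mul X3
  have hn := hn2.of_sq
  -- valuation of `e₂`
  have he2 : v.IsVal (T.x₁ * T.x₂ + T.x₁ * T.x₃ + T.x₂ * T.x₃) (v.w T.x₁ + v.w T.x₂) := by
    have h12 := X1.mul X2
    have h13 : v.Gt (T.x₁ * T.x₃) (v.w T.x₁ + v.w T.x₂) :=
      (X1.mul X3).gt_of_lt (by linarith)
    have h23 : v.Gt (T.x₂ * T.x₃) (v.w T.x₁ + v.w T.x₂) :=
      (X2.mul X3).gt_of_lt (by linarith)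
    exact (h12.add_gt h13).add_gt h23
  have hln : v.IsVal (2 * T.l * T.n) (v.w T.x₁ + v.w T.x₂) := by
    have h : 2 * T.l * T.n = b - (T.x₁ * T.x₂ + T.x₁ * T.x₃ + T.x₂ * T.x₃) := by
      rw [T.e₂]; ring
    rw [h]
    exact he2.gt_sub (hN.b_isVal.gt_of_lt (by linarith))
  -- valuation of `l`
  have hl0 : T.l ≠ 0 := fun h0 => hln.1 (by simp [h0])
  have hwl : v.w T.l = (v.w T.x₁ + v.w T.x₂ - v.w T.x₃) / 2 := by
    have h2l : v.IsVal (2 * T.l) (0 + v.w T.l) := hN.two.mul (QVal.isVal_self hl0)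
    have h := (h2l.mul hn).unique hln
    linarith
  have hl2 : v.IsVal (T.l ^ 2) (v.w T.x₁ + v.w T.x₂ - v.w T.x₃) := by
    have h := (QVal.isVal_self (v := v) hl0).pow 2
    rw [hwl] at h
    refine h.congr ?_
    push_cast; ring
  -- contradiction with `e₁`
  have he1 : T.l ^ 2 = a + T.x₁ + T.x₂ + T.x₃ := by linear_combination (-1 : K) * T.e₁
  rw [he1] at hl2
  have hgt : v.Gt (a + T.x₁ + T.x₂ + T.x₃) (v.w T.x₁ + v.w T.x₂ - v.w T.x₃) :=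
    (((hN.a_unit.gt_of_lt (by linarith)).add (X1.gt_of_lt (by linarith))).add
      (X2.gt_of_lt (by linarith))).add (X3.gt_of_lt (by linarith))
  exact hl2.not_gt hgt

end Fermat.Agent.S05
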