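import Fermat.Agent.S05.Defs

/-!
S05-T4 (owner: helper19): `Triple.e0_add_branch`.
-/

namespace Fermat.Agent.S05

namespace helper19

variable {K : Type*} [Field K] {v : QVal K} {a b s : K}

/-- two points with `w x ≤ 0` force the third one to have `w x ≤ 0` -/
theorem e0_closed_aux (hN : Nodal v a b s) (T : Triple a b)
    (h₁ : T.x₁ ≠ 0) (h₁' : v.w T.x₁ ≤ 0) (h₂ : T.x₂ ≠ 0) (h₂' : v.w T.x₂ ≤ 0) :
    T.x₃ ≠ 0 ∧ v.w T.x₃ ≤ 0 := by
  have hx₁ : v.IsVal T.x₁ (v.w T.x₁) := ⟨h₁, rfl⟩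
  have hx₂ : v.IsVal T.x₂ (v.w T.x₂) := ⟨h₂, rfl⟩
  have hbpos := hN.b_pos
  have h₃ : T.x₃ ≠ 0 := by
    intro h3
    have hn : T.n = 0 := by
      have h := T.e₃
      rw [h3, mul_zero] at h
      exact pow_eq_zero_iff (two_ne_zero) |>.mp h.symm
    have h := T.e₂
    rw [h3, hn] at h
    have hb : T.x₁ * T.x₂ = b := by linear_combination h
    have := (hx₁.mul hx₂).2
    rw [hb] at this
    linarith
  refine ⟨h₃, ?_⟩
  by_contra hcon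
  rw [not_le] at hcon
  have hx₃ : v.IsVal T.x₃ (v.w T.x₃) := ⟨h₃, rfl⟩
  set m₁ := v.w T.x₁ with hm₁
  set m₂ := v.w T.x₂ with hm₂
  set m₃ := v.w T.x₃ with hm₃
  -- e₂ has exact valuation m₁ + m₂
  have h12 : v.IsVal (T.x₁ * T.x₂) (m₁ + m₂) := hx₁.mul hx₂
  have h13 : v.Gt (T.x₁ * T.x₃) (m₁ + m₂) := (hx₁.mul hx₃).gt_of_lt (by linarith)
  have h23 : v.Gt (T.x₂ * T.x₃) (m₁ + m₂) := (hx₂.mul hx₃).gt_of_lt (by linarith)
  have he₂ : v.IsVal (b - 2 * T.l * T.n) (m₁ + m₂) := by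
    rw [← T.e₂]; exact (h12.add_gt h13).add_gt h23
  have hb : v.Gt b (m₁ + m₂) := Or.inr (by linarith)
  have h2ln : v.IsVal (2 * T.l * T.n) (m₁ + m₂) := by
    have := QVal.IsVal.gt_sub hb he₂
    have e : b - (b - 2 * T.l * T.n) = 2 * T.l * T.n := by ring
    rwa [e] at this
  have hl0 : T.l ≠ 0 := fun h => h2ln.1 (by simp [h])
  have hn0 : T.n ≠ 0 := fun h => h2ln.1 (by simp [h])
  have hl : v.IsVal T.l (v.w T.l) := ⟨hl0, rfl⟩
  have hn : v.IsVal T.n (v.w T.n) := ⟨hn0, rfl⟩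
  have hsum : v.w T.l + v.w T.n = m₁ + m₂ := by
    have := ((hN.two.mul hl).mul hn).unique h2ln
    linarith
  have hn2 : 2 * v.w T.n = m₁ + m₂ + m₃ := by
    have h1 : v.IsVal (T.n ^ 2) (2 * v.w T.n) := by simpa using hn.pow 2
    rw [← T.e₃] at h1
    have := h1.unique ((hx₁.mul hx₂).mul hx₃)
    linarith
  have hl2 : v.IsVal (T.l ^ 2) (m₁ + m₂ - m₃) := by
    have h1 : v.IsVal (T.l ^ 2) (2 * v.w T.l) := by simpa using hl.pow 2
    exact h1.congr (by linarith)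
  have ha : v.Gt a (m₁ + m₂ - m₃) := hN.a_unit.gt_of_lt (by linarith)
  have he₁ : v.IsVal (T.l ^ 2 - a) (m₁ + m₂ - m₃) := hl2.sub_gt ha
  rw [← T.e₁] at he₁
  have hge : v.Ge (T.x₁ + T.x₂ + T.x₃) (m₁ + m₂) :=
    ((hx₁.ge_of_le (by linarith)).add (hx₂.ge_of_le (by linarith))).add
      (hx₃.ge_of_le (by linarith))
  exact he₁.not_ge_of_lt (by linarith) hge

end helper19

variable {K : Type*} [Field K] {v : QVal K} {a b s : K}

/-- T4 -/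
theorem Triple.e0_add_branch (hN : Nodal v a b s) (T : Triple a b)
    (h₁ : T.x₁ ≠ 0) (h₁' : v.w T.x₁ ≤ 0)
    (h₂ : T.x₂ ≠ 0) (h₂pos : 0 < v.w T.x₂) (h₂lt : v.w T.x₂ < v.w b) :
    T.x₃ ≠ 0 ∧ v.w T.x₃ = v.w T.x₂ ∧ v.Gt (T.y₂ / T.x₂ + T.y₃ / T.x₃) 0 := by
  have hx₁ : v.IsVal T.x₁ (v.w T.x₁) := ⟨h₁, rfl⟩
  have hx₂ : v.IsVal T.x₂ (v.w T.x₂) := ⟨h₂, rfl⟩
  have hbv : v.IsVal b (v.w b) := hN.b_isVal
  -- x₃ ≠ 0
  have h₃ : T.x₃ ≠ 0 := by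
    intro h3
    have hn : T.n = 0 := by
      have h := T.e₃
      rw [h3, mul_zero] at h
      exact pow_eq_zero_iff (two_ne_zero) |>.mp h.symm
    have h := T.e₂
    rw [h3, hn] at h
    have hb : T.x₁ * T.x₂ = b := by linear_combination h
    have := (hx₁.mul hx₂).2
    rw [hb] at this
    linarith
  have hx₃ : v.IsVal T.x₃ (v.w T.x₃) := ⟨h₃, rfl⟩
  -- w x₃ > 0
  have h₃pos : 0 < v.w T.x₃ := by
    by_contra hcon
    rw [not_lt] at hcon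
    have := (helper19.e0_closed_aux hN T.swap₂₃ h₁ h₁' h₃ hcon).2
    have e : T.swap₂₃.x₃ = T.x₂ := rfl
    rw [e] at this
    linarith
  set m₁ := v.w T.x₁ with hm₁
  set m₂ := v.w T.x₂ with hm₂
  set m₃ := v.w T.x₃ with hm₃
  set β := v.w b with hβ
  -- n and l
  have hn0 : T.n ≠ 0 := by
    intro h
    have h3 := T.e₃
    rw [h, zero_pow two_ne_zero] at h3
    exact (mul_ne_zero (mul_ne_zero h₁ h₂) h₃) h3
  have hn : v.IsVal T.n (v.w T.n) := ⟨hn0, rfl⟩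
  have hn2 : 2 * v.w T.n = m₁ + m₂ + m₃ := by
    have h1 : v.IsVal (T.n ^ 2) (2 * v.w T.n) := by simpa using hn.pow 2
    rw [← T.e₃] at h1
    have := h1.unique ((hx₁.mul hx₂).mul hx₃)
    linarith
  have hlge : v.Ge T.l (m₁ / 2) := by
    apply QVal.Ge.of_sq
    have e : T.l ^ 2 = a + (T.x₁ + T.x₂ + T.x₃) := by rw [T.e₁]; ring
    rw [e]
    exact (hN.a_unit.ge_of_le h₁').add
      (((hx₁.ge_of_le le_rfl).add (hx₂.ge_of_le (by linarith))).add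
        (hx₃.ge_of_le (by linarith)))
  have h2ln : v.Ge (2 * T.l * T.n) (m₁ + (m₂ + m₃) / 2) := by
    have := (hN.two.ge.mul hlge).mul hn.ge
    exact this.mono (by linarith)
  -- w x₃ = w x₂
  have h₃eq : m₃ = m₂ := by
    by_contra hne
    have hμ : min m₂ m₃ < (m₂ + m₃) / 2 := by
      rcases lt_or_gt_of_ne hne with h | h
      · rw [min_eq_right h.le]; linarith
      · rw [min_eq_left h.le]; linarith
    have hμ₂ : min m₂ m₃ ≤ m₂ := min_le_left _ _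
    have hμ₃ : min m₂ m₃ ≤ m₃ := min_le_right _ _
    have hμpos : 0 < min m₂ m₃ := lt_min h₂pos h₃pos
    have h23 : v.IsVal (T.x₂ + T.x₃) (min m₂ m₃) := by
      rcases lt_or_gt_of_ne hne with h | h
      · rw [min_eq_right h.le, add_comm]; exact hx₃.add_gt (hx₂.gt_of_lt h)
      · rw [min_eq_left h.le]; exact hx₂.add_gt (hx₃.gt_of_lt h)
    have hlhs : v.IsVal (T.x₁ * (T.x₂ + T.x₃)) (m₁ + min m₂ m₃) := hx₁.mul h23
    have e : T.x₁ * (T.x₂ + T.x₃) = b - 2 * T.l * T.n - T.x₂ * T.x₃ := by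
      rw [← T.e₂]; ring
    rw [e] at hlhs
    have hb : v.Gt b (m₁ + min m₂ m₃) := hbv.gt_of_lt (by linarith)
    have h2 : v.Gt (2 * T.l * T.n) (m₁ + min m₂ m₃) := h2ln.gt_of_lt (by linarith)
    have h3 : v.Gt (T.x₂ * T.x₃) (m₁ + min m₂ m₃) := (hx₂.mul hx₃).gt_of_lt (by linarith)
    exact hlhs.not_gt ((hb.sub h2).sub h3)
  refine ⟨h₃, h₃eq, ?_⟩
  -- branch statement
  have hid : T.y₂ / T.x₂ + T.y₃ / T.x₃ = (b - T.x₂ * T.x₃) / T.n := by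
    have e2 : T.n ^ 2 / T.x₂ = T.x₁ * T.x₃ := by
      rw [← T.e₃]; field_simp
    have e3 : T.n ^ 2 / T.x₃ = T.x₁ * T.x₂ := by
      rw [← T.e₃]; field_simp
    rw [eq_div_iff hn0, T.line₂, T.line₃]
    have e4 : ((T.l * T.x₂ + T.n) / T.x₂ + (T.l * T.x₃ + T.n) / T.x₃) * T.n =
        2 * T.l * T.n + T.n ^ 2 / T.x₂ + T.n ^ 2 / T.x₃ := by
      field_simp
      ring
    rw [e4, e2, e3]
    linear_combination T.e₂
  rw [hid]
  by_cases hz : b - T.x₂ * T.x₃ = 0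
  · rw [hz, zero_div]; exact QVal.gt_zero'
  · have hnum : v.Gt (b - T.x₂ * T.x₃) m₂ :=
      (hbv.gt_of_lt h₂lt).sub ((hx₂.mul hx₃).gt_of_lt (by linarith))
    have hnumv : v.IsVal (b - T.x₂ * T.x₃) (v.w (b - T.x₂ * T.x₃)) := ⟨hz, rfl⟩
    have hlt := hnum.lt_w hz
    have := hnumv.div hn
    exact this.gt_of_lt (by linarith)

end Fermat.Agent.S05
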