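import Fermat.Agent.S05.Defs

/-! S05-T5 (`Triple.branch_same`): owner helper44. -/

namespace Fermat.Agent.S05

namespace helper44

variable {K : Type*} [Field K] {v : QVal K} {a b s : K}

lemma sum_gt (T : Triple a b) (h₁pos : 0 < v.w T.x₁) (h₂pos : 0 < v.w T.x₂)
    (h₃pos : 0 < v.w T.x₃) : v.Gt (T.x₁ + T.x₂ + T.x₃) 0 :=
  QVal.Gt.add (QVal.Gt.add (Or.inr h₁pos) (Or.inr h₂pos)) (Or.inr h₃pos)

lemma l_unit (hN : Nodal v a b s) (T : Triple a b)
    (hsum : v.Gt (T.x₁ + T.x₂ + T.x₃) 0) : v.IsVal T.l 0 := by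
  have hl2 : v.IsVal (T.l ^ 2) 0 := by
    have h : T.l ^ 2 = a + (T.x₁ + T.x₂ + T.x₃) := by rw [T.e₁]; ring
    rw [h]; exact hN.a_unit.add_gt hsum
  simpa using hl2.of_sq

lemma n_val (T : Triple a b) (h₁ : T.x₁ ≠ 0) (h₂ : T.x₂ ≠ 0) (h₃ : T.x₃ ≠ 0) :
    v.IsVal T.n ((v.w T.x₁ + v.w T.x₂ + v.w T.x₃) / 2) := by
  have h : v.IsVal (T.n ^ 2) (v.w T.x₁ + v.w T.x₂ + v.w T.x₃) := by
    rw [← T.e₃]
    exact ((QVal.isVal_self h₁).mul (QVal.isVal_self h₂)).mul (QVal.isVal_self h₃)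
  exact h.of_sq

lemma dich (hN : Nodal v a b s) (T : Triple a b)
    (hsum : v.Gt (T.x₁ + T.x₂ + T.x₃) 0) : v.Gt (T.l - s) 0 ∨ v.Gt (T.l + s) 0 := by
  by_cases h1 : T.l - s = 0
  · exact Or.inl (Or.inl h1)
  by_cases h2 : T.l + s = 0
  · exact Or.inr (Or.inl h2)
  have hprod : (T.l - s) * (T.l + s) = T.x₁ + T.x₂ + T.x₃ := by
    linear_combination -T.e₁ - hN.s_sq
  have hne : (T.l - s) * (T.l + s) ≠ 0 := mul_ne_zero h1 h2
  have hw : 0 < v.w ((T.l - s) * (T.l + s)) := by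
    rw [hprod] at hne ⊢; exact hsum.lt_w hne
  rw [v.map_mul _ _ h1 h2] at hw
  have hl := l_unit hN T hsum
  have hs := hN.s_unit
  rcases lt_or_ge 0 (v.w (T.l - s)) with h | h
  · exact Or.inl (Or.inr h)
  · refine Or.inr (Or.inr ?_)
    linarith

lemma w_eq_of_div_isVal {x y : K} (hx : x ≠ 0) (hy : y ≠ 0) (h : v.IsVal (x / y) 0) :
    v.w x = v.w y := by
  have h2 := h.2
  rw [QVal.w_div hx hy] at h2
  linarith

lemma two_s (hN : Nodal v a b s) : v.IsVal (2 * s) 0 := by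
  simpa using hN.two.mul hN.s_unit

end helper44

open helper44

variable {K : Type*} [Field K]

variable {v : QVal K} {a b s : K}

/-- T5 -/
theorem Triple.branch_same (hN : Nodal v a b s) (T : Triple a b)
    (h₁ : T.x₁ ≠ 0) (h₁pos : 0 < v.w T.x₁) (h₂ : T.x₂ ≠ 0) (h₂pos : 0 < v.w T.x₂)
    (h₃ : T.x₃ ≠ 0) (h₃pos : 0 < v.w T.x₃)
    (hb₁ : v.Gt (T.y₁ / T.x₁ - s) 0) (hb₂ : v.Gt (T.y₂ / T.x₂ - s) 0)
    (hb₃ : v.Gt (T.y₃ / T.x₃ - s) 0) :
    v.w T.x₁ + v.w T.x₂ + v.w T.x₃ = 2 * v.w b := by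
  have hsum := sum_gt T h₁pos h₂pos h₃pos
  have hl := l_unit hN T hsum
  have hn := n_val (v := v) T h₁ h₂ h₃
  have hn0 := hn.ne_zero
  rcases dich hN T hsum with hm | hp
  · -- `l ≡ s`: all `n / xᵢ` are small
    have g₁ : v.Gt (T.n / T.x₁) 0 := by
      have e : T.n / T.x₁ = (T.y₁ / T.x₁ - s) - (T.l - s) := by
        rw [T.line₁]; field_simp; ring
      rw [e]; exact hb₁.sub hm
    have g₂ : v.Gt (T.n / T.x₂) 0 := by
      have e : T.n / T.x₂ = (T.y₂ / T.x₂ - s) - (T.l - s) := by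
        rw [T.line₂]; field_simp; ring
      rw [e]; exact hb₂.sub hm
    have g₃ : v.Gt (T.n / T.x₃) 0 := by
      have e : T.n / T.x₃ = (T.y₃ / T.x₃ - s) - (T.l - s) := by
        rw [T.line₃]; field_simp; ring
      rw [e]; exact hb₃.sub hm
    have q₁ : T.n / T.x₁ * T.n = T.x₂ * T.x₃ := by
      field_simp; linear_combination -T.e₃
    have q₂ : T.n / T.x₂ * T.n = T.x₁ * T.x₃ := by
      field_simp; linear_combination -T.e₃
    have q₃ : T.n / T.x₃ * T.n = T.x₁ * T.x₂ := by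
      field_simp; linear_combination -T.e₃
    have key : b / T.n = 2 * T.l + (T.n / T.x₁ + T.n / T.x₂ + T.n / T.x₃) := by
      rw [div_eq_iff hn0]
      linear_combination -T.e₂ - q₁ - q₂ - q₃
    have h2l : v.IsVal (2 * T.l) 0 := by simpa using hN.two.mul hl
    have hbn : v.IsVal (b / T.n) 0 := by
      rw [key]; exact h2l.add_gt ((g₁.add g₂).add g₃)
    have hw := w_eq_of_div_isVal hN.b_ne hn0 hbn
    have := hn.2
    linarith
  · -- `l ≡ -s`: impossible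
    exfalso
    have u₁ : v.IsVal (T.n / T.x₁) 0 := by
      have e : T.n / T.x₁ = 2 * s + ((T.y₁ / T.x₁ - s) - (T.l + s)) := by
        rw [T.line₁]; field_simp; ring
      rw [e]; exact (two_s hN).add_gt (hb₁.sub hp)
    have u₂ : v.IsVal (T.n / T.x₂) 0 := by
      have e : T.n / T.x₂ = 2 * s + ((T.y₂ / T.x₂ - s) - (T.l + s)) := by
        rw [T.line₂]; field_simp; ring
      rw [e]; exact (two_s hN).add_gt (hb₂.sub hp)
    have u₃ : v.IsVal (T.n / T.x₃) 0 := by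
      have e : T.n / T.x₃ = 2 * s + ((T.y₃ / T.x₃ - s) - (T.l + s)) := by
        rw [T.line₃]; field_simp; ring
      rw [e]; exact (two_s hN).add_gt (hb₃.sub hp)
    have w₁ := w_eq_of_div_isVal hn0 h₁ u₁
    have w₂ := w_eq_of_div_isVal hn0 h₂ u₂
    have w₃ := w_eq_of_div_isVal hn0 h₃ u₃
    have := hn.2
    linarith

end Fermat.Agent.S05
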