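import Fermat.Agent.S05.Defs
import Fermat.Agent.S05.T5_helper44

/-! S05-T6 (`Triple.branch_mixed`): owner helper44. -/

namespace Fermat.Agent.S05

open helper44

variable {K : Type*} [Field K]

variable {v : QVal K} {a b s : K}

/-- T6 -/
theorem Triple.branch_mixed (hN : Nodal v a b s) (T : Triple a b)
    (h₁ : T.x₁ ≠ 0) (h₁pos : 0 < v.w T.x₁) (h₂ : T.x₂ ≠ 0) (h₂pos : 0 < v.w T.x₂)
    (h₃ : T.x₃ ≠ 0) (h₃pos : 0 < v.w T.x₃)
    (hb₁ : v.Gt (T.y₁ / T.x₁ - s) 0) (hb₂ : v.Gt (T.y₂ / T.x₂ - s) 0)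
    (hb₃ : v.Gt (T.y₃ / T.x₃ + s) 0) :
    v.w T.x₃ = v.w T.x₁ + v.w T.x₂ := by
  have hsum := sum_gt T h₁pos h₂pos h₃pos
  have hn := n_val (v := v) T h₁ h₂ h₃
  have hn0 := hn.ne_zero
  rcases dich hN T hsum with hm | hp
  · -- `l ≡ s`: `n / x₃` is a unit
    have u₃ : v.IsVal (T.n / T.x₃) 0 := by
      have e : T.n / T.x₃ = -(2 * s) + ((T.y₃ / T.x₃ + s) - (T.l - s)) := by
        rw [T.line₃]; field_simp; ring
      rw [e]; exact (two_s hN).neg.add_gt (hb₃.sub hm)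
    have w₃ := w_eq_of_div_isVal hn0 h₃ u₃
    have := hn.2
    linarith
  · -- `l ≡ -s`: impossible
    exfalso
    have u₁ : v.IsVal (T.n / T.x₁) 0 := by
      have e : T.n / T.x₁ = 2 * s + ((T.y₁ / T.x₁ - s) - (T.l + s)) := by
        rw [T.line₁]; field_simp; ring
      rw [e]; exact (two_s hN).add_gt (hb₁.sub hp)
    have u₂ : v.IsVal (T.n / T.x₂) 0 := by
      have e : T.n / T.x₂ = 2 * s + ((T.y₂ / T.x₂ - s) - (T.l + s)) := by
        rw [T.line₂]; field_simp; ring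
      rw [e]; exact (two_s hN).add_gt (hb₂.sub hp)
    have w₁ := w_eq_of_div_isVal hn0 h₁ u₁
    have w₂ := w_eq_of_div_isVal hn0 h₂ u₂
    have := hn.2
    linarith

end Fermat.Agent.S05
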