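import Fermat.Agent.S05.Basic
import Fermat.Agent.S05.A1_helper64
import Fermat.Agent.S05.T3_helper7
import Fermat.Agent.S05.T4_helper19
import Fermat.Agent.S05.T5_helper44
import Fermat.Agent.S05.T6_helper44

/-!
S05-EC (owner: helper64): the component class `cls` is additive.
-/

set_option autoImplicit false
set_option linter.unusedSectionVars false

namespace Fermat.Agent.S05

open WeierstrassCurve WeierstrassCurve.Affine

namespace helper64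

section Quot

variable (n : ℚ)

/-- the class map `ℚ → ℚ / 2nℤ` -/
abbrev qmk (n : ℚ) (m : ℚ) : ℚ ⧸ AddSubgroup.zmultiples (2 * n) := (m : ℚ ⧸ AddSubgroup.zmultiples (2 * n))

lemma qmk_add (m m' : ℚ) : qmk n (m + m') = qmk n m + qmk n m' := rfl

lemma qmk_neg (m : ℚ) : qmk n (-m) = -qmk n m := rfl

lemma qmk_zero : qmk n 0 = 0 := rfl

lemma qmk_two_mul : qmk n (2 * n) = 0 := by
  rw [qmk, QuotientAddGroup.eq_zero_iff]
  exact AddSubgroup.mem_zmultiples _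

lemma qmk_add_self : qmk n n + qmk n n = 0 := by
  rw [← qmk_add, ← two_mul, qmk_two_mul]

lemma qmk_neg_self : qmk n (-n) = qmk n n := by
  rw [qmk_neg, neg_eq_iff_add_eq_zero, qmk_add_self]

lemma qmk_eq_of_sub (m m' : ℚ) (k : ℤ) (h : m - m' = k * (2 * n)) : qmk n m = qmk n m' := by
  rw [qmk, qmk, QuotientAddGroup.eq]
  rw [AddSubgroup.mem_zmultiples_iff]
  refine ⟨-k, ?_⟩
  simp only [zsmul_eq_mul, Int.cast_neg]
  linarith

end Quot

variable {K : Type*} [Field K] {v : QVal K} {a b s : K}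

lemma nodal_neg (hN : Nodal v a b s) : Nodal v a b (-s) :=
  ⟨hN.two, hN.a_unit, hN.b_ne, hN.b_pos, by rw [neg_sq, hN.s_sq]⟩

/-- Branch dichotomy: a point near the node lies on exactly one of the two branches. -/
lemma branch_dichotomy (hN : Nodal v a b s) {x y : K}
    (hxy : y ^ 2 = x ^ 3 + a * x ^ 2 + b * x) (hx : x ≠ 0) (hpos : 0 < v.w x)
    (hlt : v.w x < v.w b) :
    (v.Gt (y / x - s) 0 ∧ v.IsVal (y / x + s) 0) ∨
      (v.Gt (y / x + s) 0 ∧ v.IsVal (y / x - s) 0) := by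
  have hxv : v.IsVal x (v.w x) := QVal.isVal_self hx
  have hbx : v.IsVal (b / x) (v.w b - v.w x) := hN.b_isVal.div hxv
  have ht2 : (y / x) ^ 2 = a + (x + b / x) := by
    field_simp
    linear_combination hxy
  have hsmall : v.Gt (x + b / x) 0 :=
    (hxv.gt_of_lt hpos).add (hbx.gt_of_lt (by linarith))
  have ht2v : v.IsVal ((y / x) ^ 2) 0 := by
    rw [ht2]; exact hN.a_unit.add_gt hsmall
  have htv : v.IsVal (y / x) 0 := by simpa using ht2v.of_sq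
  have hsv : v.IsVal s 0 := hN.s_unit
  have h2s : v.IsVal (2 * s) 0 := by simpa using hN.two.mul hsv
  have hprod : v.Gt ((y / x - s) * (y / x + s)) 0 := by
    have : (y / x - s) * (y / x + s) = x + b / x := by
      have hs := hN.s_sq
      linear_combination ht2 - hs
    rw [this]; exact hsmall
  rcases QVal.gt_or_isVal_le (v := v) (y / x - s) 0 with h | ⟨hne, hle⟩
  · left
    refine ⟨h, ?_⟩
    have : y / x + s = (y / x - s) + 2 * s := by ring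
    rw [this]; exact h2s.gt_add h
  · right
    have hge : v.Ge (y / x - s) 0 := htv.ge.sub hsv.ge
    have hval : v.IsVal (y / x - s) 0 := ⟨hne, le_antisymm hle (hge.le_w hne)⟩
    refine ⟨?_, hval⟩
    by_cases h0 : y / x + s = 0
    · exact Or.inl h0
    · refine Or.inr ?_
      have h1 := hprod.lt_w (mul_ne_zero hne h0)
      rw [v.map_mul _ _ hne h0, hval.2] at h1
      linarith

section clsXY

variable [DecidableEq K]

lemma clsXY_zero (y : K) : clsXY v b s 0 y = qmk (v.w b) (v.w b) := by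
  simp [clsXY, qmk]

lemma clsXY_E {x : K} (y : K) (hx : x ≠ 0) (h : v.w x ≤ 0) : clsXY v b s x y = 0 := by
  simp [clsXY, hx, h]

lemma clsXY_M {x : K} (y : K) (hb : 0 < v.w b) (hx : x ≠ 0) (h : v.w b ≤ v.w x) :
    clsXY v b s x y = qmk (v.w b) (v.w b) := by
  have h' : ¬ v.w x ≤ 0 := by linarith
  simp [clsXY, hx, h, h', qmk]

lemma clsXY_Bpos {x y : K} (hx : x ≠ 0) (h0 : 0 < v.w x) (h : v.w x < v.w b)
    (hbr : v.Gt (y / x - s) 0) : clsXY v b s x y = qmk (v.w b) (v.w x) := by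
  have h1 : ¬ v.w x ≤ 0 := by linarith
  have h2 : ¬ v.w b ≤ v.w x := by linarith
  simp [clsXY, hx, h1, h2, hbr, qmk]

lemma clsXY_Bneg {x y : K} (hx : x ≠ 0) (h0 : 0 < v.w x) (h : v.w x < v.w b)
    (hbr : ¬ v.Gt (y / x - s) 0) : clsXY v b s x y = qmk (v.w b) (-(v.w x)) := by
  have h1 : ¬ v.w x ≤ 0 := by linarith
  have h2 : ¬ v.w b ≤ v.w x := by linarith
  simp [clsXY, hx, h1, h2, hbr, qmk]

/-- class of a branch point in terms of the branch sign -/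
lemma clsXY_B_of_add (hN : Nodal v a b s) {x y : K}
    (hxy : y ^ 2 = x ^ 3 + a * x ^ 2 + b * x) (hx : x ≠ 0) (h0 : 0 < v.w x)
    (h : v.w x < v.w b) (hbr : v.Gt (y / x + s) 0) :
    clsXY v b s x y = qmk (v.w b) (-(v.w x)) := by
  apply clsXY_Bneg hx h0 h
  intro hcon
  rcases branch_dichotomy hN hxy hx h0 h with ⟨-, h2⟩ | ⟨-, h2⟩
  · exact h2.not_gt hbr
  · exact h2.not_gt hcon

/-- the class of `(x, -y)` is the negative of the class of `(x, y)` -/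
lemma clsXY_neg (hN : Nodal v a b s) {x y : K}
    (hxy : y ^ 2 = x ^ 3 + a * x ^ 2 + b * x) :
    clsXY v b s x (-y) = -clsXY v b s x y := by
  by_cases hx : x = 0
  · subst hx
    rw [clsXY_zero, clsXY_zero, eq_neg_iff_add_eq_zero, qmk_add_self]
  rcases le_or_gt (v.w x) 0 with hE | hpos
  · rw [clsXY_E _ hx hE, clsXY_E _ hx hE, neg_zero]
  rcases le_or_gt (v.w b) (v.w x) with hM | hlt
  · rw [clsXY_M _ hN.b_pos hx hM, clsXY_M _ hN.b_pos hx hM, eq_neg_iff_add_eq_zero, qmk_add_self]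
  have hxy' : (-y) ^ 2 = x ^ 3 + a * x ^ 2 + b * x := by rw [neg_sq]; exact hxy
  rcases branch_dichotomy hN hxy hx hpos hlt with ⟨h1, h2⟩ | ⟨h1, h2⟩
  · rw [clsXY_Bpos hx hpos hlt h1, ← qmk_neg]
    apply clsXY_B_of_add hN hxy' hx hpos hlt
    have : -y / x + s = -(y / x - s) := by ring
    rw [this]; exact h1.neg
  · rw [clsXY_B_of_add hN hxy hx hpos hlt h1, ← qmk_neg, neg_neg]
    apply clsXY_Bpos hx hpos hlt
    have : -y / x - s = -(y / x + s) := by ring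
    rw [this]; exact h1.neg

end clsXY

section cls

variable [DecidableEq K] {W : WeierstrassCurve K}

lemma cls_zero : cls v W s 0 = 0 := rfl

lemma cls_some {x y : K} (h : W.toAffine.Nonsingular x y) :
    cls v W s (Point.some x y h) = clsXY v W.a₄ s x y := rfl

lemma cls_neg (hW : LegCurve W) (hN : Nodal v W.a₂ W.a₄ s) (P : W.toAffine.Point) :
    cls v W s (-P) = -cls v W s P := by
  rcases P with _ | ⟨x, y, h⟩
  · change cls v W s (-0) = -cls v W s 0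
    rw [neg_zero, cls_zero, neg_zero]
  · rw [hW.neg_some, cls_some, cls_some]
    exact clsXY_neg hN (hW.eqn h)

end cls

section T0

variable [DecidableEq K] {W : WeierstrassCurve K}

/-- the 2-torsion point `(0,0)` -/
noncomputable def T0 (hW : LegCurve W) (hb : W.a₄ ≠ 0) : W.toAffine.Point :=
  Point.some 0 0 (hW.nonsingular_origin hb)

lemma T0_add_T0 (hW : LegCurve W) (hb : W.a₄ ≠ 0) : T0 hW hb + T0 hW hb = 0 := by
  unfold T0
  apply Point.add_of_Y_eq rfl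
  rw [hW.negY_eq, neg_zero]

lemma add_T0 (hW : LegCurve W) (hb : W.a₄ ≠ 0) {x y : K} (h : W.toAffine.Nonsingular x y)
    (hx : x ≠ 0) :
    ∃ h' : W.toAffine.Nonsingular (W.a₄ / x) (-(y * W.a₄ / x ^ 2)),
      Point.some x y h + T0 hW hb = Point.some (W.a₄ / x) (-(y * W.a₄ / x ^ 2)) h' := by
  have hxy : ¬(x = 0 ∧ y = W.toAffine.negY 0 0) := fun h' => hx h'.1
  have hns := nonsingular_add h (hW.nonsingular_origin hb) hxy
  have hL : W.toAffine.slope x 0 y 0 = y / x := by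
    rw [slope_of_X_ne hx, sub_zero, sub_zero]
  have heq := hW.eqn h
  have hX : W.toAffine.addX x 0 (W.toAffine.slope x 0 y 0) = W.a₄ / x := by
    rw [hL]
    simp only [addX, hW.a₁]
    field_simp
    linear_combination heq
  have hY : W.toAffine.addY x 0 y (W.toAffine.slope x 0 y 0) = -(y * W.a₄ / x ^ 2) := by
    rw [addY, hW.negY_eq, negAddY, hX, hL]
    field_simp
    ring
  rw [hX, hY] at hns
  refine ⟨hns, ?_⟩
  unfold T0
  rw [Point.add_some hxy]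
  exact some_congr hX hY

lemma cls_T0 (hW : LegCurve W) (hb : W.a₄ ≠ 0) :
    cls v W s (T0 hW hb) = qmk (v.w W.a₄) (v.w W.a₄) := by
  unfold T0
  rw [cls_some, clsXY_zero]

/-- translation by `T0` shifts the class by `[w b]` -/
lemma cls_add_T0 (hW : LegCurve W) (hN : Nodal v W.a₂ W.a₄ s) (P : W.toAffine.Point) :
    cls v W s (P + T0 hW hN.b_ne) = cls v W s P + qmk (v.w W.a₄) (v.w W.a₄) := by
  have hb := hN.b_ne
  rcases P with _ | ⟨x, y, h⟩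
  · change cls v W s (0 + T0 hW hb) = cls v W s 0 + _
    rw [zero_add, cls_zero, zero_add, cls_T0]
  by_cases hx : x = 0
  · subst hx
    have hy : y = 0 := by
      have := hW.eqn h
      simpa using this
    subst hy
    change cls v W s (T0 hW hb + T0 hW hb) = cls v W s (T0 hW hb) + _
    rw [T0_add_T0, cls_zero, cls_T0, qmk_add_self]
  obtain ⟨h', hadd⟩ := add_T0 hW hb h hx
  rw [hadd, cls_some, cls_some]
  have hxv : v.IsVal x (v.w x) := QVal.isVal_self hx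
  have hbx : v.IsVal (W.a₄ / x) (v.w W.a₄ - v.w x) := hN.b_isVal.div hxv
  have hx' : W.a₄ / x ≠ 0 := hbx.1
  have hwx' : v.w (W.a₄ / x) = v.w W.a₄ - v.w x := hbx.2
  rcases le_or_gt (v.w x) 0 with hE | hpos
  · -- `E ↦ M`
    rw [clsXY_E _ hx hE, zero_add, clsXY_M _ hN.b_pos hx' (by rw [hwx']; linarith)]
  rcases le_or_gt (v.w W.a₄) (v.w x) with hM | hlt
  · -- `M ↦ E`
    rw [clsXY_M _ hN.b_pos hx hM, clsXY_E _ hx' (by rw [hwx']; linarith), qmk_add_self]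
  -- `B ↦ B`, opposite branch
  have hpos' : 0 < v.w (W.a₄ / x) := by rw [hwx']; linarith
  have hlt' : v.w (W.a₄ / x) < v.w W.a₄ := by rw [hwx']; linarith
  have hratio : -(y * W.a₄ / x ^ 2) / (W.a₄ / x) = -(y / x) := by
    field_simp
  have heq := hW.eqn h
  have heq' := hW.eqn h'
  rcases branch_dichotomy hN heq hx hpos hlt with ⟨h1, h2⟩ | ⟨h1, h2⟩
  · rw [clsXY_Bpos hx hpos hlt h1]
    have hbr : ¬ v.Gt (-(y * W.a₄ / x ^ 2) / (W.a₄ / x) - s) 0 := by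
      rw [hratio]
      have : -(y / x) - s = -(y / x + s) := by ring
      rw [this]
      exact fun hcon => h2.neg.not_gt hcon
    rw [clsXY_Bneg hx' hpos' hlt' hbr, hwx', ← qmk_add]
    exact qmk_eq_of_sub _ _ _ (-1) (by push_cast; ring)
  · rw [clsXY_B_of_add hN heq hx hpos hlt h1]
    have hbr : v.Gt (-(y * W.a₄ / x ^ 2) / (W.a₄ / x) - s) 0 := by
      rw [hratio]
      have : -(y / x) - s = -(y / x + s) := by ring
      rw [this]
      exact h1.neg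
    rw [clsXY_Bpos hx' hpos' hlt' hbr, hwx', ← qmk_add]
    exact qmk_eq_of_sub _ _ _ 0 (by push_cast; ring)

end T0

section TripleCls

variable [DecidableEq K]

lemma qmk_sum3 (n m₁ m₂ m₃ : ℚ) (k : ℤ) (h : m₁ + m₂ + m₃ = k * (2 * n)) :
    qmk n m₁ + qmk n m₂ + qmk n m₃ = 0 := by
  rw [← qmk_add, ← qmk_add, ← qmk_zero n]
  exact qmk_eq_of_sub _ _ _ k (by rw [sub_zero]; exact h)

lemma qmk_sum2 (n m₁ m₂ : ℚ) (h : m₁ + m₂ = 0) : qmk n m₁ + qmk n m₂ = 0 := by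
  rw [← qmk_add, h, qmk_zero]

/-- two points near the node with the same valuation on opposite branches have opposite
classes -/
lemma cls_opp (hN : Nodal v a b s) {x₂ y₂ x₃ y₃ : K}
    (eq₂ : y₂ ^ 2 = x₂ ^ 3 + a * x₂ ^ 2 + b * x₂) (eq₃ : y₃ ^ 2 = x₃ ^ 3 + a * x₃ ^ 2 + b * x₃)
    (hx₂ : x₂ ≠ 0) (hx₃ : x₃ ≠ 0) (hpos : 0 < v.w x₂) (hlt : v.w x₂ < v.w b)
    (hw : v.w x₃ = v.w x₂) (hsum : v.Gt (y₂ / x₂ + y₃ / x₃) 0) :
    clsXY v b s x₂ y₂ + clsXY v b s x₃ y₃ = 0 := by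
  have hpos' : 0 < v.w x₃ := by rw [hw]; exact hpos
  have hlt' : v.w x₃ < v.w b := by rw [hw]; exact hlt
  rcases branch_dichotomy hN eq₂ hx₂ hpos hlt with ⟨h1, -⟩ | ⟨h1, -⟩
  · have h3 : v.Gt (y₃ / x₃ + s) 0 := by
      have : y₃ / x₃ + s = (y₂ / x₂ + y₃ / x₃) - (y₂ / x₂ - s) := by ring
      rw [this]; exact hsum.sub h1
    rw [clsXY_Bpos hx₂ hpos hlt h1, clsXY_B_of_add hN eq₃ hx₃ hpos' hlt' h3]
    exact qmk_sum2 _ _ _ (by rw [hw]; ring)
  · have h3 : v.Gt (y₃ / x₃ - s) 0 := by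
      have : y₃ / x₃ - s = (y₂ / x₂ + y₃ / x₃) - (y₂ / x₂ + s) := by ring
      rw [this]; exact hsum.sub h1
    rw [clsXY_B_of_add hN eq₂ hx₂ hpos hlt h1, clsXY_Bpos hx₃ hpos' hlt' h3]
    exact qmk_sum2 _ _ _ (by rw [hw]; ring)

/-- all three points near the node -/
lemma triple_cls_BBB (hN : Nodal v a b s) (T : Triple a b)
    (h₁ : T.x₁ ≠ 0) (p₁ : 0 < v.w T.x₁) (l₁ : v.w T.x₁ < v.w b)
    (h₂ : T.x₂ ≠ 0) (p₂ : 0 < v.w T.x₂) (l₂ : v.w T.x₂ < v.w b)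
    (h₃ : T.x₃ ≠ 0) (p₃ : 0 < v.w T.x₃) (l₃ : v.w T.x₃ < v.w b) :
    clsXY v b s T.x₁ T.y₁ + clsXY v b s T.x₂ T.y₂ + clsXY v b s T.x₃ T.y₃ = 0 := by
  have hN' := nodal_neg hN
  have e₁ := T.eq₁
  have e₂ := T.eq₂
  have e₃ := T.eq₃
  have toNeg : ∀ {x y : K}, v.Gt (y / x + s) 0 → v.Gt (y / x - -s) 0 := by
    intro x y h; rwa [sub_neg_eq_add]
  have toNeg' : ∀ {x y : K}, v.Gt (y / x - s) 0 → v.Gt (y / x + -s) 0 := by
    intro x y h; rwa [← sub_eq_add_neg]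
  rcases branch_dichotomy hN e₁ h₁ p₁ l₁ with ⟨b₁, -⟩ | ⟨b₁, -⟩ <;>
  rcases branch_dichotomy hN e₂ h₂ p₂ l₂ with ⟨b₂, -⟩ | ⟨b₂, -⟩ <;>
  rcases branch_dichotomy hN e₃ h₃ p₃ l₃ with ⟨b₃, -⟩ | ⟨b₃, -⟩
  · -- + + +
    have key := Triple.branch_same hN T h₁ p₁ h₂ p₂ h₃ p₃ b₁ b₂ b₃
    rw [clsXY_Bpos h₁ p₁ l₁ b₁, clsXY_Bpos h₂ p₂ l₂ b₂, clsXY_Bpos h₃ p₃ l₃ b₃]
    exact qmk_sum3 _ _ _ _ 1 (by rw [key]; push_cast; ring)
  · -- + + -
    have key := Triple.branch_mixed hN T h₁ p₁ h₂ p₂ h₃ p₃ b₁ b₂ b₃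
    rw [clsXY_Bpos h₁ p₁ l₁ b₁, clsXY_Bpos h₂ p₂ l₂ b₂, clsXY_B_of_add hN e₃ h₃ p₃ l₃ b₃]
    exact qmk_sum3 _ _ _ _ 0 (by rw [key]; push_cast; ring)
  · -- + - +
    have key := Triple.branch_mixed hN T.swap₂₃ h₁ p₁ h₃ p₃ h₂ p₂ b₁ b₃ b₂
    change v.w T.x₂ = v.w T.x₁ + v.w T.x₃ at key
    rw [clsXY_Bpos h₁ p₁ l₁ b₁, clsXY_B_of_add hN e₂ h₂ p₂ l₂ b₂, clsXY_Bpos h₃ p₃ l₃ b₃]
    exact qmk_sum3 _ _ _ _ 0 (by rw [key]; push_cast; ring)
  · -- + - -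
    have key := Triple.branch_mixed hN' T.swap₁₃ h₃ p₃ h₂ p₂ h₁ p₁ (toNeg b₃) (toNeg b₂)
      (toNeg' b₁)
    change v.w T.x₁ = v.w T.x₃ + v.w T.x₂ at key
    rw [clsXY_Bpos h₁ p₁ l₁ b₁, clsXY_B_of_add hN e₂ h₂ p₂ l₂ b₂,
      clsXY_B_of_add hN e₃ h₃ p₃ l₃ b₃]
    exact qmk_sum3 _ _ _ _ 0 (by rw [key]; push_cast; ring)
  · -- - + +
    have key := Triple.branch_mixed hN T.swap₁₃ h₃ p₃ h₂ p₂ h₁ p₁ b₃ b₂ b₁
    change v.w T.x₁ = v.w T.x₃ + v.w T.x₂ at key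
    rw [clsXY_B_of_add hN e₁ h₁ p₁ l₁ b₁, clsXY_Bpos h₂ p₂ l₂ b₂, clsXY_Bpos h₃ p₃ l₃ b₃]
    exact qmk_sum3 _ _ _ _ 0 (by rw [key]; push_cast; ring)
  · -- - + -
    have key := Triple.branch_mixed hN' T.swap₂₃ h₁ p₁ h₃ p₃ h₂ p₂ (toNeg b₁) (toNeg b₃)
      (toNeg' b₂)
    change v.w T.x₂ = v.w T.x₁ + v.w T.x₃ at key
    rw [clsXY_B_of_add hN e₁ h₁ p₁ l₁ b₁, clsXY_Bpos h₂ p₂ l₂ b₂,
      clsXY_B_of_add hN e₃ h₃ p₃ l₃ b₃]
    exact qmk_sum3 _ _ _ _ 0 (by rw [key]; push_cast; ring)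
  · -- - - +
    have key := Triple.branch_mixed hN' T h₁ p₁ h₂ p₂ h₃ p₃ (toNeg b₁) (toNeg b₂) (toNeg' b₃)
    rw [clsXY_B_of_add hN e₁ h₁ p₁ l₁ b₁, clsXY_B_of_add hN e₂ h₂ p₂ l₂ b₂,
      clsXY_Bpos h₃ p₃ l₃ b₃]
    exact qmk_sum3 _ _ _ _ 0 (by rw [key]; push_cast; ring)
  · -- - - -
    have key := Triple.branch_same hN' T h₁ p₁ h₂ p₂ h₃ p₃ (toNeg b₁) (toNeg b₂) (toNeg b₃)
    rw [clsXY_B_of_add hN e₁ h₁ p₁ l₁ b₁, clsXY_B_of_add hN e₂ h₂ p₂ l₂ b₂,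
      clsXY_B_of_add hN e₃ h₃ p₃ l₃ b₃]
    exact qmk_sum3 _ _ _ _ (-1) (by push_cast; linarith)

/-- The classes of three collinear points, none of which is of middle type, add up to `0`. -/
lemma triple_cls (hN : Nodal v a b s) (T : Triple a b)
    (h₁ : T.x₁ ≠ 0) (l₁ : v.w T.x₁ < v.w b)
    (h₂ : T.x₂ ≠ 0) (l₂ : v.w T.x₂ < v.w b)
    (h₃ : T.x₃ ≠ 0) (l₃ : v.w T.x₃ < v.w b) :
    clsXY v b s T.x₁ T.y₁ + clsXY v b s T.x₂ T.y₂ + clsXY v b s T.x₃ T.y₃ = 0 := by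
  have e₁ := T.eq₁
  have e₂ := T.eq₂
  have e₃ := T.eq₃
  rcases le_or_gt (v.w T.x₁) 0 with E₁ | p₁ <;>
  rcases le_or_gt (v.w T.x₂) 0 with E₂ | p₂ <;>
  rcases le_or_gt (v.w T.x₃) 0 with E₃ | p₃
  · -- E E E
    rw [clsXY_E _ h₁ E₁, clsXY_E _ h₂ E₂, clsXY_E _ h₃ E₃]; simp
  · -- E E B : impossible
    have := (Triple.e0_closed hN T h₁ E₁ h₂ E₂).2
    linarith
  · -- E B E : impossible
    have := (Triple.e0_closed hN T.swap₂₃ h₁ E₁ h₃ E₃).2
    change v.w T.x₂ ≤ 0 at this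
    linarith
  · -- E B B
    obtain ⟨-, hw, hsum⟩ := Triple.e0_add_branch hN T h₁ E₁ h₂ p₂ l₂
    rw [clsXY_E _ h₁ E₁, zero_add]
    exact cls_opp hN e₂ e₃ h₂ h₃ p₂ l₂ hw hsum
  · -- B E E : impossible
    have := (Triple.e0_closed hN T.swap₁₃ h₃ E₃ h₂ E₂).2
    change v.w T.x₁ ≤ 0 at this
    linarith
  · -- B E B
    obtain ⟨-, hw, hsum⟩ := Triple.e0_add_branch hN T.swap₁₂ h₂ E₂ h₁ p₁ l₁
    change v.w T.x₃ = v.w T.x₁ at hw
    change v.Gt (T.y₁ / T.x₁ + T.y₃ / T.x₃) 0 at hsum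
    rw [clsXY_E _ h₂ E₂, add_zero]
    exact cls_opp hN e₁ e₃ h₁ h₃ p₁ l₁ hw hsum
  · -- B B E
    obtain ⟨-, hw, hsum⟩ := Triple.e0_add_branch hN T.swap₁₃ h₃ E₃ h₂ p₂ l₂
    change v.w T.x₁ = v.w T.x₂ at hw
    change v.Gt (T.y₂ / T.x₂ + T.y₁ / T.x₁) 0 at hsum
    rw [clsXY_E _ h₃ E₃, add_zero, add_comm]
    exact cls_opp hN e₂ e₁ h₂ h₁ p₂ l₂ hw hsum
  · exact triple_cls_BBB hN T h₁ p₁ l₁ h₂ p₂ l₂ h₃ p₃ l₃

end TripleCls

section Points

variable [DecidableEq K] {W : WeierstrassCurve K}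

/-- not of middle type: zero, or an affine point with `x ≠ 0` and `w x < w b` -/
def NonM (v : QVal K) (W : WeierstrassCurve K) (P : W.toAffine.Point) : Prop :=
  P = 0 ∨ ∃ (x y : K) (h : W.toAffine.Nonsingular x y),
    P = Point.some x y h ∧ x ≠ 0 ∧ v.w x < v.w W.a₄

/-- zero, or an affine point with `x ≠ 0` and `w x ≤ 0` -/
def IsEZ (v : QVal K) (W : WeierstrassCurve K) (P : W.toAffine.Point) : Prop :=
  P = 0 ∨ ∃ (x y : K) (h : W.toAffine.Nonsingular x y),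
    P = Point.some x y h ∧ x ≠ 0 ∧ v.w x ≤ 0

lemma IsEZ.nonM (hN : Nodal v W.a₂ W.a₄ s) {P : W.toAffine.Point} (h : IsEZ v W P) :
    NonM v W P := by
  rcases h with h | ⟨x, y, h, rfl, hx, hw⟩
  · exact Or.inl h
  · exact Or.inr ⟨x, y, h, rfl, hx, lt_of_le_of_lt hw hN.b_pos⟩

/-- additivity for good pairs -/
lemma good_add (hW : LegCurve W) (hN : Nodal v W.a₂ W.a₄ s) {P Q : W.toAffine.Point}
    (hP : NonM v W P) (hQ : NonM v W Q) (hPQ : NonM v W (P + Q)) :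
    cls v W s (P + Q) = cls v W s P + cls v W s Q := by
  rcases hP with rfl | ⟨x₁, y₁, h₁, rfl, hx₁, l₁⟩
  · rw [zero_add, cls_zero, zero_add]
  rcases hQ with rfl | ⟨x₂, y₂, h₂, rfl, hx₂, l₂⟩
  · rw [add_zero, cls_zero, add_zero]
  rcases hPQ with h0 | ⟨x₃, y₃, h₃, hsum, hx₃, l₃⟩
  · have hQ : Point.some x₂ y₂ h₂ = -Point.some x₁ y₁ h₁ := eq_neg_of_add_eq_zero_right h0
    rw [h0, hQ, cls_neg hW hN, cls_zero, add_neg_cancel]
  · have hR : Point.some x₁ y₁ h₁ + Point.some x₂ y₂ h₂ +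
        Point.some x₃ (-y₃) (hW.nonsingular_neg' h₃) = 0 := by
      rw [hsum, ← hW.neg_some h₃, add_neg_cancel]
    obtain ⟨T, t1, t2, t3, t4, t5, t6⟩ :=
      exists_triple hW.a₁ hW.a₃ hW.a₆ h₁ h₂ (hW.nonsingular_neg' h₃) hR
    have key := triple_cls hN T (by rw [t1]; exact hx₁) (by rw [t1]; exact l₁)
      (by rw [t3]; exact hx₂) (by rw [t3]; exact l₂) (by rw [t5]; exact hx₃)
      (by rw [t5]; exact l₃)
    rw [t1, t2, t3, t4, t5, t6, clsXY_neg hN (hW.eqn h₃)] at key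
    rw [hsum, cls_some, cls_some, cls_some]
    rw [← sub_eq_add_neg, sub_eq_zero] at key
    exact key.symm

lemma nonM_add_T0_of_not_nonM (hW : LegCurve W) (hN : Nodal v W.a₂ W.a₄ s)
    {P : W.toAffine.Point} (hP : ¬ NonM v W P) : NonM v W (P + T0 hW hN.b_ne) := by
  rcases P with _ | ⟨x, y, h⟩
  · exact absurd (Or.inl rfl) hP
  by_cases hx : x = 0
  · subst hx
    have hy : y = 0 := by
      have := hW.eqn h
      simpa using this
    subst hy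
    left
    exact T0_add_T0 hW hN.b_ne
  · obtain ⟨h', hadd⟩ := add_T0 hW hN.b_ne h hx
    have hw : ¬ v.w x < v.w W.a₄ := fun hlt => hP (Or.inr ⟨x, y, h, rfl, hx, hlt⟩)
    have hbx : v.IsVal (W.a₄ / x) (v.w W.a₄ - v.w x) := hN.b_isVal.div (QVal.isVal_self hx)
    right
    refine ⟨_, _, h', hadd, hbx.1, ?_⟩
    rw [hbx.2]
    have := hN.b_pos
    linarith

lemma isEZ_of_nonM_of_not_nonM_add_T0 (hW : LegCurve W) (hN : Nodal v W.a₂ W.a₄ s)
    {P : W.toAffine.Point} (hP : NonM v W P) (hP' : ¬ NonM v W (P + T0 hW hN.b_ne)) :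
    IsEZ v W P := by
  rcases hP with rfl | ⟨x, y, h, rfl, hx, hlt⟩
  · exact Or.inl rfl
  · obtain ⟨h', hadd⟩ := add_T0 hW hN.b_ne h hx
    have hbx : v.IsVal (W.a₄ / x) (v.w W.a₄ - v.w x) := hN.b_isVal.div (QVal.isVal_self hx)
    right
    refine ⟨x, y, h, rfl, hx, ?_⟩
    by_contra hcon
    rw [not_le] at hcon
    apply hP'
    right
    refine ⟨_, _, h', hadd, hbx.1, ?_⟩
    rw [hbx.2]
    linarith

lemma isEZ_add (hW : LegCurve W) (hN : Nodal v W.a₂ W.a₄ s) {P Q : W.toAffine.Point}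
    (hP : IsEZ v W P) (hQ : IsEZ v W Q) : IsEZ v W (P + Q) := by
  rcases hP with rfl | ⟨x₁, y₁, h₁, rfl, hx₁, l₁⟩
  · rw [zero_add]; exact hQ
  rcases hQ with rfl | ⟨x₂, y₂, h₂, rfl, hx₂, l₂⟩
  · rw [add_zero]; exact Or.inr ⟨x₁, y₁, h₁, rfl, hx₁, l₁⟩
  rcases hsum : Point.some x₁ y₁ h₁ + Point.some x₂ y₂ h₂ with _ | ⟨x₃, y₃, h₃⟩
  · exact Or.inl rfl
  · have hR : Point.some x₁ y₁ h₁ + Point.some x₂ y₂ h₂ +
        Point.some x₃ (-y₃) (hW.nonsingular_neg' h₃) = 0 := by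
      rw [hsum, ← hW.neg_some h₃, add_neg_cancel]
    obtain ⟨T, t1, t2, t3, t4, t5, t6⟩ :=
      exists_triple hW.a₁ hW.a₃ hW.a₆ h₁ h₂ (hW.nonsingular_neg' h₃) hR
    have key := Triple.e0_closed hN T (by rw [t1]; exact hx₁) (by rw [t1]; exact l₁)
      (by rw [t3]; exact hx₂) (by rw [t3]; exact l₂)
    rw [t5] at key
    exact Or.inr ⟨x₃, y₃, h₃, rfl, key.1, key.2⟩

/-- additivity when both points are not of middle type -/
lemma cls_add_of_nonM (hW : LegCurve W) (hN : Nodal v W.a₂ W.a₄ s) {P Q : W.toAffine.Point}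
    (hP : NonM v W P) (hQ : NonM v W Q) :
    cls v W s (P + Q) = cls v W s P + cls v W s Q := by
  by_cases hPQ : NonM v W (P + Q)
  · exact good_add hW hN hP hQ hPQ
  have hPQt := nonM_add_T0_of_not_nonM hW hN hPQ
  have hg := qmk_add_self (v.w W.a₄)
  by_cases hP' : NonM v W (P + T0 hW hN.b_ne)
  · have h1 := good_add hW hN hP' hQ (by rwa [add_right_comm])
    rw [add_right_comm, cls_add_T0 hW hN, cls_add_T0 hW hN] at h1
    have h2 : cls v W s (P + Q) + qmk (v.w W.a₄) (v.w W.a₄) =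
        (cls v W s P + cls v W s Q) + qmk (v.w W.a₄) (v.w W.a₄) := by rw [h1]; abel
    exact add_right_cancel h2
  have hPE := isEZ_of_nonM_of_not_nonM_add_T0 hW hN hP hP'
  by_cases hQ' : NonM v W (Q + T0 hW hN.b_ne)
  · have h1 := good_add hW hN hP hQ' (by rwa [← add_assoc])
    rw [← add_assoc, cls_add_T0 hW hN, cls_add_T0 hW hN] at h1
    have h2 : cls v W s (P + Q) + qmk (v.w W.a₄) (v.w W.a₄) =
        (cls v W s P + cls v W s Q) + qmk (v.w W.a₄) (v.w W.a₄) := by rw [h1]; abel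
    exact add_right_cancel h2
  have hQE := isEZ_of_nonM_of_not_nonM_add_T0 hW hN hQ hQ'
  exact absurd ((isEZ_add hW hN hPE hQE).nonM hN) hPQ

end Points

end helper64

section Main

variable {K : Type*} [Field K] [DecidableEq K] {v : QVal K} {W : WeierstrassCurve K} {s : K}

open helper64 in
/-- EC: the component class is additive -/
theorem cls_add (hW : LegCurve W) (hN : Nodal v W.a₂ W.a₄ s) (P Q : W.toAffine.Point) :
    cls v W s (P + Q) = cls v W s P + cls v W s Q := by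
  have hg := qmk_add_self (v.w W.a₄)
  have ht := T0_add_T0 hW hN.b_ne
  by_cases hP : NonM v W P <;> by_cases hQ : NonM v W Q
  · exact cls_add_of_nonM hW hN hP hQ
  · have hQ' := nonM_add_T0_of_not_nonM hW hN hQ
    have h1 := cls_add_of_nonM hW hN hP hQ'
    rw [← add_assoc, cls_add_T0 hW hN, cls_add_T0 hW hN, ← add_assoc] at h1
    exact add_right_cancel h1
  · have hP' := nonM_add_T0_of_not_nonM hW hN hP
    have h1 := cls_add_of_nonM hW hN hP' hQ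
    rw [add_right_comm, cls_add_T0 hW hN, cls_add_T0 hW hN, add_right_comm] at h1
    exact add_right_cancel h1
  · have hP' := nonM_add_T0_of_not_nonM hW hN hP
    have hQ' := nonM_add_T0_of_not_nonM hW hN hQ
    have h1 := cls_add_of_nonM hW hN hP' hQ'
    have h2 : P + T0 hW hN.b_ne + (Q + T0 hW hN.b_ne) = P + Q := by
      rw [add_add_add_comm, ht, add_zero]
    rw [h2, cls_add_T0 hW hN, cls_add_T0 hW hN] at h1
    rw [h1, add_add_add_comm, hg, add_zero]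

end Main

end Fermat.Agent.S05
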