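import Mathlib

/-!
Interface file for S05 (owner: helper3).  Elementary valuation toolkit used by all S05 modules.

* `QVal K` : a rational-valued additive valuation on a field (the value at `0` is junk).
* `v.IsVal x c` : `x ≠ 0` and `w x = c`.
* `v.Ge x c`    : `x = 0` or `c ≤ w x`   (holds for `0`).
* `v.Gt x c`    : `x = 0` or `c < w x`   (holds for `0`).
* `Triple a b`  : three collinear points of `Y^2 = X^3 + a X^2 + b X` (with multiplicity),
  recorded through the elementary symmetric identities.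
-/

namespace Fermat.Agent.S05

/-- A rational-valued additive valuation on a field; the value at `0` is junk. -/
structure QVal (K : Type*) [Field K] where
  w : K → ℚ
  map_one : w 1 = 0
  map_mul : ∀ x y : K, x ≠ 0 → y ≠ 0 → w (x * y) = w x + w y
  map_add : ∀ x y : K, x ≠ 0 → y ≠ 0 → x + y ≠ 0 → min (w x) (w y) ≤ w (x + y)

namespace QVal

variable {K : Type*} [Field K] (v : QVal K)

/-- `x ≠ 0` and `w x = c`. -/
def IsVal (x : K) (c : ℚ) : Prop := x ≠ 0 ∧ v.w x = c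
/-- `x = 0` or `c ≤ w x`. -/
def Ge (x : K) (c : ℚ) : Prop := x = 0 ∨ c ≤ v.w x
/-- `x = 0` or `c < w x`. -/
def Gt (x : K) (c : ℚ) : Prop := x = 0 ∨ c < v.w x

variable {v} {x y z : K} {c d : ℚ}

lemma isVal_self (hx : x ≠ 0) : v.IsVal x (v.w x) := ⟨hx, rfl⟩
lemma IsVal.ne_zero (h : v.IsVal x c) : x ≠ 0 := h.1
lemma IsVal.w_eq (h : v.IsVal x c) : v.w x = c := h.2
lemma IsVal.ge (h : v.IsVal x c) : v.Ge x c := Or.inr h.2.ge
lemma IsVal.ge_of_le (h : v.IsVal x c) (hd : d ≤ c) : v.Ge x d := Or.inr (hd.trans h.2.ge)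
lemma IsVal.gt_of_lt (h : v.IsVal x c) (hd : d < c) : v.Gt x d := Or.inr (hd.trans_le h.2.ge)
lemma IsVal.unique (h : v.IsVal x c) (h' : v.IsVal x d) : c = d := h.2.symm.trans h'.2
lemma IsVal.congr (h : v.IsVal x c) (hcd : c = d) : v.IsVal x d := hcd ▸ h

lemma ge_zero' : v.Ge (0 : K) c := Or.inl rfl
lemma gt_zero' : v.Gt (0 : K) c := Or.inl rfl
lemma Gt.ge (h : v.Gt x c) : v.Ge x c := h.imp id le_of_lt
lemma Ge.mono (h : v.Ge x c) (hd : d ≤ c) : v.Ge x d := h.imp id (le_trans hd)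
lemma Gt.mono (h : v.Gt x c) (hd : d ≤ c) : v.Gt x d := h.imp id (lt_of_le_of_lt hd)
lemma Ge.gt_of_lt (h : v.Ge x c) (hd : d < c) : v.Gt x d := h.imp id (lt_of_lt_of_le hd)
lemma Ge.le_w (h : v.Ge x c) (hx : x ≠ 0) : c ≤ v.w x := h.resolve_left hx
lemma Gt.lt_w (h : v.Gt x c) (hx : x ≠ 0) : c < v.w x := h.resolve_left hx
lemma ge_iff (hx : x ≠ 0) : v.Ge x c ↔ c ≤ v.w x := ⟨fun h => h.le_w hx, Or.inr⟩
lemma gt_iff (hx : x ≠ 0) : v.Gt x c ↔ c < v.w x := ⟨fun h => h.lt_w hx, Or.inr⟩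
lemma ge_or_isVal_lt (x : K) (c : ℚ) : v.Ge x c ∨ (x ≠ 0 ∧ v.w x < c) := by
  by_cases hx : x = 0
  · exact Or.inl (Or.inl hx)
  · rcases le_or_gt c (v.w x) with h | h
    · exact Or.inl (Or.inr h)
    · exact Or.inr ⟨hx, h⟩
lemma gt_or_isVal_le (x : K) (c : ℚ) : v.Gt x c ∨ (x ≠ 0 ∧ v.w x ≤ c) := by
  by_cases hx : x = 0
  · exact Or.inl (Or.inl hx)
  · rcases lt_or_ge c (v.w x) with h | h
    · exact Or.inl (Or.inr h)
    · exact Or.inr ⟨hx, h⟩

/-- an exact value is incompatible with a strictly larger lower bound -/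
lemma IsVal.not_gt (h : v.IsVal x c) (h' : v.Gt x c) : False := by
  rcases h' with h' | h'
  · exact h.1 h'
  · rw [h.2] at h'; exact lt_irrefl _ h'

lemma IsVal.not_gt_of_le (h : v.IsVal x c) (hd : c ≤ d) (h' : v.Gt x d) : False :=
  h.not_gt (h'.mono hd)

lemma IsVal.not_ge_of_lt (h : v.IsVal x c) (hd : c < d) (h' : v.Ge x d) : False :=
  h.not_gt (h'.gt_of_lt hd)

lemma w_neg_one : v.w (-1 : K) = 0 := by
  have h := v.map_mul (-1) (-1) (by simp) (by simp)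
  rw [neg_mul_neg, one_mul, v.map_one] at h
  linarith

@[simp] lemma w_neg (x : K) : v.w (-x) = v.w x := by
  by_cases hx : x = 0
  · simp [hx]
  · have h := v.map_mul (-1) x (by simp) hx
    rw [neg_one_mul, w_neg_one, zero_add] at h
    exact h

lemma w_inv (hx : x ≠ 0) : v.w x⁻¹ = - v.w x := by
  have h := v.map_mul x x⁻¹ hx (inv_ne_zero hx)
  rw [mul_inv_cancel₀ hx, v.map_one] at h
  linarith

lemma w_div (hx : x ≠ 0) (hy : y ≠ 0) : v.w (x / y) = v.w x - v.w y := by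
  rw [div_eq_mul_inv, v.map_mul x y⁻¹ hx (inv_ne_zero hy), w_inv hy]; ring

lemma w_pow (hx : x ≠ 0) (n : ℕ) : v.w (x ^ n) = n * v.w x := by
  induction n with
  | zero => simp [v.map_one]
  | succ n ih =>
    rw [pow_succ, v.map_mul _ _ (pow_ne_zero n hx) hx, ih]; push_cast; ring

lemma IsVal.neg (h : v.IsVal x c) : v.IsVal (-x) c := ⟨neg_ne_zero.mpr h.1, by rw [w_neg]; exact h.2⟩
lemma Ge.neg (h : v.Ge x c) : v.Ge (-x) c := by
  rcases h with h | h
  · exact Or.inl (by simp [h])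
  · exact Or.inr (by rwa [w_neg])
lemma Gt.neg (h : v.Gt x c) : v.Gt (-x) c := by
  rcases h with h | h
  · exact Or.inl (by simp [h])
  · exact Or.inr (by rwa [w_neg])

lemma IsVal.mul (hx : v.IsVal x c) (hy : v.IsVal y d) : v.IsVal (x * y) (c + d) :=
  ⟨mul_ne_zero hx.1 hy.1, by rw [v.map_mul x y hx.1 hy.1, hx.2, hy.2]⟩
lemma IsVal.inv (hx : v.IsVal x c) : v.IsVal x⁻¹ (-c) :=
  ⟨inv_ne_zero hx.1, by rw [w_inv hx.1, hx.2]⟩
lemma IsVal.div (hx : v.IsVal x c) (hy : v.IsVal y d) : v.IsVal (x / y) (c - d) :=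
  ⟨div_ne_zero hx.1 hy.1, by rw [w_div hx.1 hy.1, hx.2, hy.2]⟩
lemma IsVal.pow (hx : v.IsVal x c) (n : ℕ) : v.IsVal (x ^ n) (n * c) :=
  ⟨pow_ne_zero n hx.1, by rw [w_pow hx.1, hx.2]⟩

lemma Ge.mul (hx : v.Ge x c) (hy : v.Ge y d) : v.Ge (x * y) (c + d) := by
  rcases hx with hx | hx
  · exact Or.inl (by simp [hx])
  rcases hy with hy | hy
  · exact Or.inl (by simp [hy])
  by_cases hx0 : x = 0
  · exact Or.inl (by simp [hx0])
  by_cases hy0 : y = 0
  · exact Or.inl (by simp [hy0])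
  exact Or.inr (by rw [v.map_mul x y hx0 hy0]; linarith)

lemma Gt.mul_ge (hx : v.Gt x c) (hy : v.Ge y d) : v.Gt (x * y) (c + d) := by
  by_cases hx0 : x = 0
  · exact Or.inl (by simp [hx0])
  by_cases hy0 : y = 0
  · exact Or.inl (by simp [hy0])
  exact Or.inr (by rw [v.map_mul x y hx0 hy0]; have := hx.lt_w hx0; have := hy.le_w hy0; linarith)

lemma Ge.mul_gt (hx : v.Ge x c) (hy : v.Gt y d) : v.Gt (x * y) (c + d) := by
  rw [mul_comm, add_comm]; exact hy.mul_ge hx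

lemma Ge.pow (hx : v.Ge x c) (n : ℕ) : v.Ge (x ^ n) (n * c) := by
  by_cases hx0 : x = 0
  · rcases n with _ | n
    · exact Or.inr (by simp [v.map_one])
    · exact Or.inl (by simp [hx0])
  · exact Or.inr (by rw [w_pow hx0]; have := hx.le_w hx0; gcongr)

lemma Ge.add (hx : v.Ge x c) (hy : v.Ge y c) : v.Ge (x + y) c := by
  by_cases hx0 : x = 0
  · simpa [hx0] using hy
  by_cases hy0 : y = 0
  · simpa [hy0] using hx
  by_cases hxy : x + y = 0
  · exact Or.inl hxy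
  · exact Or.inr ((le_min (hx.le_w hx0) (hy.le_w hy0)).trans (v.map_add x y hx0 hy0 hxy))

lemma Gt.add (hx : v.Gt x c) (hy : v.Gt y c) : v.Gt (x + y) c := by
  by_cases hx0 : x = 0
  · simpa [hx0] using hy
  by_cases hy0 : y = 0
  · simpa [hy0] using hx
  by_cases hxy : x + y = 0
  · exact Or.inl hxy
  · exact Or.inr ((lt_min (hx.lt_w hx0) (hy.lt_w hy0)).trans_le (v.map_add x y hx0 hy0 hxy))

lemma Ge.sub (hx : v.Ge x c) (hy : v.Ge y c) : v.Ge (x - y) c := by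
  rw [sub_eq_add_neg]; exact hx.add hy.neg
lemma Gt.sub (hx : v.Gt x c) (hy : v.Gt y c) : v.Gt (x - y) c := by
  rw [sub_eq_add_neg]; exact hx.add hy.neg

/-- dominant term principle -/
lemma IsVal.add_gt (hx : v.IsVal x c) (hy : v.Gt y c) : v.IsVal (x + y) c := by
  by_cases hy0 : y = 0
  · simpa [hy0] using hx
  have hyc := hy.lt_w hy0
  have hne : x + y ≠ 0 := by
    intro h
    have hxy : x = -y := eq_neg_of_add_eq_zero_left h
    have := hx.2
    rw [hxy, w_neg] at this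
    linarith
  refine ⟨hne, le_antisymm ?_ ?_⟩
  · by_contra hlt
    rw [not_le] at hlt
    have h1 := v.map_add (x + y) (-y) hne (neg_ne_zero.mpr hy0) (by simpa using hx.1)
    rw [add_neg_cancel_right, w_neg, hx.2] at h1
    have := lt_min hlt hyc
    linarith
  · have h1 := v.map_add x y hx.1 hy0 hne
    rw [hx.2] at h1
    have : min c (v.w y) = c := min_eq_left hyc.le
    linarith

lemma IsVal.gt_add (hy : v.Gt y c) (hx : v.IsVal x c) : v.IsVal (y + x) c := by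
  rw [add_comm]; exact hx.add_gt hy
lemma IsVal.sub_gt (hx : v.IsVal x c) (hy : v.Gt y c) : v.IsVal (x - y) c := by
  rw [sub_eq_add_neg]; exact hx.add_gt hy.neg
lemma IsVal.gt_sub (hy : v.Gt y c) (hx : v.IsVal x c) : v.IsVal (y - x) c := by
  rw [sub_eq_add_neg]; exact hx.neg.gt_add hy

/-- if `x + y` is "small" then `x` and `y` have the same valuation -/
lemma IsVal.of_add_gt (hx : v.IsVal x c) (hxy : v.Gt (x + y) c) : v.IsVal y c := by
  have : y = -x + (x + y) := by ring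
  rw [this]; exact hx.neg.add_gt hxy

lemma IsVal.of_sq (h : v.IsVal (x ^ 2) c) : v.IsVal x (c / 2) := by
  have hx : x ≠ 0 := fun h0 => h.1 (by simp [h0])
  refine ⟨hx, ?_⟩
  have := h.2
  rw [w_pow hx] at this
  push_cast at this
  linarith

lemma Ge.of_sq (h : v.Ge (x ^ 2) c) : v.Ge x (c / 2) := by
  by_cases hx : x = 0
  · exact Or.inl hx
  · refine Or.inr ?_
    have := h.le_w (pow_ne_zero 2 hx)
    rw [w_pow hx] at this
    push_cast at this
    linarith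

lemma Gt.of_sq (h : v.Gt (x ^ 2) c) : v.Gt x (c / 2) := by
  by_cases hx : x = 0
  · exact Or.inl hx
  · refine Or.inr ?_
    have := h.lt_w (pow_ne_zero 2 hx)
    rw [w_pow hx] at this
    push_cast at this
    linarith

lemma isVal_one : v.IsVal (1 : K) 0 := ⟨one_ne_zero, v.map_one⟩

/-- nonzero natural numbers are integral -/
lemma ge_natCast (n : ℕ) : v.Ge (n : K) 0 := by
  induction n with
  | zero => exact Or.inl (by simp)
  | succ n ih => push_cast; exact ih.add isVal_one.ge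

lemma ge_intCast (n : ℤ) : v.Ge (n : K) 0 := by
  rcases Int.eq_nat_or_neg n with ⟨m, rfl | rfl⟩
  · rw [Int.cast_natCast]; exact ge_natCast m
  · rw [Int.cast_neg, Int.cast_natCast]; exact (ge_natCast m).neg

end QVal

/-- Three points `(xᵢ, yᵢ)` (counted with multiplicity) cut out on the curve
`Y^2 = X^3 + a X^2 + b X` by the line `Y = l X + n`.
This is exactly the data of three nonzero points with `P₁ + P₂ + P₃ = 0`. -/
structure Triple {K : Type*} [Field K] (a b : K) where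
  x₁ : K
  x₂ : K
  x₃ : K
  y₁ : K
  y₂ : K
  y₃ : K
  l : K
  n : K
  line₁ : y₁ = l * x₁ + n
  line₂ : y₂ = l * x₂ + n
  line₃ : y₃ = l * x₃ + n
  e₁ : x₁ + x₂ + x₃ = l ^ 2 - a
  e₂ : x₁ * x₂ + x₁ * x₃ + x₂ * x₃ = b - 2 * l * n
  e₃ : x₁ * x₂ * x₃ = n ^ 2

namespace Triple

variable {K : Type*} [Field K] {a b : K} (T : Triple a b)

/-- swap the first two points -/
def swap₁₂ : Triple a b where
  x₁ := T.x₂
  x₂ := T.x₁
  x₃ := T.x₃
  y₁ := T.y₂
  y₂ := T.y₁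
  y₃ := T.y₃
  l := T.l
  n := T.n
  line₁ := T.line₂
  line₂ := T.line₁
  line₃ := T.line₃
  e₁ := by rw [← T.e₁]; ring
  e₂ := by rw [← T.e₂]; ring
  e₃ := by rw [← T.e₃]; ring

/-- swap the last two points -/
def swap₂₃ : Triple a b where
  x₁ := T.x₁
  x₂ := T.x₃
  x₃ := T.x₂
  y₁ := T.y₁
  y₂ := T.y₃
  y₃ := T.y₂
  l := T.l
  n := T.n
  line₁ := T.line₁
  line₂ := T.line₃
  line₃ := T.line₂
  e₁ := by rw [← T.e₁]; ring
  e₂ := by rw [← T.e₂]; ring
  e₃ := by rw [← T.e₃]; ring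

/-- swap the first and last points -/
def swap₁₃ : Triple a b where
  x₁ := T.x₃
  x₂ := T.x₂
  x₃ := T.x₁
  y₁ := T.y₃
  y₂ := T.y₂
  y₃ := T.y₁
  l := T.l
  n := T.n
  line₁ := T.line₃
  line₂ := T.line₂
  line₃ := T.line₁
  e₁ := by rw [← T.e₁]; ring
  e₂ := by rw [← T.e₂]; ring
  e₃ := by rw [← T.e₃]; ring

lemma eq₁ : T.y₁ ^ 2 = T.x₁ ^ 3 + a * T.x₁ ^ 2 + b * T.x₁ := by
  rw [T.line₁]
  linear_combination (-(T.x₁ ^ 2)) * T.e₁ + T.x₁ * T.e₂ - T.e₃

lemma eq₂ : T.y₂ ^ 2 = T.x₂ ^ 3 + a * T.x₂ ^ 2 + b * T.x₂ := T.swap₁₂.eq₁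

lemma eq₃ : T.y₃ ^ 2 = T.x₃ ^ 3 + a * T.x₃ ^ 2 + b * T.x₃ := T.swap₁₃.eq₁

end Triple

/-- integrality hypotheses on the coefficients of `Y^2 = X^3 + a X^2 + b X` -/
structure Integral {K : Type*} [Field K] (v : QVal K) (a b : K) : Prop where
  two : v.IsVal (2 : K) 0
  a_int : v.Ge a 0
  b_int : v.Ge b 0

/-- nodal (multiplicative) hypotheses: `a` is a unit, `b` lies in the maximal ideal,
and `s` is a square root of `a` (the slope of a branch at the node `(0,0)`). -/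
structure Nodal {K : Type*} [Field K] (v : QVal K) (a b s : K) : Prop where
  two : v.IsVal (2 : K) 0
  a_unit : v.IsVal a 0
  b_ne : b ≠ 0
  b_pos : 0 < v.w b
  s_sq : s ^ 2 = a

lemma Nodal.integral {K : Type*} [Field K] {v : QVal K} {a b s : K} (h : Nodal v a b s) :
    Integral v a b :=
  ⟨h.two, h.a_unit.ge, Or.inr h.b_pos.le⟩

lemma Nodal.b_isVal {K : Type*} [Field K] {v : QVal K} {a b s : K} (h : Nodal v a b s) :
    v.IsVal b (v.w b) := ⟨h.b_ne, rfl⟩

lemma Nodal.s_unit {K : Type*} [Field K] {v : QVal K} {a b s : K} (h : Nodal v a b s) :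
    v.IsVal s 0 := by
  have := (h.s_sq ▸ h.a_unit : v.IsVal (s ^ 2) 0).of_sq
  simpa using this

end Fermat.Agent.S05
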