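import Fermat.Agent.S05.Basic

/-! S05-EFG (helper17): good reduction case, with ED and E1 as explicit hypotheses. -/

namespace Fermat.Agent.S05.helper17

open WeierstrassCurve WeierstrassCurve.Affine

variable {K : Type*} [Field K] {v : QVal K}

/-- powers of integral elements are integral -/
lemma ge_pow0 {x : K} (hx : v.Ge x 0) (n : ℕ) : v.Ge (x ^ n) 0 := by
  have := hx.pow n
  simpa using this

/-- integrality of natural number casts times something integral -/
lemma ge_natCast_mul (n : ℕ) {x : K} (hx : v.Ge x 0) : v.Ge ((n : K) * x) 0 := by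
  have := (QVal.ge_natCast (v := v) n).mul hx
  simpa using this

/-- if `y^2 = x^3 + a x^2 + b x` with `x, a, b` integral then `y` is integral -/
lemma y_integral {a b x y : K} (ha : v.Ge a 0) (hb : v.Ge b 0) (hx : v.Ge x 0)
    (h : y ^ 2 = x ^ 3 + a * x ^ 2 + b * x) : v.Ge y 0 := by
  have h3 : v.Ge (x ^ 3) 0 := ge_pow0 hx 3
  have h2 : v.Ge (a * x ^ 2) 0 := by
    have := ha.mul (ge_pow0 hx 2)
    simpa using this
  have h1 : v.Ge (b * x) 0 := by simpa using hb.mul hx
  have hy2 : v.Ge (y ^ 2) 0 := by rw [h]; exact (h3.add h2).add h1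
  simpa using hy2.of_sq

/-- nonsingular reduction in the good case: if `b` and `a^2 - 4b` are units, then for an integral
point either `y` is a unit or `3x^2 + 2ax + b` is a unit. -/
lemma good_nonsingular {a b x y : K} (h2 : v.IsVal (2 : K) 0) (ha : v.Ge a 0)
    (hb : v.IsVal b 0) (hd : v.IsVal (a ^ 2 - 4 * b) 0) (hx : v.Ge x 0)
    (h : y ^ 2 = x ^ 3 + a * x ^ 2 + b * x) :
    v.IsVal y 0 ∨ v.IsVal (3 * x ^ 2 + 2 * a * x + b) 0 := by
  have hy : v.Ge y 0 := y_integral ha hb.ge hx h
  by_cases hy0 : v.IsVal y 0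
  · exact Or.inl hy0
  right
  -- `y` is in the maximal ideal
  have hyG : v.Gt y 0 := by
    rcases QVal.gt_or_isVal_le (v := v) y 0 with h' | ⟨hne, hle⟩
    · exact h'
    · exact absurd ⟨hne, le_antisymm hle (hy.le_w hne)⟩ hy0
  have hy2 : v.Gt (y ^ 2) 0 := by
    have := hyG.mul_ge hy
    simpa [sq] using this
  have h3 : v.Ge ((3 : K) * x ^ 2) 0 := by
    have := ge_natCast_mul (v := v) 3 (ge_pow0 hx 2)
    simpa using this
  have h2a : v.Ge (2 * a * x) 0 := by
    have := (h2.ge.mul ha).mul hx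
    simpa using this
  by_cases hx0 : v.IsVal x 0
  · -- `x` is a unit, so `g = x^2 + a x + b` is in the maximal ideal
    have hg : v.Gt (x ^ 2 + a * x + b) 0 := by
      have hprod : x * (x ^ 2 + a * x + b) = y ^ 2 := by rw [h]; ring
      have hgG : v.Ge (x ^ 2 + a * x + b) 0 := by
        have h1 : v.Ge (x ^ 2) 0 := ge_pow0 hx 2
        have h2' : v.Ge (a * x) 0 := by simpa using ha.mul hx
        exact (h1.add h2').add hb.ge
      rcases QVal.gt_or_isVal_le (v := v) (x ^ 2 + a * x + b) 0 with h' | ⟨hne, hle⟩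
      · exact h'
      · exfalso
        have hgV : v.IsVal (x ^ 2 + a * x + b) 0 := ⟨hne, le_antisymm hle (hgG.le_w hne)⟩
        have := hx0.mul hgV
        rw [hprod] at this
        exact this.not_gt (by simpa using hy2)
    -- `(2x + a)^2 = 4 g + (a^2 - 4b)` is a unit
    have h4g : v.Gt (4 * (x ^ 2 + a * x + b)) 0 := by
      have h4 : v.Ge (4 : K) 0 := by
        have := QVal.ge_natCast (v := v) 4
        simpa using this
      have := h4.mul_gt hg
      simpa using this
    have hsq : v.IsVal ((2 * x + a) ^ 2) 0 := by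
      have : (2 * x + a) ^ 2 = (a ^ 2 - 4 * b) + 4 * (x ^ 2 + a * x + b) := by ring
      rw [this]
      exact hd.add_gt h4g
    have h2xa : v.IsVal (2 * x + a) 0 := by simpa using hsq.of_sq
    have hmain : v.IsVal (x * (2 * x + a)) 0 := by simpa using hx0.mul h2xa
    have : 3 * x ^ 2 + 2 * a * x + b = x * (2 * x + a) + (x ^ 2 + a * x + b) := by ring
    rw [this]
    exact hmain.add_gt hg
  · -- `x` is in the maximal ideal, `b` dominates
    have hxG : v.Gt x 0 := by
      rcases QVal.gt_or_isVal_le (v := v) x 0 with h' | ⟨hne, hle⟩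
      · exact h'
      · exact absurd ⟨hne, le_antisymm hle (hx.le_w hne)⟩ hx0
    have h3' : v.Gt ((3 : K) * x ^ 2) 0 := by
      have h3c : v.Ge (3 : K) 0 := by
        have := QVal.ge_natCast (v := v) 3
        simpa using this
      have hx2 : v.Gt (x ^ 2) 0 := by
        have := hxG.mul_ge hx
        simpa [sq] using this
      have := h3c.mul_gt hx2
      simpa using this
    have h2a' : v.Gt (2 * a * x) 0 := by
      have := (h2.ge.mul ha).mul_gt hxG
      simpa using this
    have : 3 * x ^ 2 + 2 * a * x + b = b + (3 * x ^ 2 + 2 * a * x) := by ring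
    rw [this]
    exact hb.add_gt (h3'.add h2a')

variable [DecidableEq K] {W : WeierstrassCurve K}

/-- EFG with ED and E1 as explicit hypotheses. -/
theorem inertia_fixes_torsion_good_aux (hW : LegCurve W) (hI : Integral v W.a₂ W.a₄)
    (hED : ∀ {x y : K} (h : W.toAffine.Nonsingular x y), x ≠ 0 → v.w x < 0 → ∀ k : ℕ,
      v.IsVal (k : K) 0 → k • Point.some x y h ≠ 0)
    (hE1 : ∀ {x₁ y₁ x₂ y₂ : K} (h₁ : W.toAffine.Nonsingular x₁ y₁)
      (h₂ : W.toAffine.Nonsingular x₂ y₂), v.Ge x₁ 0 → v.Ge y₁ 0 → v.Gt (x₁ - x₂) 0 →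
      v.Gt (y₁ - y₂) 0 →
      (v.IsVal y₁ 0 ∨ v.IsVal (3 * x₁ ^ 2 + 2 * W.a₂ * x₁ + W.a₄) 0) →
      (Point.some x₁ y₁ h₁ - Point.some x₂ y₂ h₂ = 0 ∨
        ∃ x y h, Point.some x₁ y₁ h₁ - Point.some x₂ y₂ h₂ = Point.some x y h ∧
          x ≠ 0 ∧ v.w x < 0))
    (hb : v.IsVal W.a₄ 0) (hd : v.IsVal (W.a₂ ^ 2 - 4 * W.a₄) 0)
    (σ : K →+* K)
    (hσ : ∀ x, v.Ge x 0 → v.Gt (σ x - x) 0)
    (Φ : W.toAffine.Point →+ W.toAffine.Point)
    (hΦ : ∀ (x y : K) (h : W.toAffine.Nonsingular x y),
      ∃ h' : W.toAffine.Nonsingular (σ x) (σ y), Φ (Point.some x y h) = Point.some (σ x) (σ y) h')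
    (p : ℕ) (hp : v.IsVal (p : K) 0) (P : W.toAffine.Point) (hP : p • P = 0) : Φ P = P := by
  rcases P with _ | ⟨x, y, h⟩
  · exact map_zero Φ
  obtain ⟨h', hΦP⟩ := hΦ x y h
  have heq := hW.eqn h
  by_cases hx0 : x = 0
  · -- the point `(0, 0)`
    have hy0 : y = 0 := by
      rw [hx0] at heq
      have : y ^ 2 = 0 := by rw [heq]; ring
      exact pow_eq_zero_iff (two_ne_zero) |>.mp this
    rw [hΦP]
    exact some_congr (by rw [hx0, map_zero]) (by rw [hy0, map_zero])
  · rcases QVal.ge_or_isVal_lt (v := v) x 0 with hxG | ⟨_, hxlt⟩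
    · -- integral point
      have hyG : v.Ge y 0 := y_integral hI.a_int hI.b_int hxG heq
      have hns := good_nonsingular hI.two hI.a_int hb hd hxG heq
      have hxσ : v.Gt (x - σ x) 0 := by
        have := (hσ x hxG).neg
        simpa using this
      have hyσ : v.Gt (y - σ y) 0 := by
        have := (hσ y hyG).neg
        simpa using this
      rcases hE1 h h' hxG hyG hxσ hyσ hns with h0 | ⟨x', y', hQ, hQe, hx'0, hx'w⟩
      · rw [hΦP]
        exact (sub_eq_zero.mp h0).symm
      · exfalso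
        have hpQ : p • Point.some x' y' hQ = 0 := by
          rw [← hQe, ← hΦP, smul_sub, hP, ← map_nsmul, hP, map_zero, sub_zero]
        exact hED hQ hx'0 hx'w p hp hpQ
    · -- point in the kernel of reduction: impossible for a torsion point
      exact absurd hP (hED h hx0 hxlt p hp)

end Fermat.Agent.S05.helper17
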